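import Mathlib
import Fermat.Agent.MU.F3.DictC.Invariants
import Fermat.Agent.MU.S48.W.A.Dict.Amb

section MergeWrap_S48_W_A_Dict_AmbInv -- from S48/W/A/Dict/AmbInv.lean

set_option autoImplicit false

noncomputable section

namespace Fermat.Agent.S48WA2

open UpperHalfPlane Fermat.Agent.F3Dict Fermat.Agent.F3DictInv
open scoped MatrixGroups Manifold

/-! ### invariants of `AH M` -/

/-- the induction on the pole order: an invariant holomorphic function with an expansion at `∞`
whose pole order is at most `M * N` (in `u`) is a polynomial in `j`. -/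
theorem ambInv_exists_aeval_of_bound (M : ℕ) [NeZero M] :
    ∀ (N : ℕ) (f : Fun), IsHol f → (∀ γ : SL(2, ℤ), γ • f = f) →
      ∀ a : LaurentSeries Kc, HasExp M f a →
      (∀ n : ℤ, n < -((M : ℤ) * N) → a.coeff n = 0) →
      ∃ P : Polynomial Kc, Polynomial.aeval jFun P = f := by
  intro N
  induction N with
  | zero =>
      intro f hf hinv a ha h0
      refine ⟨Polynomial.C (a.coeff 0), ?_⟩
      rw [Polynomial.aeval_C]
      exact (eq_algebraMap_of_no_pole hinv hf ha (by simpa using h0)).symm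
  | succ N ih =>
      intro f hf hinv a ha h0
      have hM : (0 : ℤ) < M := by exact_mod_cast Nat.pos_of_ne_zero (NeZero.ne M)
      set c : Kc := a.coeff (-((M : ℤ) * ((N + 1 : ℕ) : ℤ))) with hc
      set J : LaurentSeries Kc := ModularCurve.qExpand Kc M (ModularCurve.jqModC Kc)
        with hJ
      have hJexp : HasExp M jFun J := hasExp_jFun M
      have hg_exp : HasExp M (f - algebraMap Kc Fun c * jFun ^ (N + 1))
          (a - algebraMap Kc (LaurentSeries Kc) c * J ^ (N + 1)) :=
        ha.sub ((HasExp.algebraMap M c).mul (hasExp_pow hJexp (N + 1)))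
      have hg_hol : IsHol (f - algebraMap Kc Fun c * jFun ^ (N + 1)) := by
        have h1 : IsHol (algebraMap Kc Fun c * jFun ^ (N + 1)) :=
          isHol_of_mem_AL (M := M)
            (mul_mem (Subalgebra.algebraMap_mem _ c) (pow_mem (jAL M).2 _))
        have h2 : IsHol (algebraMap Kc Fun (-1) * (algebraMap Kc Fun c * jFun ^ (N + 1))) :=
          (isHol_algebraMap (-1)).mul h1
        have h3 : f - algebraMap Kc Fun c * jFun ^ (N + 1)
            = f + algebraMap Kc Fun (-1) * (algebraMap Kc Fun c * jFun ^ (N + 1)) := by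
          rw [map_neg, map_one]; ring
        rw [h3]
        exact hf.add h2
      have hg_inv : ∀ γ : SL(2, ℤ), γ • (f - algebraMap Kc Fun c * jFun ^ (N + 1))
          = f - algebraMap Kc Fun c * jFun ^ (N + 1) := by
        intro γ
        have h1 : γ • (algebraMap Kc Fun c) = algebraMap Kc Fun c := by
          ext τ; simp
        rw [smul_sub, smul_mul', smul_pow', hinv γ, jFun_smul γ, h1]
      have hT : ModularGroup.T • f = f := hinv _
      have hcoeff : ∀ n : ℤ, n < -((M : ℤ) * (N : ℤ)) →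
          (a - algebraMap Kc (LaurentSeries Kc) c * J ^ (N + 1)).coeff n = 0 := by
        intro n hn
        rw [HahnSeries.coeff_sub, coeff_algebraMap_mul]
        by_cases hdvd : (M : ℤ) ∣ n
        · obtain ⟨k, rfl⟩ := hdvd
          have hk : k < -(N : ℤ) := by
            have h1 : (M : ℤ) * k < (M : ℤ) * (-(N : ℤ)) := by rw [mul_neg]; exact hn
            exact lt_of_mul_lt_mul_left h1 hM.le
          rcases lt_or_eq_of_le (show k ≤ -((N + 1 : ℕ) : ℤ) by push_cast; omega) with hlt | heq
          · have h2 : (M : ℤ) * k < -((M : ℤ) * ((N + 1 : ℕ) : ℤ)) := by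
              rw [← mul_neg]; exact mul_lt_mul_of_pos_left hlt hM
            rw [h0 _ h2, coeff_qExpand_jqModC_pow_of_lt M (N + 1) h2, mul_zero, sub_zero]
          · subst heq
            rw [mul_neg, coeff_qExpand_jqModC_pow M (N + 1), mul_one, ← hc, sub_self]
        · rw [coeff_eq_zero_of_T_smul ha hT hdvd, zero_sub, neg_eq_zero]
          have : (J ^ (N + 1)).coeff n = 0 := by
            rw [hJ, ← map_pow]
            exact ModularCurve.qExpand_coeff_of_not_dvd M _ hdvd
          rw [this, mul_zero]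
      obtain ⟨P, hP⟩ := ih _ hg_hol hg_inv _ hg_exp hcoeff
      refine ⟨P + Polynomial.C c * Polynomial.X ^ (N + 1), ?_⟩
      rw [map_add, map_mul, Polynomial.aeval_C, map_pow, Polynomial.aeval_X, hP]
      exact sub_add_cancel _ _

/-- an invariant holomorphic function with a (finite-tailed) expansion at `∞` is a polynomial
in `j`. -/
theorem ambInv_exists_aeval_of_hasExp (M : ℕ) [NeZero M] {f : Fun} (hhol : IsHol f)
    (hinv : ∀ γ : SL(2, ℤ), γ • f = f) {a : LaurentSeries Kc} (ha : HasExp M f a) :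
    ∃ P : Polynomial Kc, Polynomial.aeval jFun P = f := by
  obtain ⟨m, p, hap, hp⟩ := id ha
  refine ambInv_exists_aeval_of_bound M m f hhol hinv a ha ?_
  intro n hn
  rw [hap]
  refine coeff_eq_zero_of_lt_of_hasExp_aux m p (lt_of_lt_of_le hn ?_)
  have hM : (1 : ℤ) ≤ M := by exact_mod_cast Nat.pos_of_ne_zero (NeZero.ne M)
  have hm : (0 : ℤ) ≤ m := Int.natCast_nonneg m
  nlinarith

/-- **A2-INVAR, function level.** An `SL(2,ℤ)`-invariant element of `AH M` is a polynomial
in `j`. -/
theorem exists_aeval_jFun_of_isAH (M : ℕ) [NeZero M] {f : Fun} (hf : IsAH M f)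
    (hinv : ∀ γ : SL(2, ℤ), γ • f = f) :
    ∃ P : Polynomial ℂ, Polynomial.aeval jFun P = f := by
  obtain ⟨a, ha⟩ := exists_hasExp_of_mem_AH (M := M) (f := f) hf
  exact ambInv_exists_aeval_of_hasExp M hf.1 hinv ha

/-- **A2-INVAR, `AH`-level.** -/
theorem exists_aeval_jAH_of_invariant (M : ℕ) [NeZero M] (f : AH M)
    (hf : ∀ γ : SL(2, ℤ), γ • f = f) :
    ∃ P : Polynomial ℂ, Polynomial.aeval (jAH M) P = f := by
  have hinv : ∀ γ : SL(2, ℤ), γ • (f : Fun) = (f : Fun) := by
    intro γ
    have := congrArg (fun g : AH M => (g : Fun)) (hf γ)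
    simpa using this
  obtain ⟨P, hP⟩ := exists_aeval_jFun_of_isAH M f.2 hinv
  refine ⟨P, Subtype.ext ?_⟩
  rw [← hP]
  have h1 := Polynomial.aeval_algHom_apply (AH M).val (jAH M) P
  exact h1.symm

/-! ### invariants of the fraction field -/

/-- `Γ(M)` acts trivially on `AH M`. -/
theorem ambInv_Gamma_smul_AH (M : ℕ) [NeZero M] (γ : SL(2, ℤ))
    (hγ : γ ∈ CongruenceSubgroup.Gamma M) (f : AH M) : γ • f = f :=
  Subtype.ext (smul_eq_of_mem_AH f.2 hγ)

/-- the orbit of an element of `AH M` is finite. -/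
theorem ambInv_finite_orbit (M : ℕ) [NeZero M] (b : AH M) :
    (MulAction.orbit SL(2, ℤ) b).Finite := by
  have hle : CongruenceSubgroup.Gamma M ≤ MulAction.stabilizer SL(2, ℤ) b := by
    intro γ hγ
    exact ambInv_Gamma_smul_AH M γ hγ b
  have : (MulAction.stabilizer SL(2, ℤ) b).FiniteIndex := Subgroup.finiteIndex_of_le hle
  have : Finite (SL(2, ℤ) ⧸ MulAction.stabilizer SL(2, ℤ) b) :=
    Subgroup.finite_quotient_of_finiteIndex
  have e := MulAction.orbitEquivQuotientStabilizer SL(2, ℤ) b
  have : Finite (MulAction.orbit SL(2, ℤ) b) := Finite.of_equiv _ e.symm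
  exact Set.toFinite _

/-- **A2-INVAR, field level.** The `SL(2,ℤ)`-invariants of `LH M` are `ℂ(j)`. -/
theorem mem_adjoin_jLH_of_invariant (M : ℕ) [NeZero M] (x : LH M)
    (hx : ∀ γ : SL(2, ℤ), γ • x = x) :
    x ∈ IntermediateField.adjoin ℂ {jLH M} := by
  classical
  obtain ⟨a, b, hb, rfl⟩ := IsFractionRing.div_surjective (A := AH M) x
  have hb0 : b ≠ 0 := nonZeroDivisors.ne_zero hb
  -- the orbit of the denominator
  have hfin := ambInv_finite_orbit M b
  set O : Finset (AH M) := hfin.toFinset with hO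
  have hmemO : ∀ y : AH M, y ∈ O ↔ ∃ g : SL(2, ℤ), g • b = y := by
    intro y
    rw [hO, Set.Finite.mem_toFinset]
    exact MulAction.mem_orbit_iff
  have hbO : b ∈ O := (hmemO b).mpr ⟨1, one_smul _ b⟩
  -- the norm and the cofactor
  set Nm : AH M := ∏ y ∈ O, y with hNm
  set c : AH M := ∏ y ∈ O.erase b, y with hc
  have hNmc : Nm = b * c := by
    rw [hNm, hc, Finset.mul_prod_erase O (fun y => y) hbO]
  have hNm_inv : ∀ γ : SL(2, ℤ), γ • Nm = Nm := by
    intro γ
    rw [hNm, Finset.smul_prod']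
    refine Finset.prod_nbij (fun y => γ • y) ?_ ?_ ?_ ?_
    · intro y hy
      obtain ⟨g, rfl⟩ := (hmemO y).mp hy
      exact (hmemO _).mpr ⟨γ * g, mul_smul γ g b⟩
    · intro y _ z _ hyz
      exact MulAction.injective γ hyz
    · intro z hz
      obtain ⟨g, rfl⟩ := (hmemO z).mp hz
      refine ⟨(γ⁻¹ * g) • b, ?_, ?_⟩
      · exact (hmemO _).mpr ⟨γ⁻¹ * g, rfl⟩
      · simp [mul_smul]
    · intro y _
      rfl
  have hNm0 : Nm ≠ 0 := by
    rw [hNm, Finset.prod_ne_zero_iff]
    intro y hy
    obtain ⟨g, rfl⟩ := (hmemO y).mp hy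
    exact (smul_ne_zero_iff_ne g).mpr hb0
  -- the numerator `a * c` is invariant
  have hxeq : algebraMap (AH M) (LH M) a / algebraMap (AH M) (LH M) b
      = algebraMap (AH M) (LH M) (a * c) / algebraMap (AH M) (LH M) Nm := by
    have hb' : algebraMap (AH M) (LH M) b ≠ 0 := by
      simpa using (IsFractionRing.injective (AH M) (LH M)).ne hb0
    have hc0 : c ≠ 0 := by
      intro h0
      apply hNm0
      rw [hNmc, h0, mul_zero]
    have hc' : algebraMap (AH M) (LH M) c ≠ 0 := by
      simpa using (IsFractionRing.injective (AH M) (LH M)).ne hc0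
    rw [hNmc, map_mul, map_mul]
    field_simp
  have hNm' : algebraMap (AH M) (LH M) Nm ≠ 0 := by
    simpa using (IsFractionRing.injective (AH M) (LH M)).ne hNm0
  have hac_inv : ∀ γ : SL(2, ℤ), γ • (a * c) = a * c := by
    intro γ
    apply IsFractionRing.injective (AH M) (LH M)
    rw [← LH.smul_algebraMap]
    have h1 : algebraMap (AH M) (LH M) (a * c)
        = (algebraMap (AH M) (LH M) a / algebraMap (AH M) (LH M) b)
          * algebraMap (AH M) (LH M) Nm := by
      rw [hxeq]
      field_simp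
    rw [h1, smul_mul', hx γ, LH.smul_algebraMap, hNm_inv γ]
  obtain ⟨P, hP⟩ := exists_aeval_jAH_of_invariant M (a * c) hac_inv
  obtain ⟨Q, hQ⟩ := exists_aeval_jAH_of_invariant M Nm hNm_inv
  rw [hxeq, IntermediateField.mem_adjoin_simple_iff]
  refine ⟨P, Q, ?_⟩
  have hj : ∀ R : Polynomial ℂ, Polynomial.aeval (jLH M) R
      = algebraMap (AH M) (LH M) (Polynomial.aeval (jAH M) R) := by
    intro R
    rw [jLH, ← Polynomial.aeval_algebraMap_apply]
  rw [hj, hj, hP, hQ]

/-! ### `j` is transcendental -/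

/-- the expansion of `j` at `∞` in `LH M`. -/
theorem expLH_jLH (M : ℕ) [NeZero M] :
    expLH M (jLH M) = ModularCurve.qExpand Kc M (ModularCurve.jqModC Kc) := by
  unfold jLH
  rw [expLH_algebraMap]
  exact expAH_eq (f := jAH M) (hasExp_jFun M)

/-- **A2-INVAR.** `j` is transcendental over `ℂ` in `LH M` (it has a pole at `∞`). -/
theorem transcendental_jLH (M : ℕ) [NeZero M] : Transcendental ℂ (jLH M) := by
  intro halg
  -- an algebraic element over an algebraically closed field is a constant
  have hint : IsIntegral ℂ (jLH M) := halg.isIntegral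
  have hirr := minpoly.irreducible hint
  have hdeg := IsAlgClosed.degree_eq_one_of_irreducible ℂ hirr
  obtain ⟨c, hc⟩ := minpoly.mem_range_of_degree_eq_one ℂ (jLH M) hdeg
  have h1 : expLH M (jLH M) = algebraMap Kc (LaurentSeries Kc) c := by
    rw [← hc]
    exact (expLH M).commutes c
  rw [expLH_jLH] at h1
  have h2 := coeff_qExpand_jqModC_pow M 1
  rw [pow_one, h1, algebraMap_eq_single, HahnSeries.coeff_single_of_ne] at h2
  · exact zero_ne_one h2
  · have hM : (M : ℤ) ≠ 0 := by exact_mod_cast NeZero.ne M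
    intro h
    apply hM
    have : (M : ℤ) * ((1 : ℕ) : ℤ) = 0 := by
      have := congrArg (fun t : ℤ => -t) h
      simpa using this
    simpa using this

end Fermat.Agent.S48WA2
end
end MergeWrap_S48_W_A_Dict_AmbInv
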