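import Mathlib
import Fermat.Agent.MU.S48.W.A.Dict.Amb
import Fermat.Agent.MU.F3.DictC.Val
import Fermat.Agent.MU.F3.Dict.ChartsC

section MergeWrap_S48_W_A_Dict_AmbVal -- from S48/W/A/Dict/AmbVal.lean

set_option autoImplicit false

noncomputable section

namespace Fermat.Agent.S48WA2

open UpperHalfPlane Fermat.Agent.F3Dict Fermat.Agent.F3Places
open scoped MatrixGroups Manifold

/-! ### the order at a point of `ℍ` -/

/-- The valuation `exp (- ord_{τ₀})` of `AH M`. -/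
def valAH (M : ℕ) [NeZero M] (τ₀ : ℍ) : Valuation (AH M) (WithZero (Multiplicative ℤ)) where
  toFun f := expNeg (ordAt τ₀ (f : Fun))
  map_zero' := by
    show expNeg (ordAt τ₀ (0 : Fun)) = 0
    rw [ordAt_zero, expNeg_top]
  map_one' := by
    show expNeg (ordAt τ₀ (1 : Fun)) = 1
    rw [ordAt_one, expNeg_zero]
  map_mul' f g := by
    show expNeg (ordAt τ₀ ((f : Fun) * (g : Fun))) = _
    rw [(isHol_of_mem_AH f.2).ordAt_mul (isHol_of_mem_AH g.2), expNeg_add]
  map_add_le_max' f g := by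
    show expNeg (ordAt τ₀ ((f : Fun) + (g : Fun))) ≤ _
    exact expNeg_le_max_of_min_le (min_ordAt_le_add _ _ τ₀)

theorem valAH_apply (M : ℕ) [NeZero M] (τ₀ : ℍ) (f : AH M) :
    valAH M τ₀ f = expNeg (ordAt τ₀ (f : Fun)) := rfl

theorem valAH_eq_zero_iff (M : ℕ) [NeZero M] (τ₀ : ℍ) (f : AH M) : valAH M τ₀ f = 0 ↔ f = 0 := by
  rw [valAH_apply, expNeg_eq_zero_iff, (isHol_of_mem_AH f.2).ordAt_eq_top_iff]
  exact ⟨fun h => Subtype.ext h, fun h => congrArg Subtype.val h⟩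

theorem valAH_smul (M : ℕ) [NeZero M] {τ₀ : ℍ} (γ : SL(2, ℤ)) (hγ : γ • τ₀ = τ₀) (f : AH M) :
    valAH M τ₀ (γ • f) = valAH M τ₀ f := by
  rw [valAH_apply, valAH_apply, AH.coe_smul, (isHol_of_mem_AH f.2).ordAt_smul γ hγ]

theorem valAH_smul_eq (M : ℕ) [NeZero M] (γ : SL(2, ℤ)) (τ₀ : ℍ) (f : AH M) :
    valAH M τ₀ (γ • f) = valAH M (γ⁻¹ • τ₀) f := by
  rw [valAH_apply, valAH_apply, AH.coe_smul, ordAtC_smul_eq (isHol_of_mem_AH f.2) γ τ₀]

theorem nonZeroDivisors_le_valAH_supp (M : ℕ) [NeZero M] (τ₀ : ℍ) :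
    nonZeroDivisors (AH M) ≤ (valAH M τ₀).supp.primeCompl := by
  intro f hf hmem
  rw [SetLike.mem_coe, Valuation.mem_supp_iff, valAH_eq_zero_iff] at hmem
  exact nonZeroDivisors.ne_zero hf hmem

/-- **The valuation `exp (- ord_{τ₀})` of `LH M`.** -/
def valLH (M : ℕ) [NeZero M] (τ₀ : ℍ) : Valuation (LH M) (WithZero (Multiplicative ℤ)) :=
  (valAH M τ₀).extendToLocalization (nonZeroDivisors_le_valAH_supp M τ₀) (LH M)

@[simp] theorem valLH_algebraMap (M : ℕ) [NeZero M] (τ₀ : ℍ) (f : AH M) :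
    valLH M τ₀ (algebraMap (AH M) (LH M) f) = valAH M τ₀ f :=
  Valuation.extendToLocalization_apply_map_apply _ _ _ f

theorem valLH_ofFun (M : ℕ) [NeZero M] (τ₀ : ℍ) (f : Fun) (hf : IsAH M f) :
    valLH M τ₀ (LH.ofFun f hf) = expNeg (ordAt τ₀ f) :=
  valLH_algebraMap M τ₀ ⟨f, hf⟩

theorem valLH_smul (M : ℕ) [NeZero M] {τ₀ : ℍ} (γ : SL(2, ℤ)) (hγ : γ • τ₀ = τ₀) (x : LH M) :
    valLH M τ₀ (γ • x) = valLH M τ₀ x := by
  obtain ⟨a, b, hb, rfl⟩ := IsFractionRing.div_surjective (A := AH M) x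
  rw [smul_div₀', LH.smul_algebraMap, LH.smul_algebraMap, map_div₀, map_div₀,
    valLH_algebraMap, valLH_algebraMap, valLH_algebraMap, valLH_algebraMap,
    valAH_smul M γ hγ, valAH_smul M γ hγ]

/-- the valuations `valLH M τ` are permuted by `SL(2,ℤ)`. -/
theorem valLH_smul_eq (M : ℕ) [NeZero M] (γ : SL(2, ℤ)) (τ₀ : ℍ) (x : LH M) :
    valLH M τ₀ (γ • x) = valLH M (γ⁻¹ • τ₀) x := by
  obtain ⟨a, b, hb, rfl⟩ := IsFractionRing.div_surjective (A := AH M) x
  rw [smul_div₀', LH.smul_algebraMap, LH.smul_algebraMap, map_div₀, map_div₀,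
    valLH_algebraMap, valLH_algebraMap, valLH_algebraMap, valLH_algebraMap,
    valAH_smul_eq M γ τ₀, valAH_smul_eq M γ τ₀]

theorem valLH_algebraMap_K (M : ℕ) [NeZero M] (τ₀ : ℍ) {a : Kc} (ha : a ≠ 0) :
    valLH M τ₀ (algebraMap Kc (LH M) a) = 1 := by
  rw [IsScalarTower.algebraMap_apply Kc (AH M) (LH M), valLH_algebraMap, valAH_apply]
  show expNeg (ordAt τ₀ (algebraMap Kc Fun a)) = 1
  rw [ordAt_algebraMap τ₀ ha, expNeg_zero]

/-- The valuation of `j - c` at `τ₀` from the analytic order. -/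
theorem valLH_jLH_sub (M : ℕ) [NeZero M] (τ₀ : ℍ) (c : Kc) (k : ℕ)
    (h : analyticOrderAt (fun z : ℂ => jFun (ofComplex z) - iota c) (τ₀ : ℂ) = (k : ℕ∞)) :
    valLH M τ₀ (jLH M - algebraMap Kc (LH M) c) = WithZero.exp (-(k : ℤ)) := by
  have e : jLH M - algebraMap Kc (LH M) c
      = algebraMap (AH M) (LH M) (jAH M - algebraMap Kc (AH M) c) := by
    rw [map_sub, ← IsScalarTower.algebraMap_apply Kc (AH M) (LH M)]
    rfl
  rw [e, valLH_algebraMap, valAH_apply]
  have h' : ordAt τ₀ ((jAH M - algebraMap Kc (AH M) c : AH M) : Fun) = (k : ℕ∞) := h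
  rw [h', expNeg_coe]

/-! ### the order at `∞` -/

/-- The order at `∞` as a valuation of `AH M`. -/
def winfAH (M : ℕ) [NeZero M] : Valuation (AH M) (WithZero (Multiplicative ℤ)) :=
  (Valued.v : Valuation (LaurentSeries Kc) (WithZero (Multiplicative ℤ))).comap
    (expAH M).toRingHom

theorem winfAH_apply (M : ℕ) [NeZero M] (f : AH M) : winfAH M f = Valued.v (expAH M f) := rfl

theorem winfAH_eq_zero_iff (M : ℕ) [NeZero M] (f : AH M) : winfAH M f = 0 ↔ f = 0 := by
  rw [winfAH_apply, Valuation.zero_iff]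
  exact map_eq_zero_iff _ (expAH_injective M)

theorem nonZeroDivisors_le_winfAH_supp (M : ℕ) [NeZero M] :
    nonZeroDivisors (AH M) ≤ (winfAH M).supp.primeCompl := by
  intro f hf hmem
  rw [SetLike.mem_coe, Valuation.mem_supp_iff, winfAH_eq_zero_iff] at hmem
  exact nonZeroDivisors.ne_zero hf hmem

theorem winfAH_T_smul (M : ℕ) [NeZero M] (f : AH M) :
    winfAH M (ModularGroup.T • f) = winfAH M f := by
  obtain ⟨b, hb, ζ, hζ, hcoeff⟩ := (hasExp_expAH f).T_smul
  have hb' : HasExp M ((ModularGroup.T • f : AH M) : Fun) b := hb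
  rw [winfAH_apply, winfAH_apply, expAH_eq hb']
  have hζ0 : ζ ≠ 0 := by
    rintro rfl
    rw [map_zero] at hζ
    exact Complex.exp_ne_zero _ hζ.symm
  refine laurent_valuation_eq_of_coeff_iff fun n => ?_
  rw [hcoeff n]
  constructor
  · intro h
    exact (mul_eq_zero.mp h).resolve_left (zpow_ne_zero n (inv_ne_zero hζ0))
  · intro h
    rw [h, mul_zero]

/-- **The order at `∞` (in `u = exp(2πiτ/M)`) as a valuation of `LH M`.** -/
def winfH (M : ℕ) [NeZero M] : Valuation (LH M) (WithZero (Multiplicative ℤ)) :=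
  (winfAH M).extendToLocalization (nonZeroDivisors_le_winfAH_supp M) (LH M)

theorem winfH_algebraMap (M : ℕ) [NeZero M] (f : AH M) :
    winfH M (algebraMap (AH M) (LH M) f) = winfAH M f :=
  Valuation.extendToLocalization_apply_map_apply _ _ _ f

theorem winfH_ofFun (M : ℕ) [NeZero M] (f : Fun) (hf : IsAH M f) {a : LaurentSeries Kc}
    (h : HasExp M f a) : winfH M (LH.ofFun f hf) = Valued.v a := by
  unfold LH.ofFun
  rw [winfH_algebraMap, winfAH_apply, expAH_eq h]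

/-- `winfH` is the `u`-adic valuation of the expansion. -/
theorem winfH_eq_valued_expLH (M : ℕ) [NeZero M] (x : LH M) :
    winfH M x = Valued.v (expLH M x) := by
  obtain ⟨a, b, hb, rfl⟩ := IsFractionRing.div_surjective (A := AH M) x
  rw [map_div₀, map_div₀, winfH_algebraMap, winfH_algebraMap, expLH_algebraMap,
    expLH_algebraMap, map_div₀, winfAH_apply, winfAH_apply]

theorem winfH_T_smul (M : ℕ) [NeZero M] (x : LH M) :
    winfH M (ModularGroup.T • x) = winfH M x := by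
  obtain ⟨a, b, hb, rfl⟩ := IsFractionRing.div_surjective (A := AH M) x
  rw [smul_div₀', LH.smul_algebraMap, LH.smul_algebraMap, map_div₀, map_div₀,
    winfH_algebraMap, winfH_algebraMap, winfH_algebraMap, winfH_algebraMap,
    winfAH_T_smul, winfAH_T_smul]

theorem winfH_algebraMap_K (M : ℕ) [NeZero M] {a : Kc} (ha : a ≠ 0) :
    winfH M (algebraMap Kc (LH M) a) = 1 := by
  rw [IsScalarTower.algebraMap_apply Kc (AH M) (LH M), winfH_algebraMap, winfAH_apply,
    AlgHom.commutes]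
  have h := laurent_valuation_eq_of_coeff (f := algebraMap Kc (LaurentSeries Kc) a) (D := 0)
    (by simpa [LaurentSeries.algebraMap_apply] using ha)
    (fun n hn => by
      rw [LaurentSeries.algebraMap_apply]
      show (HahnSeries.single (0 : ℤ) a).coeff n = 0
      exact HahnSeries.coeff_single_of_ne hn.ne)
  simpa using h

theorem winfH_jLH (M : ℕ) [NeZero M] : winfH M (jLH M) = WithZero.exp (M : ℤ) := by
  rw [winfH_eq_valued_expLH, ← jdLH_one, expLH_jdLH, ModularCurve.qExpand_congr (mul_one M),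
    laurent_valuation_qExpand_jqModC]

end Fermat.Agent.S48WA2
end
end MergeWrap_S48_W_A_Dict_AmbVal
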