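import Mathlib
import Fermat.Agent.MU.F3.DictC.Field
import Fermat.Agent.MU.S48.W.A.Dict.Amb
import Fermat.Agent.F3.I2.DictInterface

section MergeWrap_S48_W_A_Dict_InvExp -- from S48/W/A/Dict/InvExp.lean

set_option autoImplicit false
set_option linter.unusedVariables false

noncomputable section

namespace Fermat.Agent.S48WA2

open UpperHalfPlane Fermat.Agent.F3Dict
open scoped MatrixGroups

/-- a scalar power series which converges (absolutely) at every point of the punctured open unit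
disc has radius of convergence `≥ 1`. -/
theorem invExp_one_le_radius (c : ℕ → ℂ)
    (hs : ∀ z : ℂ, z ≠ 0 → ‖z‖ < 1 → Summable (fun n : ℕ => ‖c n‖ * ‖z‖ ^ n)) :
    (1 : ENNReal) ≤ (FormalMultilinearSeries.ofScalars ℂ c).radius := by
  refine le_of_forall_lt_imp_le_of_dense fun r hr => ?_
  rcases eq_or_ne r 0 with rfl | hr'
  · simp
  · lift r to NNReal using hr.ne_top
    apply FormalMultilinearSeries.le_radius_of_summable
    have hr1 : (r : ℝ) < 1 := by exact_mod_cast hr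
    have hr0 : (r : ℂ) ≠ 0 := by
      have : r ≠ 0 := by exact_mod_cast hr'
      exact_mod_cast this
    have := hs (r : ℂ) hr0 (by simpa using hr1)
    simpa [FormalMultilinearSeries.ofScalars_norm] using this

/-- the sum of a scalar power series of radius `≥ 1` at a point of the open unit disc. -/
theorem invExp_hasSum_sum (c : ℕ → ℂ)
    (hrad : (1 : ENNReal) ≤ (FormalMultilinearSeries.ofScalars ℂ c).radius) {z : ℂ}
    (hz1 : ‖z‖ < 1) :
    HasSum (fun n : ℕ => c n * z ^ n) ((FormalMultilinearSeries.ofScalars ℂ c).sum z) := by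
  set P : FormalMultilinearSeries ℂ ℂ ℂ := FormalMultilinearSeries.ofScalars ℂ c with hP
  have hpos : 0 < P.radius := lt_of_lt_of_le one_pos hrad
  have hF := P.hasFPowerSeriesOnBall hpos
  have h1 : HasSum (fun n : ℕ => P n fun _ => z) (P.sum z) := by
    have := hF.hasSum (y := z) (by
      have hz1' : ‖z‖ₑ < 1 := by
        rw [← ofReal_norm]
        exact (ENNReal.ofReal_lt_one).mpr hz1
      have : ‖z‖ₑ < P.radius := lt_of_lt_of_le hz1' hrad
      simpa [Metric.eball, edist_zero_right] using this)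
    simpa using this
  have h2 : (fun n : ℕ => P n fun _ => z) = fun n => c n * z ^ n := by
    funext n
    simp [hP, mul_comm]
  rw [h2] at h1
  exact h1

/-- the sum of a scalar power series of radius `≥ 1` is holomorphic on the open unit disc. -/
theorem invExp_differentiableOn (c : ℕ → ℂ)
    (hrad : (1 : ENNReal) ≤ (FormalMultilinearSeries.ofScalars ℂ c).radius) :
    DifferentiableOn ℂ (FormalMultilinearSeries.ofScalars ℂ c).sum (Metric.ball (0 : ℂ) 1) := by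
  set P : FormalMultilinearSeries ℂ ℂ ℂ := FormalMultilinearSeries.ofScalars ℂ c with hP
  have hpos : 0 < P.radius := lt_of_lt_of_le one_pos hrad
  have hF := P.hasFPowerSeriesOnBall hpos
  have hF1 : HasFPowerSeriesOnBall P.sum P 0 1 := hF.mono one_pos hrad
  have han := hF1.analyticOnNhd
  intro z hz
  have hz1 : ‖z‖ < 1 := by simpa using hz
  have hz1' : ‖z‖ₑ < 1 := by
    rw [← ofReal_norm]
    exact (ENNReal.ofReal_lt_one).mpr hz1
  have hz' : z ∈ Metric.eball (0 : ℂ) 1 := by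
    simpa [Metric.eball, edist_zero_right] using hz1'
  exact (han z hz').differentiableAt.differentiableWithinAt

/-- **Inverse of a nonvanishing power series on the unit disc.** -/
theorem invExp_disc (c : ℕ → ℂ)
    (hs : ∀ z : ℂ, z ≠ 0 → ‖z‖ < 1 → Summable (fun n : ℕ => ‖c n‖ * ‖z‖ ^ n))
    (hc0 : c 0 ≠ 0)
    (hne : ∀ z : ℂ, z ≠ 0 → ‖z‖ < 1 → ∀ s : ℂ, HasSum (fun n : ℕ => c n * z ^ n) s → s ≠ 0) :
    ∃ q : ℕ → ℂ, ∀ z : ℂ, ‖z‖ < 1 →
      Summable (fun n : ℕ => ‖q n‖ * ‖z‖ ^ n) ∧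
      ∀ s : ℂ, HasSum (fun n : ℕ => c n * z ^ n) s → HasSum (fun n : ℕ => q n * z ^ n) s⁻¹ := by
  have hrad := invExp_one_le_radius c hs
  set G : ℂ → ℂ := (FormalMultilinearSeries.ofScalars ℂ c).sum with hG
  have hGsum : ∀ z : ℂ, ‖z‖ < 1 → HasSum (fun n : ℕ => c n * z ^ n) (G z) :=
    fun z hz => invExp_hasSum_sum c hrad hz
  have hGne : ∀ z : ℂ, ‖z‖ < 1 → G z ≠ 0 := by
    intro z hz
    rcases eq_or_ne z 0 with rfl | hz0
    · have h0 : HasSum (fun n : ℕ => c n * (0 : ℂ) ^ n) (c 0) := by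
        have := hasSum_single (f := fun n : ℕ => c n * (0 : ℂ) ^ n) 0
          (fun n hn => by simp [hn])
        simpa using this
      rw [(hGsum 0 hz).unique h0]
      exact hc0
    · exact hne z hz0 hz _ (hGsum z hz)
  have hGd : DifferentiableOn ℂ G (Metric.ball (0 : ℂ) 1) := invExp_differentiableOn c hrad
  set H : ℂ → ℂ := fun z => (G z)⁻¹ with hH
  have hHd : DifferentiableOn ℂ H (Metric.ball (0 : ℂ) ((1 : NNReal) : ℝ)) := by
    have : DifferentiableOn ℂ H (Metric.ball (0 : ℂ) 1) :=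
      hGd.inv (fun z hz => hGne z (by simpa using hz))
    simpa using this
  set q : ℕ → ℂ := fun n => ((n.factorial : ℂ))⁻¹ * iteratedDeriv n H 0 with hq
  have hHsum : ∀ z : ℂ, ‖z‖ < 1 → HasSum (fun n : ℕ => q n * z ^ n) (H z) := by
    intro z hz
    have hz' : z ∈ Metric.ball (0 : ℂ) ((1 : NNReal) : ℝ) := by simpa using hz
    have := Complex.hasSum_taylorSeries_on_ball hHd hz'
    have e : (fun n : ℕ => q n * z ^ n) =
        fun n : ℕ => ((n.factorial : ℂ))⁻¹ • (z - 0) ^ n • iteratedDeriv n H 0 := by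
      funext n
      simp only [hq, sub_zero, smul_eq_mul]
      ring
    rw [e]
    exact this
  have hqs : ∀ z : ℂ, ‖z‖ < 1 → Summable (fun n : ℕ => ‖q n‖ * ‖z‖ ^ n) := by
    have hradq : (1 : ENNReal) ≤ (FormalMultilinearSeries.ofScalars ℂ q).radius := by
      refine le_of_forall_lt_imp_le_of_dense fun r hr => ?_
      lift r to NNReal using hr.ne_top
      have hr1 : (r : ℝ) < 1 := by exact_mod_cast hr
      have hsum := (hHsum (r : ℂ) (by simpa using hr1)).summable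
      have ht := hsum.tendsto_atTop_zero
      have ht' : Filter.Tendsto (fun n : ℕ => ‖q n * (r : ℂ) ^ n‖) Filter.atTop (nhds 0) := by
        simpa using ht.norm
      apply FormalMultilinearSeries.le_radius_of_tendsto (l := 0)
      convert ht' using 1
      funext n
      simp
    intro z hz
    have hlt : ((‖z‖₊ : NNReal) : ENNReal) < (FormalMultilinearSeries.ofScalars ℂ q).radius := by
      refine lt_of_lt_of_le ?_ hradq
      exact_mod_cast hz
    have := (FormalMultilinearSeries.ofScalars ℂ q).summable_norm_mul_pow hlt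
    simpa [FormalMultilinearSeries.ofScalars_norm] using this
  refine ⟨q, fun z hz => ⟨hqs z hz, fun s hs' => ?_⟩⟩
  have : s = G z := hs'.unique (hGsum z hz)
  rw [this]
  exact hHsum z hz

/-- **A2-INV.** The inverse of a nowhere vanishing function with a power series expansion in `u`
has a Laurent expansion in `u`. -/
theorem hasExp_inv_of_ne_zero {M : ℕ} [NeZero M] {D : Fun} {p : PowerSeries ℂ} (hhol : IsHol D)
    (hD : HasPExp M D p) (hne : ∀ τ : ℍ, D τ ≠ 0) :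
    ∃ a : LaurentSeries ℂ, HasExp M (fun τ => (D τ)⁻¹) a := by
  -- `p ≠ 0`
  have hp0 : p ≠ 0 := by
    rintro rfl
    have h := (hD UpperHalfPlane.I).2
    have h0 : HasSum (fun n : ℕ => iota (PowerSeries.coeff n (0 : PowerSeries Kc)) *
        uParam M UpperHalfPlane.I ^ n) 0 := by
      have : (fun n : ℕ => iota (PowerSeries.coeff n (0 : PowerSeries Kc)) *
          uParam M UpperHalfPlane.I ^ n) = fun _ => (0 : ℂ) := by
        funext n
        simp
      rw [this]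
      exact hasSum_zero
    exact hne _ (h.unique h0)
  set m : ℕ := p.order.toNat with hm
  set c : ℕ → ℂ := fun n => PowerSeries.coeff (n + m) p with hc
  have hc0 : c 0 ≠ 0 := by
    simp only [hc, zero_add]
    exact PowerSeries.coeff_order hp0
  have hlow : ∀ i : ℕ, i < m → PowerSeries.coeff i p = 0 := by
    intro i hi
    exact PowerSeries.coeff_of_lt_order_toNat i hi
  -- the expansion of `D / u^m`
  have hsumm : ∀ τ : ℍ, Summable (fun n : ℕ => ‖c n‖ * ‖uParam M τ‖ ^ n) := by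
    intro τ
    have h1 := (hD τ).1
    have h2 := (summable_nat_add_iff m).mpr h1
    have h3 := h2.mul_right ((‖uParam M τ‖ ^ m)⁻¹)
    refine h3.congr (fun n => ?_)
    have hu : ‖uParam M τ‖ ^ m ≠ 0 := pow_ne_zero _ (norm_ne_zero_iff.mpr (uParam_ne_zero M τ))
    simp only [hc, iota_apply]
    rw [pow_add]
    field_simp
  have hsum : ∀ τ : ℍ, HasSum (fun n : ℕ => c n * uParam M τ ^ n)
      (D τ * (uParam M τ ^ m)⁻¹) := by
    intro τ
    have h1 := (hD τ).2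
    have h2 := (hasSum_nat_add_iff' m).mpr h1
    have hz : ∑ i ∈ Finset.range m, iota (PowerSeries.coeff i p) * uParam M τ ^ i = 0 := by
      refine Finset.sum_eq_zero (fun i hi => ?_)
      rw [hlow i (Finset.mem_range.mp hi), map_zero, zero_mul]
    rw [hz, sub_zero] at h2
    have h3 := h2.mul_right ((uParam M τ ^ m)⁻¹)
    have e : (fun n : ℕ => c n * uParam M τ ^ n) =
        fun i : ℕ => iota (PowerSeries.coeff (i + m) p) * uParam M τ ^ (i + m) *
          (uParam M τ ^ m)⁻¹ := by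
      funext n
      have hu : uParam M τ ^ m ≠ 0 := pow_ne_zero _ (uParam_ne_zero M τ)
      simp only [hc, iota_apply]
      rw [pow_add]
      field_simp
    rw [e]
    exact h3
  -- the inverse on the disc
  obtain ⟨q, hq⟩ := invExp_disc c
    (fun z hz0 hz1 => by
      obtain ⟨τ, rfl⟩ := exists_uParam_eq M hz0 hz1
      exact hsumm τ)
    hc0
    (fun z hz0 hz1 s hs => by
      obtain ⟨τ, rfl⟩ := exists_uParam_eq M hz0 hz1
      rw [hs.unique (hsum τ)]
      exact mul_ne_zero (hne τ) (inv_ne_zero (pow_ne_zero _ (uParam_ne_zero M τ))))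
  refine ⟨HahnSeries.single (-(m : ℤ)) (1 : Kc) *
    HahnSeries.ofPowerSeries ℤ Kc (PowerSeries.mk q), m, PowerSeries.mk q, rfl, fun τ => ?_⟩
  obtain ⟨h1, h2⟩ := hq (uParam M τ) (norm_uParam_lt_one M τ)
  refine ⟨?_, ?_⟩
  · simpa using h1
  · have h3 := h2 _ (hsum τ)
    have e : (D τ * (uParam M τ ^ m)⁻¹)⁻¹ = (D τ)⁻¹ * uParam M τ ^ m := by
      rw [mul_inv, inv_inv]
    rw [e] at h3
    simpa using h3

end Fermat.Agent.S48WA2
end
end MergeWrap_S48_W_A_Dict_InvExp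

section MergeWrap_S48_W_A_Dict_Forms -- from S48/W/A/Dict/Forms.lean

set_option autoImplicit false

noncomputable section

namespace Fermat.Agent.S48WA2

open UpperHalfPlane CongruenceSubgroup Fermat.Agent.F3Dict
open Matrix.SpecialLinearGroup ConjAct
open scoped MatrixGroups ModularForm Pointwise Manifold

/-! ### modular forms on `Γ₁(M)` as functions -/

/-- A modular form on `Γ₁(M)` as an element of `Fun`. -/
def mfFun1 {M : ℕ} {w : ℤ} (A : ModularForm (Gamma1 M) w) : Fun := fun τ => A τ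

@[simp] theorem mfFun1_apply {M : ℕ} {w : ℤ} (A : ModularForm (Gamma1 M) w) (τ : ℍ) :
    mfFun1 A τ = A τ := rfl

theorem isHol_mfFun1 {M : ℕ} {w : ℤ} (A : ModularForm (Gamma1 M) w) : IsHol (mfFun1 A) :=
  ModularFormClass.holo A

theorem one_mem_strictPeriods_Gamma1_form (M : ℕ) :
    (1 : ℝ) ∈ (Gamma1 M : Subgroup (GL (Fin 2) ℝ)).strictPeriods := by
  simp [CongruenceSubgroup.strictPeriods_Gamma1]

/-- "HasExp of a modular form = its `q`-expansion", power series form, in `q = u₁`. -/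
theorem hasPExp_mfFun1 {M : ℕ} {w : ℤ} (A : ModularForm (Gamma1 M) w) :
    HasPExp 1 (mfFun1 A) (UpperHalfPlane.qExpansion 1 A) := by
  intro τ
  have hΓ := one_mem_strictPeriods_Gamma1_form M
  have : Fact (IsCusp OnePoint.infty (Gamma1 M : Subgroup (GL (Fin 2) ℝ))) :=
    ⟨Subgroup.isCusp_of_mem_strictPeriods one_pos hΓ⟩
  have h := ModularForm.hasSum_qExpansion (f := A) one_pos hΓ τ
  have hu : uParam 1 τ = Function.Periodic.qParam 1 (τ : ℂ) := by
    simp [uParam]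
  have e : (fun n : ℕ => iota (PowerSeries.coeff n (UpperHalfPlane.qExpansion 1 A)) *
        uParam 1 τ ^ n)
      = fun m : ℕ => (PowerSeries.coeff m) (UpperHalfPlane.qExpansion 1 A) *
          Function.Periodic.qParam 1 (τ : ℂ) ^ m := by
    funext n
    rw [hu, iota_apply]
  refine ⟨?_, ?_⟩
  · have := h.summable.norm
    simpa [norm_mul, norm_pow, hu] using this
  · rw [e]
    exact h

/-- "HasExp of a modular form = its `q`-expansion": the expansion in `u_M = q^{1/M}` of a modular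
form on `Γ₁(M')` is its `q`-expansion with `q ↦ u^M`. -/
theorem hasExp_mfFun1 (M : ℕ) [NeZero M] {M' : ℕ} {w : ℤ} (A : ModularForm (Gamma1 M') w) :
    HasExp M (mfFun1 A) (ModularCurve.qExpand Kc M (F3I2.qLaurent A)) := by
  have h1 : HasExp 1 (mfFun1 A) (HahnSeries.ofPowerSeries ℤ Kc (UpperHalfPlane.qExpansion 1 A)) :=
    HasExp.of_hasPExp (hasPExp_mfFun1 A)
  have : NeZero (1 * M) := ⟨by simpa using NeZero.ne M⟩
  have h2 := HasExp.qExpand (M := 1) M h1
  have e : 1 * M = M := one_mul M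
  rw [e] at h2
  exact h2

/-- `mfFun1 A = 0 ↔ A = 0`. -/
theorem mfFun1_eq_zero_iff {M : ℕ} {w : ℤ} (A : ModularForm (Gamma1 M) w) :
    mfFun1 A = 0 ↔ A = 0 := by
  constructor
  · intro h
    ext τ
    exact congrFun h τ
  · rintro rfl
    rfl

/-! ### translates -/

/-- `M` is a strict period of every `SL(2,ℤ)`-conjugate of `Γ₁(N)`, if `N ∣ M`. -/
theorem natCast_mem_strictPeriods_conj1 {N M : ℕ} (hNM : N ∣ M) (γ : SL(2, ℤ)) :
    (M : ℝ) ∈ (ConjAct.toConjAct (mapGL ℝ γ)⁻¹ •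
      ((Gamma1 N).map (mapGL ℝ) : Subgroup (GL (Fin 2) ℝ))).strictPeriods := by
  have hT : ModularGroup.T ^ (M : ℤ) ∈ Gamma N := by
    simpa using CongruenceSubgroup.ModularGroup_T_pow_mem_Gamma (N : ℤ) (M : ℤ)
      (by exact_mod_cast hNM)
  have hconj : γ * ModularGroup.T ^ (M : ℤ) * γ⁻¹ ∈ Gamma1 N := by
    have h := (CongruenceSubgroup.Gamma_normal N).conj_mem _ hT γ
    rw [Gamma1_mem]
    exact ⟨(Gamma_mem.mp h).1, (Gamma_mem.mp h).2.2.2, (Gamma_mem.mp h).2.2.1⟩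
  have hU : ∀ m : ℤ, Matrix.GeneralLinearGroup.upperRightHom ((m : ℝ)) =
      mapGL ℝ (ModularGroup.T ^ m) := by
    intro m
    simp only [Units.ext_iff, mapGL_coe_matrix, map_apply_coe]
    ext i j
    fin_cases i <;> fin_cases j <;> simp [ModularGroup.coe_T_zpow]
  have hU' := hU (M : ℤ)
  rw [Int.cast_natCast] at hU'
  rw [Subgroup.mem_strictPeriods_iff, Subgroup.mem_pointwise_smul_iff_inv_smul_mem,
    ← toConjAct_inv, inv_inv, toConjAct_smul, hU', ← map_inv, ← map_mul, ← map_mul]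
  exact Subgroup.mem_map_of_mem _ hconj

/-- The translate `A ∣[w] γ` of a modular form, as an element of `Fun`. -/
def slFun1 {M : ℕ} {w : ℤ} (A : ModularForm (Gamma1 M) w) (γ : SL(2, ℤ)) : Fun :=
  fun τ => ((⇑A ∣[w] γ : ℍ → ℂ)) τ

theorem slFun1_eq {M : ℕ} {w : ℤ} (A : ModularForm (Gamma1 M) w) (γ : SL(2, ℤ)) (τ : ℍ) :
    slFun1 A γ τ = ((⇑A ∣[w] γ : ℍ → ℂ)) τ := rfl

theorem slFun1_apply {M : ℕ} {w : ℤ} (A : ModularForm (Gamma1 M) w) (γ : SL(2, ℤ)) (τ : ℍ) :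
    slFun1 A γ τ = A (γ • τ) * (UpperHalfPlane.denom γ τ) ^ (-w) := by
  rw [slFun1_eq, ModularForm.SL_slash_apply]

theorem slFun1_one {M : ℕ} {w : ℤ} (A : ModularForm (Gamma1 M) w) : slFun1 A 1 = mfFun1 A := by
  funext τ
  rw [slFun1_eq, SlashAction.slash_one]
  rfl

/-- `A ∣[w] γ = A` for `γ ∈ Γ₁(M)`. -/
theorem slFun1_of_mem {M : ℕ} {w : ℤ} (A : ModularForm (Gamma1 M) w) {γ : SL(2, ℤ)}
    (hγ : γ ∈ Gamma1 M) : slFun1 A γ = mfFun1 A := by
  funext τ
  have h : (⇑A ∣[w] (mapGL ℝ γ)) = ⇑A :=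
    SlashInvariantFormClass.slash_action_eq A _ (Subgroup.mem_map_of_mem (mapGL ℝ) hγ)
  rw [slFun1_eq]
  exact congrFun h τ

theorem slFun1_mul {M : ℕ} {w : ℤ} (A : ModularForm (Gamma1 M) w) (γ δ : SL(2, ℤ)) (τ : ℍ) :
    slFun1 A (γ * δ) τ = slFun1 A γ (δ • τ) * (UpperHalfPlane.denom δ τ) ^ (-w) := by
  rw [slFun1_eq, SlashAction.slash_mul, ModularForm.SL_slash_apply]
  rfl

theorem isHol_slFun1 {M : ℕ} {w : ℤ} (A : ModularForm (Gamma1 M) w) (γ : SL(2, ℤ)) :
    IsHol (slFun1 A γ) :=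
  ModularFormClass.holo (ModularForm.translate A (mapGL ℝ γ))

/-- The `u_M`-expansion of a translate `A ∣[w] γ` of a modular form on `Γ₁(N)`, `N ∣ M`. -/
theorem hasPExp_slFun1_of_dvd {N M : ℕ} [NeZero M] (hNM : N ∣ M) {w : ℤ}
    (A : ModularForm (Gamma1 N) w) (γ : SL(2, ℤ)) :
    HasPExp M (slFun1 A γ) (UpperHalfPlane.qExpansion (M : ℝ) (⇑A ∣[w] γ)) := by
  intro τ
  have hΓ := natCast_mem_strictPeriods_conj1 hNM γ
  have hMpos : (0 : ℝ) < M := Nat.cast_pos.mpr (Nat.pos_of_ne_zero (NeZero.ne M))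
  have : Fact (IsCusp OnePoint.infty (ConjAct.toConjAct (mapGL ℝ γ)⁻¹ •
      ((Gamma1 N).map (mapGL ℝ) : Subgroup (GL (Fin 2) ℝ)))) :=
    ⟨Subgroup.isCusp_of_mem_strictPeriods hMpos hΓ⟩
  have h := ModularForm.hasSum_qExpansion (f := ModularForm.translate A (mapGL ℝ γ)) hMpos hΓ τ
  rw [ModularForm.coe_translate] at h
  have hcoe : (⇑A ∣[w] (mapGL ℝ γ)) = (⇑A ∣[w] γ) := rfl
  rw [hcoe] at h
  have hu : uParam M τ = Function.Periodic.qParam (M : ℝ) (τ : ℂ) := rfl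
  refine ⟨?_, ?_⟩
  · have := h.summable.norm
    simpa [norm_mul, norm_pow, hu] using this
  · rw [slFun1_eq]
    simpa [hu] using h

/-- The `u_M`-expansion of a translate `A ∣[w] γ` of a modular form on `Γ₁(M)`. -/
theorem hasPExp_slFun1 (M : ℕ) [NeZero M] {w : ℤ} (A : ModularForm (Gamma1 M) w)
    (γ : SL(2, ℤ)) :
    HasPExp M (slFun1 A γ) (UpperHalfPlane.qExpansion (M : ℝ) (⇑A ∣[w] γ)) :=
  hasPExp_slFun1_of_dvd (dvd_refl M) A γ

theorem hasExp_slFun1 (M : ℕ) [NeZero M] {w : ℤ} (A : ModularForm (Gamma1 M) w)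
    (γ : SL(2, ℤ)) :
    HasExp M (slFun1 A γ)
      (HahnSeries.ofPowerSeries ℤ Kc (UpperHalfPlane.qExpansion (M : ℝ) (⇑A ∣[w] γ))) :=
  HasExp.of_hasPExp (hasPExp_slFun1 M A γ)

theorem slFun1_eq_zero_iff {M : ℕ} {w : ℤ} (A : ModularForm (Gamma1 M) w) (γ : SL(2, ℤ)) :
    slFun1 A γ = 0 ↔ A = 0 := by
  constructor
  · intro h
    refine ModularForm.ext fun τ => ?_
    have h1 : slFun1 A γ (γ⁻¹ • τ) = 0 := congrFun h (γ⁻¹ • τ : ℍ)
    rw [slFun1_apply, smul_inv_smul] at h1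
    have hd : (UpperHalfPlane.denom γ ((γ⁻¹ • τ : ℍ) : ℂ)) ^ (-w) ≠ 0 :=
      zpow_ne_zero _ (UpperHalfPlane.denom_ne_zero _ _)
    exact (mul_eq_zero.mp h1).resolve_right hd
  · rintro rfl
    funext τ
    rw [slFun1_apply]
    simp

theorem qExpansion_slash1_ne_zero (M : ℕ) [NeZero M] {w : ℤ}
    {A : ModularForm (Gamma1 M) w} (hA : A ≠ 0) (γ : SL(2, ℤ)) :
    UpperHalfPlane.qExpansion (M : ℝ) (⇑A ∣[w] γ) ≠ 0 := by
  intro h0
  have h1 := hasPExp_slFun1 M A γ
  rw [h0] at h1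
  have h2 : HasPExp M (0 : Fun) (0 : PowerSeries Kc) := by
    have := HasPExp.const M (0 : Kc)
    simpa using this
  exact hA ((slFun1_eq_zero_iff A γ).mp (h1.fun_unique h2))

/-- a translate of a form without zeros on `ℍ` has no zeros on `ℍ`. -/
theorem slFun1_ne_zero {M : ℕ} {w : ℤ} (B : ModularForm (Gamma1 M) w) (hB : ∀ τ : ℍ, B τ ≠ 0)
    (γ : SL(2, ℤ)) (τ : ℍ) : slFun1 B γ τ ≠ 0 := by
  rw [slFun1_apply]
  exact mul_ne_zero (hB _) (zpow_ne_zero _ (UpperHalfPlane.denom_ne_zero _ _))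

/-! ### quotients -/

/-- the quotient `A / B` of two modular forms, as an element of `Fun`. -/
def divFun1 {M : ℕ} {w : ℤ} (A B : ModularForm (Gamma1 M) w) : Fun := fun τ => A τ / B τ

@[simp] theorem divFun1_apply {M : ℕ} {w : ℤ} (A B : ModularForm (Gamma1 M) w) (τ : ℍ) :
    divFun1 A B τ = A τ / B τ := rfl

/-- `γ • (A / B) = (A ∣ γ⁻¹) / (B ∣ γ⁻¹)`. -/
theorem smul_div_fun {M : ℕ} {w : ℤ} (A B : ModularForm (Gamma1 M) w) (γ : SL(2, ℤ)) :
    γ • divFun1 A B = fun τ => slFun1 A γ⁻¹ τ / slFun1 B γ⁻¹ τ := by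
  funext τ
  show A (γ⁻¹ • τ) / B (γ⁻¹ • τ) = slFun1 A γ⁻¹ τ / slFun1 B γ⁻¹ τ
  rw [slFun1_apply, slFun1_apply,
    mul_div_mul_right _ _ (zpow_ne_zero _ (UpperHalfPlane.denom_ne_zero _ _))]

theorem mdiff_div_fun {f g : ℍ → ℂ} (hf : MDifferentiable 𝓘(ℂ) 𝓘(ℂ) f)
    (hg : MDifferentiable 𝓘(ℂ) 𝓘(ℂ) g) (hne : ∀ τ : ℍ, g τ ≠ 0) :
    MDifferentiable 𝓘(ℂ) 𝓘(ℂ) (fun τ => f τ / g τ) := by
  intro τ
  have h1 := hf τ
  have h2 := hg τ
  rw [UpperHalfPlane.mdifferentiableAt_iff] at h1 h2 ⊢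
  have h3 := h1.div h2 (by simpa using hne τ)
  exact h3

theorem isHol_div_fun {f g : Fun} (hf : IsHol f) (hg : IsHol g) (hne : ∀ τ : ℍ, g τ ≠ 0) :
    IsHol ((fun τ => f τ / g τ) : Fun) :=
  mdiff_div_fun (f := fun τ => f τ) (g := fun τ => g τ) hf hg hne

theorem Gamma_le_Gamma1_form (M : ℕ) : Gamma M ≤ Gamma1 M := by
  intro γ hγ
  rw [Gamma1_mem]
  exact ⟨(Gamma_mem.mp hγ).1, (Gamma_mem.mp hγ).2.2.2, (Gamma_mem.mp hγ).2.2.1⟩

/-- the inversion of expansions (seat A2-INV, `Dict/InvExp.lean`), as a hypothesis. -/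
def InvExpProp (M : ℕ) : Prop :=
  ∀ {D : Fun} {p : PowerSeries Kc}, IsHol D → HasPExp M D p → (∀ τ : ℍ, D τ ≠ 0) →
    ∃ a : LaurentSeries Kc, HasExp M (fun τ => (D τ)⁻¹) a

/-- `A / B` is in the ambient ring `AH M` if `B` has no zero on `ℍ`. -/
theorem isAH_div_of (M : ℕ) [NeZero M] (hInv : InvExpProp M) {w : ℤ}
    (A B : ModularForm (Gamma1 M) w) (hB : ∀ τ : ℍ, B τ ≠ 0) :
    IsAH M (divFun1 A B) := by
  refine ⟨isHol_div_fun (isHol_mfFun1 A) (isHol_mfFun1 B) hB, fun γ hγ => ?_, fun γ => ?_⟩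
  · have hγ1 : γ⁻¹ ∈ Gamma1 M := inv_mem (Gamma_le_Gamma1_form M hγ)
    rw [smul_div_fun, slFun1_of_mem A hγ1, slFun1_of_mem B hγ1]
    rfl
  · rw [smul_div_fun]
    obtain ⟨a, ha⟩ := hInv (isHol_slFun1 B γ⁻¹) (hasPExp_slFun1 M B γ⁻¹)
      (slFun1_ne_zero B hB γ⁻¹)
    have h := (hasExp_slFun1 M A γ⁻¹).mul ha
    exact ⟨_, h⟩

/-- `isAH_div_of` with the quotient written as a `fun`. -/
theorem isAH_div_fun_of (M : ℕ) [NeZero M] (hInv : InvExpProp M) {w : ℤ}
    (A B : ModularForm (Gamma1 M) w) (hB : ∀ τ : ℍ, B τ ≠ 0) :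
    IsAH M (fun τ => A τ / B τ) :=
  isAH_div_of M hInv A B hB

/-- the expansion at `∞` of `A / B` (`B` without zeros on `ℍ`):
`expLH (A / B) · qExpand (q-expansion of B) = qExpand (q-expansion of A)`. -/
theorem expLH_divFun1_mul (M : ℕ) [NeZero M] {w : ℤ}
    (A B : ModularForm (Gamma1 M) w) (hB : ∀ τ : ℍ, B τ ≠ 0) (hAH : IsAH M (divFun1 A B)) :
    expLH M (LH.ofFun (divFun1 A B) hAH) * ModularCurve.qExpand Kc M (F3I2.qLaurent B)
      = ModularCurve.qExpand Kc M (F3I2.qLaurent A) := by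
  obtain ⟨a, ha⟩ := hAH.2.2 1
  rw [one_smul] at ha
  rw [expLH_ofFun _ hAH ha]
  have h1 := ha.mul (hasExp_mfFun1 M B)
  have h2 : divFun1 A B * mfFun1 B = mfFun1 A := by
    funext τ
    show A τ / B τ * B τ = A τ
    exact div_mul_cancel₀ _ (hB τ)
  rw [h2] at h1
  exact h1.unique (hasExp_mfFun1 M A)

theorem invExpProp (M : ℕ) [NeZero M] : InvExpProp M :=
  fun hhol hD hne => hasExp_inv_of_ne_zero hhol hD hne

/-- **`A / B` is in the ambient ring `AH M`** if `B` has no zero on `ℍ`. -/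
theorem isAH_div (M : ℕ) [NeZero M] {w : ℤ}
    (A B : ModularForm (Gamma1 M) w) (hB : ∀ τ : ℍ, B τ ≠ 0) :
    IsAH M (fun τ => A τ / B τ) :=
  isAH_div_of M (invExpProp M) A B hB

theorem isAH_divFun1 (M : ℕ) [NeZero M] {w : ℤ}
    (A B : ModularForm (Gamma1 M) w) (hB : ∀ τ : ℍ, B τ ≠ 0) :
    IsAH M (divFun1 A B) :=
  isAH_div_of M (invExpProp M) A B hB

end Fermat.Agent.S48WA2
end
end MergeWrap_S48_W_A_Dict_Forms
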