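import Mathlib
import Fermat.Agent.MU.S48.W.Hecke

section MergeWrap_S48_W_A_Dict_D3Gen -- from S48/W/A/Dict/D3Gen.lean

set_option autoImplicit false

noncomputable section

namespace Fermat.Agent.S48WA2

open ModularCurve AlgebraicCurve Fermat.Agent.S48W

section Generic

variable {K : Type*} [Field K] [Algebra ℚ K]

theorem coeffEmb_algebraMap_rat (c : ℚ) :
    coeffEmb K (algebraMap ℚ (LaurentSeries ℚ) c) =
      algebraMap K (LaurentSeries K) (algebraMap ℚ K c) := by
  rw [eq_ratCast, map_ratCast, eq_ratCast, map_ratCast]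

/-- Induction over the generators of `K · ℚ(S)`. -/
theorem lbc_adjoin_induction {S : Set (LaurentSeries ℚ)} {P : LaurentSeries K → Prop}
    (hc : ∀ c : K, P (algebraMap K (LaurentSeries K) c))
    (hg : ∀ s ∈ S, P (coeffEmb K s))
    (hadd : ∀ x y, P x → P y → P (x + y))
    (hneg : ∀ x, P x → P (-x))
    (hmul : ∀ x y, P x → P y → P (x * y))
    (hinv : ∀ x, P x → P x⁻¹)
    {x : LaurentSeries K} (hx : x ∈ laurentBaseChange K (IntermediateField.adjoin ℚ S)) :
    P x := by
  have hrat : ∀ z : LaurentSeries ℚ, z ∈ IntermediateField.adjoin ℚ S → P (coeffEmb K z) := by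
    intro z hz
    induction hz using IntermediateField.adjoin_induction with
    | mem s hs => exact hg s hs
    | algebraMap c =>
      rw [coeffEmb_algebraMap_rat]
      exact hc _
    | add x y _ _ hx hy =>
      rw [map_add]
      exact hadd _ _ hx hy
    | inv x _ hx =>
      rw [map_inv₀]
      exact hinv _ hx
    | mul x y _ _ hx hy =>
      rw [map_mul]
      exact hmul _ _ hx hy
  rw [mem_laurentBaseChange_iff] at hx
  induction hx using Subfield.closure_induction with
  | mem y hy =>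
    rcases hy with ⟨a, rfl⟩ | ⟨z, hz, rfl⟩
    · exact hc a
    · exact hrat z hz
  | one =>
    have := hc 1
    rwa [map_one] at this
  | add x y _ _ hx hy => exact hadd _ _ hx hy
  | neg x _ hx => exact hneg _ hx
  | inv x _ hx => exact hinv _ hx
  | mul x y _ _ hx hy => exact hmul _ _ hx hy

/-- Two ring homomorphisms from `K · ℚ(S)` to a field that agree on the constants and on the
generators are equal. -/
theorem ringHom_ext_lbc {S : Set (LaurentSeries ℚ)} {R : Type*} [Field R]
    (Φ₁ Φ₂ : laurentBaseChange K (IntermediateField.adjoin ℚ S) →+* R)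
    (hc : ∀ c : K, Φ₁ (algebraMap K _ c) = Φ₂ (algebraMap K _ c))
    (hg : ∀ s ∈ S, ∀ h : coeffEmb K s ∈ laurentBaseChange K (IntermediateField.adjoin ℚ S),
      Φ₁ ⟨coeffEmb K s, h⟩ = Φ₂ ⟨coeffEmb K s, h⟩) :
    Φ₁ = Φ₂ := by
  have hall : ∀ x : LaurentSeries K,
      x ∈ laurentBaseChange K (IntermediateField.adjoin ℚ S) →
      ∃ h : x ∈ laurentBaseChange K (IntermediateField.adjoin ℚ S),
        Φ₁ ⟨x, h⟩ = Φ₂ ⟨x, h⟩ := by
    intro x hx
    refine lbc_adjoin_induction
      (P := fun x => ∃ h : x ∈ laurentBaseChange K (IntermediateField.adjoin ℚ S),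
        Φ₁ ⟨x, h⟩ = Φ₂ ⟨x, h⟩) ?_ ?_ ?_ ?_ ?_ ?_ hx
    · intro c
      exact ⟨(laurentBaseChange K (IntermediateField.adjoin ℚ S)).algebraMap_mem c, hc c⟩
    · intro s hs
      have h : coeffEmb K s ∈ laurentBaseChange K (IntermediateField.adjoin ℚ S) :=
        coeffEmb_mem_laurentBaseChange K (IntermediateField.subset_adjoin ℚ S hs)
      exact ⟨h, hg s hs h⟩
    · rintro x y ⟨h1, e1⟩ ⟨h2, e2⟩
      refine ⟨add_mem h1 h2, ?_⟩
      have : (⟨x + y, add_mem h1 h2⟩ : laurentBaseChange K (IntermediateField.adjoin ℚ S)) =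
          ⟨x, h1⟩ + ⟨y, h2⟩ := rfl
      rw [this, map_add, map_add, e1, e2]
    · rintro x ⟨h1, e1⟩
      refine ⟨neg_mem h1, ?_⟩
      have : (⟨-x, neg_mem h1⟩ : laurentBaseChange K (IntermediateField.adjoin ℚ S)) =
          -⟨x, h1⟩ := rfl
      rw [this, map_neg, map_neg, e1]
    · rintro x y ⟨h1, e1⟩ ⟨h2, e2⟩
      refine ⟨mul_mem h1 h2, ?_⟩
      have : (⟨x * y, mul_mem h1 h2⟩ : laurentBaseChange K (IntermediateField.adjoin ℚ S)) =
          ⟨x, h1⟩ * ⟨y, h2⟩ := rfl
      rw [this, map_mul, map_mul, e1, e2]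
    · rintro x ⟨h1, e1⟩
      refine ⟨inv_mem h1, ?_⟩
      have : (⟨x⁻¹, inv_mem h1⟩ : laurentBaseChange K (IntermediateField.adjoin ℚ S)) =
          (⟨x, h1⟩ : laurentBaseChange K (IntermediateField.adjoin ℚ S))⁻¹ := rfl
      rw [this, map_inv₀, map_inv₀, e1]
  ext ⟨x, hx⟩
  obtain ⟨_, e⟩ := hall x hx
  exact e

/-- Existence of the embedding of `K · ℚ(S)` in a field `L` with an injective expansion map
`E : L → K((u))`: it is enough that the expansions `s(u^n)` of the generators are in the image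
of `E`. -/
theorem exists_algHom_lbc {S : Set (LaurentSeries ℚ)} {L : Type*} [Field L] [Algebra K L]
    (E : L →ₐ[K] LaurentSeries K) (hE : Function.Injective E) (n : ℕ) [NeZero n]
    (hS : ∀ s ∈ S, ∃ y : L, E y = qExpand K n (coeffEmb K s)) :
    ∃ φ : laurentBaseChange K (IntermediateField.adjoin ℚ S) →ₐ[K] L,
      ∀ x, E (φ x) = qExpand K n (x : LaurentSeries K) := by
  have hall : ∀ x : LaurentSeries K,
      x ∈ laurentBaseChange K (IntermediateField.adjoin ℚ S) →
      ∃ y : L, E y = qExpand K n x := by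
    intro x hx
    refine lbc_adjoin_induction (P := fun x => ∃ y : L, E y = qExpand K n x)
      ?_ ?_ ?_ ?_ ?_ ?_ hx
    · intro c
      refine ⟨algebraMap K L c, ?_⟩
      rw [AlgHom.commutes, algebraMap_laurentSeries_eq_single, qExpand_single, mul_zero]
    · exact hS
    · rintro x y ⟨a, ha⟩ ⟨b, hb⟩
      exact ⟨a + b, by rw [map_add, map_add, ha, hb]⟩
    · rintro x ⟨a, ha⟩
      exact ⟨-a, by rw [map_neg, map_neg, ha]⟩
    · rintro x y ⟨a, ha⟩ ⟨b, hb⟩
      exact ⟨a * b, by rw [map_mul, map_mul, ha, hb]⟩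
    · rintro x ⟨a, ha⟩
      exact ⟨a⁻¹, by rw [map_inv₀, map_inv₀, ha]⟩
  choose f hf using hall
  refine ⟨{ toFun := fun x => f x.1 x.2
            map_one' := ?_
            map_mul' := ?_
            map_zero' := ?_
            map_add' := ?_
            commutes' := ?_ }, fun x => hf x.1 x.2⟩
  · apply hE
    rw [hf, map_one]
    exact map_one _
  · intro x y
    apply hE
    rw [map_mul, hf, hf, hf]
    exact map_mul _ _ _
  · apply hE
    rw [hf, map_zero]
    exact map_zero _
  · intro x y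
    apply hE
    rw [map_add, hf, hf, hf]
    exact map_add _ _ _
  · intro c
    apply hE
    rw [hf, AlgHom.commutes]
    show qExpand K n (algebraMap K (LaurentSeries K) c) = _
    rw [algebraMap_laurentSeries_eq_single, qExpand_single, mul_zero]

end Generic

end Fermat.Agent.S48WA2
end
end MergeWrap_S48_W_A_Dict_D3Gen
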