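import Mathlib
import Fermat.Agent.MU.S48.W.A.Dict.Seats

section MergeWrap_S48_W_A_Dict_Emb -- from S48/W/A/Dict/Emb.lean

/-!
# S48 (W), block A2, seat A2-EMB (helper86; sub-architect helper36): the embedding of the
function field `FC1 M` of `X₁(M)` in the ambient field `LH M`

Port of `F3/DictC/EmbFHom.lean`.  `θ = (q ↦ u^M)` on `ℂ((q))`, `ψ = expLH M` the expansion at `∞`
on `LH M`; `θ(FC1 M) = ψ(ℂ(j_d, Fr a))` (`map_theta_eq1`), hence `φ = ψ⁻¹ ∘ θ`.

* `exists_isPhi D : ∃ φ, IsPhi M φ`;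
* `IsPhi.jBar1`, `IsPhi.jdBar1` : `φ j = j`, `φ j(q^d) = j_d`;
* `IsPhi.mem_genField1`, `IsPhi.exists_eq_of_mem_genField1` : the image of `φ` is `genField1 D`.
-/

set_option autoImplicit false
set_option linter.unusedVariables false
set_option linter.unusedSectionVars false

noncomputable section

namespace Fermat.Agent.S48WA2

open UpperHalfPlane CongruenceSubgroup ModularCurve AlgebraicCurve Fermat.Agent.F3Dict
open Fermat.Agent.S48W
open scoped MatrixGroups ModularForm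

variable {M : ℕ} [NeZero M]

/-! ### `θ` on the generators -/

theorem jdLH_mem_genField1 (D : FrickeData M) (d : ℕ) [NeZero d] (hd : d ∣ M) :
    jdLH M d hd ∈ genField1 D :=
  IntermediateField.subset_adjoin ℂ _ (Or.inl ⟨d, ‹_›, hd, rfl⟩)

theorem frLH_mem_genField1 (D : FrickeData M) (a : ZMod M) (ha : a ≠ 0) :
    D.frLH a ha ∈ genField1 D :=
  IntermediateField.subset_adjoin ℂ _ (Or.inr ⟨a, ha, rfl⟩)

theorem expLH_frLH (D : FrickeData M) (a : ZMod M) (ha : a ≠ 0) :
    expLH M (D.frLH a ha) = qExpand ℂ M (coeffEmb ℂ (fricke M a)) :=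
  expLH_ofFun _ _ (D.hasExp a ha)

theorem theta_coeffEmb_mem1 (D : FrickeData M) {x : LaurentSeries ℚ} (hx : x ∈ FOne M) :
    qExpandAlgHomC ℂ M (coeffEmb ℂ x) ∈ (genField1 D).map (expLH M) := by
  unfold FOne at hx
  induction hx using IntermediateField.adjoin_induction with
  | mem x hx =>
    rcases hx with ⟨d, hdne, hd, rfl⟩ | ⟨a, ha, rfl⟩
    · rw [EmbFHom.qExpand_coeffEmb_jqd, ← expLH_jdLH M d hd]
      exact (IntermediateField.mem_map _).mpr ⟨_, jdLH_mem_genField1 D d hd, rfl⟩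
    · rw [qExpandAlgHomC_apply, ← expLH_frLH D a ha]
      exact (IntermediateField.mem_map _).mpr ⟨_, frLH_mem_genField1 D a ha, rfl⟩
  | algebraMap c =>
    have h1 : qExpandAlgHomC ℂ M (coeffEmb ℂ (algebraMap ℚ (LaurentSeries ℚ) c)) =
        ((c : ℚ) : LaurentSeries ℂ) := by
      rw [eq_ratCast, map_ratCast, map_ratCast]
    rw [h1]
    exact SubfieldClass.ratCast_mem _ c
  | add x y _ _ hx hy =>
    rw [map_add, map_add]
    exact add_mem hx hy
  | inv x _ hx =>
    rw [map_inv₀, map_inv₀]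
    exact inv_mem hx
  | mul x y _ _ hx hy =>
    rw [map_mul, map_mul]
    exact mul_mem hx hy

theorem map_theta_eq1 (D : FrickeData M) :
    (FC1 M).map (qExpandAlgHomC ℂ M) = (genField1 D).map (expLH M) := by
  apply le_antisymm
  · unfold FC1 laurentBaseChange
    rw [IntermediateField.adjoin_map, IntermediateField.adjoin_le_iff]
    rintro _ ⟨_, ⟨x, hx, rfl⟩, rfl⟩
    exact theta_coeffEmb_mem1 D hx
  · unfold genField1
    rw [IntermediateField.adjoin_map, IntermediateField.adjoin_le_iff]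
    rintro _ ⟨_, ⟨d, hdne, hd, rfl⟩ | ⟨a, ha, rfl⟩, rfl⟩
    · show expLH M (jdLH M d hd) ∈ _
      rw [expLH_jdLH, ← EmbFHom.qExpand_coeffEmb_jqd]
      exact (IntermediateField.mem_map _).mpr
        ⟨_, coeffEmb_mem_laurentBaseChange ℂ (full_le_FOne M (jqd_mem_full M hd)), rfl⟩
    · show expLH M (D.frLH a ha) ∈ _
      rw [expLH_frLH, ← qExpandAlgHomC_apply]
      exact (IntermediateField.mem_map _).mpr
        ⟨_, coeffEmb_mem_laurentBaseChange ℂ (fricke_mem M ha), rfl⟩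

/-! ### The embedding -/

/-- the embedding `φ = ψ⁻¹ ∘ θ` of `FC1 M` in `LH M`. -/
def embHom1 (D : FrickeData M) : FC1 M →ₐ[ℂ] LH M :=
  (genField1 D).val.comp
    ((((FC1 M).equivMap (qExpandAlgHomC ℂ M)).trans
      (IntermediateField.equivOfEq (map_theta_eq1 D))).trans
        ((genField1 D).equivMap (expLH M)).symm).toAlgHom

theorem embHom1_mem (D : FrickeData M) (x : FC1 M) : embHom1 D x ∈ genField1 D :=
  Subtype.mem _

/-- `ψ (φ x) = θ x`. -/
theorem expLH_embHom1 (D : FrickeData M) (x : FC1 M) :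
    expLH M (embHom1 D x) = qExpand ℂ M (x : LaurentSeries ℂ) := by
  set y := ((genField1 D).equivMap (expLH M)).symm
    ((IntermediateField.equivOfEq (map_theta_eq1 D))
      (((FC1 M).equivMap (qExpandAlgHomC ℂ M)) x)) with hy
  have h1 : embHom1 D x = (y : LH M) := rfl
  have h2 : ((genField1 D).equivMap (expLH M)) y =
      (IntermediateField.equivOfEq (map_theta_eq1 D))
        (((FC1 M).equivMap (qExpandAlgHomC ℂ M)) x) := by
    rw [hy, AlgEquiv.apply_symm_apply]
  have h3 := congrArg (fun z : ↥((genField1 D).map (expLH M)) => (z : LaurentSeries ℂ)) h2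
  simp only [IntermediateField.coe_equivMap_apply] at h3
  rw [h1, h3]
  rfl

theorem isPhi_embHom1 (D : FrickeData M) : IsPhi M (embHom1 D) := fun x => expLH_embHom1 D x

/-- **(A2-EMB)** the inverse of the expansion at `∞` exists. -/
theorem exists_isPhi (D : FrickeData M) : ∃ φ : FC1 M →ₐ[ℂ] LH M, IsPhi M φ :=
  ⟨embHom1 D, isPhi_embHom1 D⟩

variable {φ : FC1 M →ₐ[ℂ] LH M}

/-- `φ j(q^d) = j_d`. -/
theorem IsPhi.jdBar1 (hφ : IsPhi M φ) (d : ℕ) [NeZero d] (hd : d ∣ M) :
    φ (jdBar1 M d hd) = jdLH M d hd := by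
  apply expLH_injective M
  rw [hφ, expLH_jdLH, ← EmbFHom.qExpand_coeffEmb_jqd, qExpandAlgHomC_apply]
  rfl

/-- `φ j = j`. -/
theorem IsPhi.jBar1 (hφ : IsPhi M φ) : φ (jBar1 M) = jLH M := by
  apply expLH_injective M
  rw [hφ, ← jdLH_one, expLH_jdLH, ← EmbFHom.qExpand_coeffEmb_jqd, qExpandAlgHomC_apply,
    qExpand_one_apply]
  rfl

/-- the image of `φ` is contained in `ℂ(j_d, Fr a)`. -/
theorem IsPhi.mem_genField1 (hφ : IsPhi M φ) (D : FrickeData M) (x : FC1 M) :
    φ x ∈ genField1 D := by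
  rw [hφ.unique (isPhi_embHom1 D)]
  exact embHom1_mem D x

/-- every element of `ℂ(j_d, Fr a)` is a value of `φ`. -/
theorem IsPhi.exists_eq_of_mem_genField1 (hφ : IsPhi M φ) (D : FrickeData M) {y : LH M}
    (hy : y ∈ genField1 D) : ∃ x : FC1 M, φ x = y := by
  have h1 : expLH M y ∈ (genField1 D).map (expLH M) :=
    (IntermediateField.mem_map _).mpr ⟨y, hy, rfl⟩
  rw [← map_theta_eq1 D] at h1
  obtain ⟨x, hx, hxy⟩ := (IntermediateField.mem_map _).mp h1
  refine ⟨⟨x, hx⟩, ?_⟩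
  apply expLH_injective M
  rw [hφ, ← hxy]
  rfl

end Fermat.Agent.S48WA2
end
end MergeWrap_S48_W_A_Dict_Emb
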