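import Mathlib
import Fermat.Agent.MU.S48.W.A.Dict.Seats
import Fermat.Agent.MU.S48.W.A.Dict.Forms
import Fermat.Agent.MU.F3.Dict.RatioCusp

section MergeWrap_S48_W_A_Dict_Ratio -- from S48/W/A/Dict/Ratio.lean

set_option autoImplicit false

noncomputable section

namespace Fermat.Agent.S48WA2

open UpperHalfPlane CongruenceSubgroup ModularCurve Fermat.Agent.F3Dict
open Fermat.Agent.S48W
open scoped MatrixGroups ModularForm

/-- the expansion of the zero function is zero. -/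
theorem ratio_hasExp_zero (M : ℕ) [NeZero M] : HasExp M (0 : Fun) (0 : LaurentSeries Kc) := by
  have h := HasExp.algebraMap M (0 : Kc)
  simpa using h

/-- `qLaurent A = 0 → A = 0`. -/
theorem ratio_eq_zero_of_qLaurent {M : ℕ} [NeZero M] {w : ℤ} (A : ModularForm (Gamma1 M) w)
    (h : F3I2.qLaurent A = 0) : A = 0 := by
  have h1 := hasExp_mfFun1 M A
  rw [h, map_zero] at h1
  exact (mfFun1_eq_zero_iff A).mp (h1.fun_unique (ratio_hasExp_zero M))

/-- if `x = A / B` and `A ≠ 0` then `x ≠ 0`. -/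
theorem ne_zero_of_isRatio1 {M : ℕ} [NeZero M] {w : ℤ} (A B : ModularForm (Gamma1 M) w)
    (x : FC1 M) (hA : A ≠ 0) (h : IsRatio1 M x A B) : x ≠ 0 := by
  rintro rfl
  apply hA
  apply ratio_eq_zero_of_qLaurent
  rw [h.2]
  simp

/-- The cross-multiplication identity: if `x = A / B` (`q`-expansions) and `φ x = a / b` in
`LH M` (`a, b ∈ AH M`), then `A · b = B · a` as functions on `ℍ`. -/
theorem IsPhi.mul_eq_mul_of_isRatio1 {M : ℕ} [NeZero M] {φ : FC1 M →ₐ[ℂ] LH M}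
    (hφ : IsPhi M φ) (x : FC1 M) {w : ℤ} (A B : ModularForm (Gamma1 M) w)
    (h : IsRatio1 M x A B) (a b : AH M)
    (hx : φ x * algebraMap (AH M) (LH M) b = algebraMap (AH M) (LH M) a) :
    mfFun1 A * (b : Fun) = mfFun1 B * (a : Fun) := by
  have e1 : expLH M (φ x) = qExpand ℂ M (x : LaurentSeries ℂ) := hφ x
  have e2 := congrArg (expLH M) hx
  rw [map_mul, expLH_algebraMap, expLH_algebraMap, e1] at e2
  have hA := (hasExp_mfFun1 M A).mul (hasExp_expAH b)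
  have hB := (hasExp_mfFun1 M B).mul (hasExp_expAH a)
  have key : qExpand Kc M (F3I2.qLaurent A) * expAH M b
      = qExpand Kc M (F3I2.qLaurent B) * expAH M a := by
    rw [h.2, map_mul, ← e2]
    ring
  rw [key] at hA
  exact hA.fun_unique hB

theorem ratio_ordAt_mfFun1_ne_top {M : ℕ} {w : ℤ} {A : ModularForm (Gamma1 M) w} (hA : A ≠ 0)
    (τ : ℍ) : F3Dict.ordAt τ (mfFun1 A) ≠ ⊤ := by
  rw [Ne, (isHol_mfFun1 A).ordAt_eq_top_iff, mfFun1_eq_zero_iff]
  exact hA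

theorem ratio_F3I2_ordAt_eq {M : ℕ} {w : ℤ} (A : ModularForm (Gamma1 M) w) (τ : ℍ) :
    F3I2.ordAt A τ = ((F3Dict.ordAt τ (mfFun1 A)).toNat : ℤ) := rfl

/-- **(R), the ratio bridge at `τ ∈ ℍ`.**  If `x = A / B` (`IsRatio1`, `A ≠ 0`) then
`-log (valLH M τ (φ x)) = ord_τ A - ord_τ B`. -/
theorem IsPhi.neg_log_valLH {M : ℕ} [NeZero M] {φ : FC1 M →ₐ[ℂ] LH M} (hφ : IsPhi M φ)
    (x : FC1 M) {w : ℤ} (A B : ModularForm (Gamma1 M) w) (hA : A ≠ 0) (h : IsRatio1 M x A B)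
    (τ : ℍ) :
    -WithZero.log (valLH M τ (φ x)) = F3I2.ordAt A τ - F3I2.ordAt B τ := by
  obtain ⟨a, b, hb, hab⟩ := IsFractionRing.div_surjective (A := AH M) (φ x)
  have hb0 : b ≠ 0 := nonZeroDivisors.ne_zero hb
  have hbL : algebraMap (AH M) (LH M) b ≠ 0 := by
    intro h0
    exact hb0 ((IsFractionRing.injective (AH M) (LH M)) (by rw [h0, map_zero]))
  have hx : φ x * algebraMap (AH M) (LH M) b = algebraMap (AH M) (LH M) a := by
    rw [← hab, div_mul_cancel₀ _ hbL]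
  have hmul := hφ.mul_eq_mul_of_isRatio1 x A B h a b hx
  have hoA := ratio_ordAt_mfFun1_ne_top hA τ
  have hoB := ratio_ordAt_mfFun1_ne_top h.1 τ
  have hob : F3Dict.ordAt τ (b : Fun) ≠ ⊤ := by
    rw [Ne, (isHol_of_mem_AH b.2).ordAt_eq_top_iff]
    intro h0
    exact hb0 (Subtype.ext h0)
  have hsum : F3Dict.ordAt τ (mfFun1 A) + F3Dict.ordAt τ (b : Fun)
      = F3Dict.ordAt τ (mfFun1 B) + F3Dict.ordAt τ (a : Fun) := by
    rw [← (isHol_mfFun1 A).ordAt_mul (isHol_of_mem_AH b.2),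
      ← (isHol_mfFun1 B).ordAt_mul (isHol_of_mem_AH a.2), hmul]
  have hoa : F3Dict.ordAt τ (a : Fun) ≠ ⊤ := by
    intro h0
    rw [h0, add_top] at hsum
    exact (WithTop.add_ne_top.mpr ⟨hoA, hob⟩) hsum
  obtain ⟨kA, hkA⟩ := ENat.ne_top_iff_exists.mp hoA
  obtain ⟨kB, hkB⟩ := ENat.ne_top_iff_exists.mp hoB
  obtain ⟨ka, hka⟩ := ENat.ne_top_iff_exists.mp hoa
  obtain ⟨kb, hkb⟩ := ENat.ne_top_iff_exists.mp hob
  rw [← hkA, ← hkB, ← hka, ← hkb] at hsum
  have hsum' : kA + kb = kB + ka := by exact_mod_cast hsum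
  rw [ratio_F3I2_ordAt_eq, ratio_F3I2_ordAt_eq, ← hkA, ← hkB, ← hab, map_div₀, valLH_algebraMap,
    valLH_algebraMap, valAH_apply, valAH_apply, ← hka, ← hkb, expNeg_coe, expNeg_coe,
    WithZero.log_div WithZero.exp_ne_zero WithZero.exp_ne_zero, WithZero.log_exp,
    WithZero.log_exp, ENat.toNat_natCast, ENat.toNat_natCast]
  omega

/-- **(R∞), the ratio bridge at the cusps.**  If `x = A / B` (`IsRatio1`, `A ≠ 0`) then for
all `γ ∈ SL(2,ℤ)`: `-log (winfH M (γ • φ x)) = ord_∞ (A ∣ γ⁻¹) - ord_∞ (B ∣ γ⁻¹)` (orders in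
`u_M = exp(2πiτ/M)`). -/
theorem IsPhi.neg_log_winfH_smul {M : ℕ} [NeZero M] {φ : FC1 M →ₐ[ℂ] LH M} (hφ : IsPhi M φ)
    (x : FC1 M) {w : ℤ} (A B : ModularForm (Gamma1 M) w) (hA : A ≠ 0) (h : IsRatio1 M x A B)
    (γ : SL(2, ℤ)) :
    -WithZero.log (winfH M (γ • φ x)) =
      F3I2.ordInf M (⇑A ∣[w] γ⁻¹) - F3I2.ordInf M (⇑B ∣[w] γ⁻¹) := by
  obtain ⟨a, b, hb, hab⟩ := IsFractionRing.div_surjective (A := AH M) (φ x)
  have hb0 : b ≠ 0 := nonZeroDivisors.ne_zero hb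
  have hbL : algebraMap (AH M) (LH M) b ≠ 0 := by
    intro h0
    exact hb0 ((IsFractionRing.injective (AH M) (LH M)) (by rw [h0, map_zero]))
  have hx : φ x * algebraMap (AH M) (LH M) b = algebraMap (AH M) (LH M) a := by
    rw [← hab, div_mul_cancel₀ _ hbL]
  have hmul := hφ.mul_eq_mul_of_isRatio1 x A B h a b hx
  -- the translated identity
  have key1 : slFun1 A γ⁻¹ * ((γ • b : AH M) : Fun) = slFun1 B γ⁻¹ * ((γ • a : AH M) : Fun) := by
    ext τ
    have h1 : (mfFun1 A * (b : Fun)) (γ⁻¹ • τ) = (mfFun1 B * (a : Fun)) (γ⁻¹ • τ) := by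
      rw [hmul]
    rw [Fun.mul_apply, Fun.mul_apply, mfFun1_apply, mfFun1_apply] at h1
    rw [Fun.mul_apply, Fun.mul_apply, AH.coe_smul, AH.coe_smul, Fun.sl_smul_apply,
      Fun.sl_smul_apply, slFun1_apply, slFun1_apply]
    rw [mul_right_comm, h1]
    exact mul_right_comm _ _ _
  -- expansions
  set PA := UpperHalfPlane.qExpansion (M : ℝ) (⇑A ∣[w] γ⁻¹) with hPA
  set PB := UpperHalfPlane.qExpansion (M : ℝ) (⇑B ∣[w] γ⁻¹) with hPB
  have hPA0 : PA ≠ 0 := qExpansion_slash1_ne_zero M hA γ⁻¹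
  have hPB0 : PB ≠ 0 := qExpansion_slash1_ne_zero M h.1 γ⁻¹
  have e1 := (hasExp_slFun1 M A γ⁻¹).mul (hasExp_expAH (γ • b))
  have e2 := (hasExp_slFun1 M B γ⁻¹).mul (hasExp_expAH (γ • a))
  rw [key1] at e1
  have key2 := e1.unique e2
  have key3 := congrArg (Valued.v : LaurentSeries Kc → WithZero (Multiplicative ℤ)) key2
  rw [map_mul, map_mul, ← hPA, ← hPB, F3RatioCusp.valued_ofPowerSeries hPA0,
    F3RatioCusp.valued_ofPowerSeries hPB0, ← winfAH_apply, ← winfAH_apply] at key3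
  -- the valuation of `γ • φ x`
  have hγb : winfAH M (γ • b) ≠ 0 := by
    rw [Ne, winfAH_eq_zero_iff]
    intro h0
    apply hb0
    have := congrArg (fun f => γ⁻¹ • f) h0
    simpa using this
  have hva : winfAH M (γ • a) =
      WithZero.exp (-((PA.order.toNat : ℕ) : ℤ)) * winfAH M (γ • b) /
        WithZero.exp (-((PB.order.toNat : ℕ) : ℤ)) := by
    rw [key3, mul_div_cancel_left₀ _ WithZero.exp_ne_zero]
  have hval : winfH M (γ • φ x) =
      WithZero.exp (((PB.order.toNat : ℕ) : ℤ) - ((PA.order.toNat : ℕ) : ℤ)) := by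
    rw [← hab, smul_div₀', LH.smul_algebraMap, LH.smul_algebraMap, map_div₀,
      winfH_algebraMap, winfH_algebraMap, hva, div_div, mul_div_mul_right _ _ hγb,
      ← WithZero.exp_sub]
    congr 1
    ring
  rw [hval, WithZero.log_exp]
  show _ = ((PA.order.toNat : ℕ) : ℤ) - ((PB.order.toNat : ℕ) : ℤ)
  ring

end Fermat.Agent.S48WA2
end
end MergeWrap_S48_W_A_Dict_Ratio
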