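import Mathlib
import Fermat.Agent.MU.S48.W.A.Dict.Stab
import Fermat.Agent.MU.S48.W.A.Dict.Emb

section MergeWrap_S48_W_A_Dict_StabFinal -- from S48/W/A/Dict/StabFinal.lean

set_option autoImplicit false

noncomputable section

namespace Fermat.Agent.S48WA2

open UpperHalfPlane CongruenceSubgroup ModularCurve AlgebraicCurve Fermat.Agent.F3Dict
open Fermat.Agent.S48W
open scoped MatrixGroups ModularForm

/-- **the stabiliser of `φ (FC1 M)` in `SL(2,ℤ)` is `± Γ₁(M)`.** -/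
theorem IsPhi.mem_Gamma1pm_iff {M : ℕ} [NeZero M] (hM : 3 ≤ M) (D : FrickeData M)
    {φ : FC1 M →ₐ[ℂ] LH M} (hφ : IsPhi M φ) (γ : SL(2, ℤ)) :
    γ ∈ Gamma1pm M ↔ ∀ x : FC1 M, γ • φ x = φ x :=
  IsPhi.mem_Gamma1pm_iff_of_gen hM D hφ (fun x => IsPhi.mem_genField1 hφ D x) γ

end Fermat.Agent.S48WA2
end
end MergeWrap_S48_W_A_Dict_StabFinal
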