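import Mathlib
import Fermat.Agent.MU.S48.W.A.Dict.Seats
import Fermat.Agent.MU.S48.W.A.Dict.AmbInv
import Fermat.Agent.MU.F3.Dict.PlacesHom
import Fermat.Agent.MU.F3.Dict.ChartsC
import Fermat.Agent.MU.F3.Dict.ConstHPD
import Fermat.Agent.MU.S20.JInjective
import Fermat.Agent.MU.S48.W.A.Dict.Amb
import Fermat.Agent.MU.S48.W.A.Dict.AmbVal
import Fermat.Agent.MU.S48.W.A.Dict.Emb
import Fermat.Agent.MU.S48.W.A.Dict.StabFinal
import Fermat.Agent.MU.S48.W.A.Dict.Ratio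
import Fermat.Agent.MU.S36.Ig.EpsGen
import Fermat.Agent.MU.S24.GensExp
import Fermat.Agent.MU.S24.Hol
import Fermat.Agent.MU.S48.W.A1.Slash
import Fermat.Agent.MU.S48.W.A1.Hol
import Fermat.Agent.MU.S48.W.A1.XExp
import Fermat.Agent.MU.S48.W.A.Dict.Forms
import Fermat.Agent.MU.S48.W.A1.EqExp
import Fermat.Agent.MU.S23.ThetaDef
import Fermat.Agent.MU.S48.W.A.K.Ratio
import Fermat.Agent.MU.F3.I2.Dict1
import Fermat.Agent.MU.S48.W.A.Dict.D1b
import Fermat.Agent.MU.S48.W.A.K.Defs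

section MergeWrap_S48_W_A_Dict_Charts -- from S48/W/A/Dict/Charts.lean

set_option autoImplicit false
set_option linter.style.haveILetI false
set_option linter.unusedSectionVars false

noncomputable section

namespace Fermat.Agent.S48WA2

open UpperHalfPlane CongruenceSubgroup ModularCurve AlgebraicCurve
open Fermat.Agent.F3Dict Fermat.Agent.F3Places Fermat.Agent.F3I2
open scoped MatrixGroups ModularForm

/-- **the data of the seats** (everything that `Charts.lean` consumes). -/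
structure DictDatum (M : ℕ) [NeZero M] where
  /-- the embedding (A2-EMB) -/
  φ : FC1 M →ₐ[ℂ] LH M
  isPhi : IsPhi M φ
  phi_j : φ (jBar1 M) = jLH M
  /-- the stabiliser (A2-STAB) -/
  stab : ∀ γ : SL(2, ℤ), γ ∈ Gamma1pm M ↔ ∀ x : FC1 M, γ • φ x = φ x
  /-- the local points (A2-LOC) -/
  loc : ∀ c : ℂ, ∃ (τ : ℍ) (s : ℕ) (g : SL(2, ℤ)), jFun τ = c ∧ 0 < s ∧
      valLH M τ (jLH M - algebraMap ℂ (LH M) c) = WithZero.exp (-(s : ℤ)) ∧ g • τ = τ ∧
      (s = 1 ∨ s = 2 ∨ s = 3) ∧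
      (∀ k : ℤ, (∀ x : LH M, (g ^ k) • x = x) ↔ (s : ℤ) ∣ k) ∧
      IsPrimitiveRoot ((((g 1 0 : ℤ) : ℂ) * (τ : ℂ) + ((g 1 1 : ℤ) : ℂ)) ^ 2) s
  /-- the period of `T` (A2-LOC) -/
  perT : ∀ k : ℤ, (∀ x : LH M, (ModularGroup.T ^ k) • x = x) ↔ (M : ℤ) ∣ k
  /-- a ratio with nonzero numerator is nonzero (A2-RATIO) -/
  ratio_ne_zero : ∀ (x : FC1 M) (w : ℤ) (A B : ModularForm (Gamma1 M) w), A ≠ 0 →
    IsRatio1 M x A B → x ≠ 0
  /-- the ratio bridge at the points of `ℍ` (A2-RATIO) -/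
  ratio : ∀ (x : FC1 M) (w : ℤ) (A B : ModularForm (Gamma1 M) w), A ≠ 0 → IsRatio1 M x A B →
    ∀ τ : ℍ, -WithZero.log (valLH M τ (φ x)) = ordAt A τ - ordAt B τ
  /-- the ratio bridge at the cusps (A2-RATIO) -/
  ratioInf : ∀ (x : FC1 M) (w : ℤ) (A B : ModularForm (Gamma1 M) w), A ≠ 0 →
    IsRatio1 M x A B → ∀ γ : SL(2, ℤ),
      -WithZero.log (winfH M (γ • φ x)) = ordInf M (⇑A ∣[w] γ⁻¹) - ordInf M (⇑B ∣[w] γ⁻¹)

namespace DictDatum

variable {M : ℕ} [NeZero M]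

theorem transcendental_jBar1 (D : DictDatum M) : Transcendental ℂ (jBar1 M) := by
  intro h
  have h1 : IsAlgebraic ℂ (D.φ (jBar1 M)) := IsAlgebraic.algHom D.φ h
  rw [D.phi_j] at h1
  exact transcendental_jLH M h1

theorem isFunctionFieldOver_jBar1 (D : DictDatum M) :
    Fermat.Agent.S24Diff.IsFunctionFieldOver ℂ (FC1 M) (jBar1 M) :=
  isFunctionFieldOver_of_hom (Γ := SL(2, ℤ)) D.φ (jBar1 M) (jLH M) D.phi_j
    D.transcendental_jBar1 (exists_finiteIndex_fixing_LH M) (smul_jLH M)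
    (mem_adjoin_jLH_of_invariant M)

/-- **(HPD)** principal divisors of `FC1 M`. -/
theorem dictHPD1 (D : DictDatum M) : DictHPD1 M :=
  Fermat.Agent.S24Diff.hasPrincipalDivisors D.isFunctionFieldOver_jBar1

/-- **(CONST)** an element of `FC1 M` without zeros and poles is constant. -/
theorem dictConst1 (D : DictDatum M) : DictConst1 M := fun x _ hv =>
  exists_algebraMap_eq_of_forall_ord_eq_zero D.isFunctionFieldOver_jBar1 x hv

/-! ### charts -/

theorem neg_mem_Gamma1_smul (γ : SL(2, ℤ)) (τ : ℍ) : (-γ) • τ = γ • τ :=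
  ModularGroup.SL_neg_smul γ τ

theorem cdFactor_neg_sq (γ : SL(2, ℤ)) (τ : ℍ) : cdFactor (-γ) τ ^ 2 = cdFactor γ τ ^ 2 := by
  have h : cdFactor (-γ) τ = -cdFactor γ τ := by
    unfold cdFactor
    simp only [Matrix.SpecialLinearGroup.coe_neg, Matrix.neg_apply, Int.cast_neg]
    ring
  rw [h, neg_sq]

set_option maxHeartbeats 1000000 in
set_option synthInstance.maxHeartbeats 400000 in
/-- a chart at the point `γ⁻¹ τc` from the abstract data of one fibre. -/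
theorem chart_of_fibre (D : DictDatum M) (τc : ℍ) (s : ℕ) (g : SL(2, ℤ))
    (hgτ : g • τc = τc) (hs : 0 < s) (hprim : IsPrimitiveRoot (cdFactor g τc ^ 2) s)
    (γ : SL(2, ℤ)) (e h : ℕ) (he : 0 < e) (hhe : h * e = s)
    (hmem : γ⁻¹ * g ^ h * γ ∈ Gamma1pm M)
    (v : Place ℂ (FC1 M))
    (hve : ∀ x : FC1 M, x ≠ 0 →
      -WithZero.log (valLH M τc (γ • D.φ x)) = (e : ℤ) * v.ord x) :
    IsChartAt1 M v (γ⁻¹ • τc) e := by
  obtain ⟨hw1, hw2⟩ := witness γ g τc h hgτ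
  have hprim' : IsPrimitiveRoot (cdFactor (γ⁻¹ * g ^ h * γ) (γ⁻¹ • τc) ^ 2) e := by
    rw [hw2]
    exact hprim.pow hs hhe.symm
  refine ⟨he, ?_, ?_⟩
  · rcases hmem with hm | hm
    · exact ⟨γ⁻¹ * g ^ h * γ, hm, hw1, hprim'⟩
    · refine ⟨-(γ⁻¹ * g ^ h * γ), hm, ?_, ?_⟩
      · rw [neg_mem_Gamma1_smul]
        exact hw1
      · show IsPrimitiveRoot (cdFactor (-(γ⁻¹ * g ^ h * γ)) (γ⁻¹ • τc) ^ 2) e
        rw [cdFactor_neg_sq]
        exact hprim'
  · intro w A B x hA hr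
    have hx0 := D.ratio_ne_zero x w A B hA hr
    rw [← hve x hx0, valLH_smul_eq]
    exact D.ratio x w A B hA hr (γ⁻¹ • τc)

theorem exists_smul_eq_of_jFun_eq (τ τ' : ℍ) (h : jFun τ = jFun τ') :
    ∃ γ : SL(2, ℤ), γ • τ = τ' := by
  apply Fermat.Agent.S20.exists_smul_eq_of_j_eq
  have h1 : ModularForm.discriminant τ ≠ 0 := ModularForm.discriminant_ne_zero τ
  have h2 : ModularForm.discriminant τ' ≠ 0 := ModularForm.discriminant_ne_zero τ'
  have h3 : ModularForm.E₄ τ ^ 3 / ModularForm.discriminant τ =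
      ModularForm.E₄ τ' ^ 3 / ModularForm.discriminant τ' := h
  field_simp at h3
  linear_combination h3

set_option maxHeartbeats 2000000 in
set_option synthInstance.maxHeartbeats 400000 in
/-- **(D2b)** points → places: every `τ ∈ ℍ` is the centre of a chart of a place of `FC1 M`. -/
theorem dictD2b1 (D : DictDatum M) : DictD2b1 M := by
  intro τ
  obtain ⟨τc, s, g, hj, hs, hval, hgτ, -, hgs, hprim⟩ := D.loc (jFun τ)
  obtain ⟨γ', hγ'⟩ := exists_smul_eq_of_jFun_eq τc τ hj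
  obtain ⟨ht1, ht2, ht3, ht4⟩ := fibre_hyps_sub (Γ := SL(2, ℤ)) D.φ (jBar1 M) (jLH M) D.phi_j
    D.transcendental_jBar1 (smul_jLH M) (mem_adjoin_jLH_of_invariant M) (jFun τ)
  obtain ⟨v, e, h, -, he, -, hhe, hmem, hve⟩ := exists_place_of_point_fibre_hom D.φ
    (jBar1 M - algebraMap ℂ (FC1 M) (jFun τ)) ht1 (exists_finiteIndex_fixing_LH M) ht2 ht3
    (Gamma1pm M) D.stab (valLH M τc) s g
    (fun a ha => valLH_algebraMap_K M τc ha) hs (by rw [ht4]; exact hval)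
    (fun x => valLH_smul M g hgτ x) hgs γ'⁻¹
  have hchart := D.chart_of_fibre τc s g hgτ hs hprim γ'⁻¹ e h he hhe hmem v hve
  rw [inv_inv, hγ'] at hchart
  exact ⟨v, e, hchart⟩

/-- the trace of a conjugate of `T^h` is `2`. -/
theorem conj_T_pow_trace (γ : SL(2, ℤ)) (h : ℕ) :
    (γ⁻¹ * ModularGroup.T ^ h * γ) 0 0 + (γ⁻¹ * ModularGroup.T ^ h * γ) 1 1 = 2 := by
  have hT : ((ModularGroup.T ^ h : SL(2, ℤ)) : Matrix (Fin 2) (Fin 2) ℤ) = !![1, (h : ℤ); 0, 1] := by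
    have := ModularGroup.coe_T_zpow (h : ℤ)
    rwa [zpow_natCast] at this
  have hdet := Fermat.Agent.F3Dict.GensExp.sl2_det γ
  simp only [Matrix.SpecialLinearGroup.coe_mul, Matrix.SpecialLinearGroup.coe_inv,
    Matrix.adjugate_fin_two, hT, Matrix.mul_apply, Fin.sum_univ_two, Matrix.of_apply,
    Matrix.cons_val', Matrix.cons_val_zero, Matrix.cons_val_one, Matrix.empty_val',
    Matrix.cons_val_fin_one]
  linear_combination (2 : ℤ) * hdet

/-- for `5 ≤ M` all cusps of `Γ₁(M)` are regular. -/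
theorem conj_T_pow_mem_Gamma1 (hM : 5 ≤ M) (γ : SL(2, ℤ)) (h : ℕ)
    (hmem : γ⁻¹ * ModularGroup.T ^ h * γ ∈ Gamma1pm M) :
    γ⁻¹ * ModularGroup.T ^ h * γ ∈ Gamma1 M := by
  rcases hmem with hm | hm
  · exact hm
  · exfalso
    rw [Gamma1_mem] at hm
    obtain ⟨h00, h11, -⟩ := hm
    have htr := conj_T_pow_trace γ h
    simp only [Matrix.SpecialLinearGroup.coe_neg, Matrix.neg_apply] at h00 h11
    have h4 : (((-(γ⁻¹ * ModularGroup.T ^ h * γ) 0 0 + -(γ⁻¹ * ModularGroup.T ^ h * γ) 1 1 : ℤ)) :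
        ZMod M) = 2 := by
      push_cast
      push_cast at h00 h11
      rw [h00, h11]
      norm_num
    have h5 : (-(γ⁻¹ * ModularGroup.T ^ h * γ) 0 0 + -(γ⁻¹ * ModularGroup.T ^ h * γ) 1 1 : ℤ)
        = -2 := by linarith
    rw [h5] at h4
    have h6 : ((4 : ℤ) : ZMod M) = 0 := by
      have : ((-2 : ℤ) : ZMod M) = 2 := h4
      have h7 : ((4 : ℤ) : ZMod M) = (2 : ZMod M) - ((-2 : ℤ) : ZMod M) := by
        push_cast; ring
      rw [h7, this, sub_self]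
    rw [ZMod.intCast_zmod_eq_zero_iff_dvd] at h6
    have : (M : ℤ) ≤ 4 := Int.le_of_dvd (by norm_num) h6
    omega

set_option maxHeartbeats 2000000 in
set_option synthInstance.maxHeartbeats 400000 in
/-- **(D2a)** places → points: every place of `FC1 M` has a chart at a point of `ℍ` or at a
cusp. -/
theorem dictD2a1 (D : DictDatum M) (hM : 5 ≤ M) : DictD2a1 M := by
  intro v
  rcases exists_ord_pos_or_neg_of_hom (Γ := SL(2, ℤ)) D.φ (jBar1 M) (jLH M) D.phi_j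
    D.transcendental_jBar1 (exists_finiteIndex_fixing_LH M) (smul_jLH M)
    (mem_adjoin_jLH_of_invariant M) v with ⟨c, hc⟩ | hinf
  · left
    obtain ⟨τc, s, g, -, hs, hval, hgτ, -, hgs, hprim⟩ := D.loc c
    obtain ⟨ht1, ht2, ht3, ht4⟩ := fibre_hyps_sub (Γ := SL(2, ℤ)) D.φ (jBar1 M) (jLH M) D.phi_j
      D.transcendental_jBar1 (smul_jLH M) (mem_adjoin_jLH_of_invariant M) c
    obtain ⟨γ, e, h, he, -, hhe, hmem, hve⟩ := exists_point_of_place_fibre_hom D.φ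
      (jBar1 M - algebraMap ℂ (FC1 M) c) ht1 (exists_finiteIndex_fixing_LH M) ht2 ht3
      (Gamma1pm M) D.stab (valLH M τc) s g
      (fun a ha => valLH_algebraMap_K M τc ha) hs (by rw [ht4]; exact hval)
      (fun x => valLH_smul M g hgτ x) hgs v hc
    exact ⟨γ⁻¹ • τc, e, D.chart_of_fibre τc s g hgτ hs hprim γ e h he hhe hmem v hve⟩
  · right
    obtain ⟨ht1, ht2, ht3, ht4⟩ := fibre_hyps_inv (Γ := SL(2, ℤ)) D.φ (jBar1 M) (jLH M) D.phi_j
      D.transcendental_jBar1 (smul_jLH M) (mem_adjoin_jLH_of_invariant M)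
    have hM0 : 0 < M := by omega
    obtain ⟨γ, e, h, he, hh, hhe, hmem, hve⟩ := exists_point_of_place_fibre_hom D.φ
      (jBar1 M)⁻¹ ht1 (exists_finiteIndex_fixing_LH M) ht2 ht3
      (Gamma1pm M) D.stab (winfH M) M ModularGroup.T
      (fun a ha => winfH_algebraMap_K M ha) hM0
      (by rw [ht4, map_inv₀, winfH_jLH, ← WithZero.exp_neg])
      (fun x => winfH_T_smul M x) D.perT v hinf
    refine ⟨γ⁻¹, h, e, hh, he, ?_, ?_⟩
    · rw [inv_inv]
      exact conj_T_pow_mem_Gamma1 hM γ h hmem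
    · intro w A B x hA hr
      have hx0 := D.ratio_ne_zero x w A B hA hr
      rw [← hve x hx0, hhe]
      exact D.ratioInf x w A B hA hr γ

end DictDatum

end Fermat.Agent.S48WA2
end
end MergeWrap_S48_W_A_Dict_Charts

section MergeWrap_S48_W_A_Dict_AmbLoc -- from S48/W/A/Dict/AmbLoc.lean

set_option autoImplicit false

noncomputable section

namespace Fermat.Agent.S48WA2

open UpperHalfPlane ModularGroup Fermat.Agent.F3Dict
open scoped MatrixGroups

/-! ### the embedding `LL M → LH M` -/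

theorem inclAH_injective (M : ℕ) [NeZero M] : Function.Injective (inclAH M) :=
  Subalgebra.inclusion_injective (AL_le_AH M)

theorem inclAH_smul (M : ℕ) [NeZero M] (γ : SL(2, ℤ)) (f : AL M) :
    inclAH M (γ • f) = γ • inclAH M f := rfl

/-- `AL M → AH M → LH M`. -/
def embAL (M : ℕ) [NeZero M] : AL M →ₐ[Kc] LH M :=
  (IsScalarTower.toAlgHom Kc (AH M) (LH M)).comp (inclAH M)

theorem embAL_apply (M : ℕ) [NeZero M] (f : AL M) :
    embAL M f = algebraMap (AH M) (LH M) (inclAH M f) := rfl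

theorem embAL_injective (M : ℕ) [NeZero M] : Function.Injective (embAL M) :=
  (IsFractionRing.injective (AH M) (LH M)).comp (inclAH_injective M)

/-- **the field `LL M` of cluster A inside the ambient field `LH M`.** -/
def embLL (M : ℕ) [NeZero M] : LL M →ₐ[Kc] LH M :=
  IsFractionRing.liftAlgHom (embAL_injective M)

theorem embLL_algebraMap (M : ℕ) [NeZero M] (f : AL M) :
    embLL M (algebraMap (AL M) (LL M) f) = algebraMap (AH M) (LH M) (inclAH M f) := by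
  unfold embLL
  rw [IsFractionRing.liftAlgHom_apply]
  exact IsFractionRing.lift_algebraMap _ _

theorem embLL_injective (M : ℕ) [NeZero M] : Function.Injective (embLL M) :=
  (embLL M).toRingHom.injective

theorem embLL_smul (M : ℕ) [NeZero M] (γ : SL(2, ℤ)) (x : LL M) :
    embLL M (γ • x) = γ • embLL M x := by
  obtain ⟨a, b, -, rfl⟩ := IsFractionRing.div_surjective (A := AL M) x
  rw [smul_div₀', LL.smul_algebraMap, LL.smul_algebraMap, map_div₀, map_div₀, smul_div₀',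
    embLL_algebraMap, embLL_algebraMap, embLL_algebraMap, embLL_algebraMap,
    LH.smul_algebraMap, LH.smul_algebraMap, inclAH_smul, inclAH_smul]

theorem embLL_jLL (M : ℕ) [NeZero M] : embLL M (jLL M) = jLH M := by
  unfold jLL
  rw [embLL_algebraMap]
  rfl

/-- an element fixing `LH M` pointwise fixes `LL M` pointwise. -/
theorem smul_eq_LL_of_smul_eq_LH (M : ℕ) [NeZero M] (γ : SL(2, ℤ))
    (h : ∀ x : LH M, γ • x = x) (x : LL M) : γ • x = x := by
  apply embLL_injective M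
  rw [embLL_smul, h]

/-! ### the periods of `S`, `S * T`, `T` -/

/-- The subgroup of `SL(2,ℤ)` acting trivially on `LH M`. -/
def fixerLH (M : ℕ) [NeZero M] : Subgroup SL(2, ℤ) where
  carrier := {γ | ∀ x : LH M, γ • x = x}
  one_mem' x := one_smul _ x
  mul_mem' {a b} ha hb x := by rw [mul_smul, hb x, ha x]
  inv_mem' {a} ha x := by
    rw [inv_smul_eq_iff, ha x]

theorem mem_fixerLH {M : ℕ} [NeZero M] {γ : SL(2, ℤ)} :
    γ ∈ fixerLH M ↔ ∀ x : LH M, γ • x = x := Iff.rfl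

theorem fixerLH_le_fixer (M : ℕ) [NeZero M] : fixerLH M ≤ Periods.fixer M :=
  fun γ h => smul_eq_LL_of_smul_eq_LH M γ h

/-- An element acting trivially on the upper half plane acts trivially on `LH M`. -/
theorem mem_fixerLH_of_forall_smul (M : ℕ) [NeZero M] (γ : SL(2, ℤ)) (h : ∀ τ : ℍ, γ • τ = τ) :
    γ ∈ fixerLH M := by
  have hFun : ∀ f : Fun, γ • f = f := by
    intro f
    ext τ
    rw [Fun.sl_smul_apply]
    congr 1
    rw [inv_smul_eq_iff, h τ]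
  have hAH : ∀ f : AH M, γ • f = f := fun f => Subtype.ext (hFun f)
  intro x
  obtain ⟨a, b, -, rfl⟩ := IsFractionRing.div_surjective (A := AH M) x
  rw [smul_div₀', LH.smul_algebraMap, LH.smul_algebraMap, hAH a, hAH b]

theorem S_sq_mem_fixerLH (M : ℕ) [NeZero M] : ModularGroup.S ^ 2 ∈ fixerLH M := by
  apply mem_fixerLH_of_forall_smul
  intro τ
  rw [pow_two, mul_smul, Periods.S_smul_S_smul]

theorem ST_cube_mem_fixerLH (M : ℕ) [NeZero M] :
    (ModularGroup.S * ModularGroup.T) ^ 3 ∈ fixerLH M := by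
  apply mem_fixerLH_of_forall_smul
  intro τ
  rw [Periods.ST_pow_three, ModularGroup.SL_neg_smul, one_smul]

theorem S_zpow_smul_eq_iff_LH (M : ℕ) [NeZero M] (hM : 2 ≤ M) (k : ℤ) :
    (∀ x : LH M, (ModularGroup.S ^ k) • x = x) ↔ (2 : ℤ) ∣ k :=
  Periods.zpow_mem_iff_of_prime (fixerLH M) ModularGroup.S 2 Nat.prime_two (S_sq_mem_fixerLH M)
    (fun h => Periods.S_not_mem_fixer M hM (fixerLH_le_fixer M h)) k

theorem ST_zpow_smul_eq_iff_LH (M : ℕ) [NeZero M] (hM : 2 ≤ M) (k : ℤ) :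
    (∀ x : LH M, ((ModularGroup.S * ModularGroup.T) ^ k) • x = x) ↔ (3 : ℤ) ∣ k :=
  Periods.zpow_mem_iff_of_prime (fixerLH M) (ModularGroup.S * ModularGroup.T) 3 Nat.prime_three
    (ST_cube_mem_fixerLH M)
    (fun h => Periods.ST_not_mem_fixer M hM (fixerLH_le_fixer M h)) k

theorem T_zpow_smul_eq_iff_LH (M : ℕ) [NeZero M] (k : ℤ) :
    (∀ x : LH M, (ModularGroup.T ^ k) • x = x) ↔ (M : ℤ) ∣ k := by
  constructor
  · intro h
    exact (T_zpow_smul_eq_iff M k).mp (smul_eq_LL_of_smul_eq_LH M _ h)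
  · intro hk x
    apply Gamma_smul_eq_LH M
    have := CongruenceSubgroup.ModularGroup_T_pow_mem_Gamma (M : ℤ) k hk
    simpa using this

/-! ### the local points -/

/-- **(LD) for `LH M`.**  Explicit local point above `j = c`. -/
theorem exists_local_point_LH (M : ℕ) [NeZero M] (hM : 2 ≤ M) (c : ℂ) :
    ∃ (τ : ℍ) (s : ℕ) (g : SL(2, ℤ)), jFun τ = c ∧ 0 < s ∧
      valLH M τ (jLH M - algebraMap ℂ (LH M) c) = WithZero.exp (-(s : ℤ)) ∧ g • τ = τ ∧
      (s = 1 ∨ s = 2 ∨ s = 3) ∧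
      (∀ k : ℤ, (∀ x : LH M, (g ^ k) • x = x) ↔ (s : ℤ) ∣ k) ∧
      IsPrimitiveRoot ((((g 1 0 : ℤ) : ℂ) * (τ : ℂ) + ((g 1 1 : ℤ) : ℂ)) ^ 2) s := by
  by_cases hc1 : c = 1728
  · -- the elliptic point `i`
    subst hc1
    refine ⟨UpperHalfPlane.I, 2, ModularGroup.S, JLocal.jFun_I, by norm_num, ?_,
      JLocal.S_smul_I', Or.inr (Or.inl rfl), ?_, ?_⟩
    · refine valLH_jLH_sub M _ _ 2 ?_
      rw [iota_ofNat_1728]
      exact JLocal.analyticOrderAt_jFun_I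
    · intro k
      rw [S_zpow_smul_eq_iff_LH M hM k]
      norm_num
    · rw [S_apply_one_zero, S_apply_one_one]
      have : (((1 : ℤ) : ℂ) * ((UpperHalfPlane.I : ℍ) : ℂ) + ((0 : ℤ) : ℂ)) ^ 2 = -1 := by
        simp
      rw [this]
      exact IsPrimitiveRoot.neg_one 0 (by norm_num)
  by_cases hc0 : c = 0
  · -- the elliptic point `ρ`
    subst hc0
    refine ⟨UpperHalfPlane.ρ, 3, ModularGroup.S * ModularGroup.T, JLocal.jFun_rho, by norm_num,
      ?_, JLocal.ST_smul_rho, Or.inr (Or.inr rfl), ?_, ?_⟩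
    · refine valLH_jLH_sub M _ _ 3 ?_
      simp only [map_zero, sub_zero]
      exact JLocal.analyticOrderAt_jFun_rho
    · intro k
      rw [ST_zpow_smul_eq_iff_LH M hM k]
      norm_num
    · rw [ST_apply_one_zero, ST_apply_one_one]
      have h2 : ((ρ : ℍ) : ℂ) ^ 2 = -(ρ : ℂ) - 1 := UpperHalfPlane.ρ_sq
      have : (((1 : ℤ) : ℂ) * ((UpperHalfPlane.ρ : ℍ) : ℂ) + ((1 : ℤ) : ℂ)) ^ 2 =
          ((ρ : ℍ) : ℂ) := by
        push_cast
        linear_combination h2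
      rw [this]
      exact isPrimitiveRoot_rho
  · -- a generic point
    obtain ⟨τ₀, hτ₀⟩ := JLocal.jFun_surjective c
    have h0 : jFun τ₀ ≠ 0 := by
      rw [hτ₀]
      exact hc0
    have h1 : jFun τ₀ ≠ 1728 := by
      rw [hτ₀]
      exact hc1
    refine ⟨τ₀, 1, 1, hτ₀, by norm_num, ?_, one_smul _ _, Or.inl rfl, ?_, ?_⟩
    · refine valLH_jLH_sub M _ _ 1 ?_
      rw [← hτ₀]
      exact_mod_cast JLocal.analyticOrderAt_jFun_sub τ₀ h0 h1
    · intro k
      simp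
    · have : ((((1 : SL(2, ℤ)) 1 0 : ℤ) : ℂ) * (τ₀ : ℂ) + (((1 : SL(2, ℤ)) 1 1 : ℤ) : ℂ)) ^ 2
          = 1 := by
        simp
      rw [this]
      exact IsPrimitiveRoot.one

end Fermat.Agent.S48WA2
end
end MergeWrap_S48_W_A_Dict_AmbLoc

section MergeWrap_S48_W_A_Dict_Final -- from S48/W/A/Dict/Final.lean

set_option autoImplicit false

noncomputable section

namespace Fermat.Agent.S48WA2

open UpperHalfPlane CongruenceSubgroup ModularCurve AlgebraicCurve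
open Fermat.Agent.F3Dict Fermat.Agent.F3I2
open scoped MatrixGroups ModularForm

/-- **the datum of the dictionary**, from the analytic Fricke functions. -/
def dictDatum_of {M : ℕ} [NeZero M] (hM : 3 ≤ M) (FD : FrickeData M) : DictDatum M where
  φ := embHom1 FD
  isPhi := isPhi_embHom1 FD
  phi_j := IsPhi.jBar1 (isPhi_embHom1 FD)
  stab := IsPhi.mem_Gamma1pm_iff hM FD (isPhi_embHom1 FD)
  loc := exists_local_point_LH M (by omega)
  perT := T_zpow_smul_eq_iff_LH M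
  ratio_ne_zero := fun x _ A B hA h => ne_zero_of_isRatio1 A B x hA h
  ratio := fun x _ A B hA h τ => IsPhi.neg_log_valLH (isPhi_embHom1 FD) x A B hA h τ
  ratioInf := fun x _ A B hA h γ => IsPhi.neg_log_winfH_smul (isPhi_embHom1 FD) x A B hA h γ

/-- **(D2a)** for `Γ₁(M)`, `5 ≤ M`. -/
theorem dictD2a1_of_fricke {M : ℕ} [NeZero M] (hM : 5 ≤ M) (FD : FrickeData M) : DictD2a1 M :=
  (dictDatum_of (by omega) FD).dictD2a1 hM

/-- **(D2b)** for `Γ₁(M)`, `3 ≤ M`. -/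
theorem dictD2b1_of_fricke {M : ℕ} [NeZero M] (hM : 3 ≤ M) (FD : FrickeData M) : DictD2b1 M :=
  (dictDatum_of hM FD).dictD2b1

/-- **(HPD)** for `Γ₁(M)`, `3 ≤ M`. -/
theorem dictHPD1_of_fricke {M : ℕ} [NeZero M] (hM : 3 ≤ M) (FD : FrickeData M) : DictHPD1 M :=
  (dictDatum_of hM FD).dictHPD1

/-- **(CONST)** for `Γ₁(M)`, `3 ≤ M`. -/
theorem dictConst1_of_fricke {M : ℕ} [NeZero M] (hM : 3 ≤ M) (FD : FrickeData M) :
    DictConst1 M :=
  (dictDatum_of hM FD).dictConst1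

end Fermat.Agent.S48WA2
end
end MergeWrap_S48_W_A_Dict_Final

section MergeWrap_S48_W_A1_Form -- from S48/W/A1/Form.lean

set_option autoImplicit false

noncomputable section

namespace Fermat.Agent.S48WA1

open Fermat.Agent.S24 Fermat.Agent.S48.Eis1 Fermat.Agent.S48W UpperHalfPlane ModularCurve
open CongruenceSubgroup Fermat.Agent.S24.GensExp
open scoped MatrixGroups Real ModularForm Manifold

/-- `x_a(τ) = X_{(a,0)}(Mτ) = 12 ℘(aτ; ℤ Mτ + ℤ)/(2πi)²`. -/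
def xOne (M : ℕ) [NeZero M] (a : ℤ) : Fun := fun τ => xFun M a 0 (scale M τ)

/-- (A1c-form) `x_a` is a modular form of weight `2` on `Γ₁(M)` with `q`-expansion
`wpSeries M a`. -/
def XFormStatement : Prop :=
  ∀ (M : ℕ) [NeZero M] (a : ℤ), ¬ (M : ℤ) ∣ a →
    ∃ X : ModularForm (Gamma1 M) 2,
      (∀ τ : ℍ, X τ = xOne M a τ) ∧
      qExpansion 1 X = (wpSeries M (a : ZMod M)).map (Int.castRingHom ℂ)

/-- (A1c-slash) `x_a ∣[2] γ = x_{a γ₀₀}` for `γ ∈ Γ₀(M)`. -/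
def XOneSlashStatement : Prop :=
  ∀ (M : ℕ) [NeZero M] (a : ℤ), ¬ (M : ℤ) ∣ a → ∀ γ : SL(2, ℤ), γ ∈ Gamma0 M →
    (fun τ : ℍ => xOne M a τ) ∣[(2 : ℤ)] γ = fun τ : ℍ => xOne M (a * γ 0 0) τ

/-- (A1c), self-contained form: the family `X_a`, `a ∈ ℤ/M`, of modular forms of weight `2` on
`Γ₁(M)` with `q`-expansions `wpSeries M a`, permuted by `Γ₀(M)`. -/
def XFormFamilyStatement : Prop :=
  ∀ (M : ℕ) [NeZero M], ∃ X : ZMod M → ModularForm (Gamma1 M) 2,
    (∀ a : ZMod M, a ≠ 0 →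
      qExpansion 1 (X a) = (wpSeries M a).map (Int.castRingHom ℂ)) ∧
    (∀ a : ZMod M, a ≠ 0 → ∀ γ : SL(2, ℤ), γ ∈ Gamma0 M →
      (X a : ℍ → ℂ) ∣[(2 : ℤ)] γ = (X (a * ((γ 0 0 : ℤ) : ZMod M)) : ℍ → ℂ))

/-! ### auxiliary lemmas -/

/-- reduction of the first index modulo `M`. -/
theorem form_xFun_emod_of (hP : XPeriodStatement) (M : ℕ) [NeZero M] (r s : ℤ) (h : IsNZ M r s) :
    xFun M (r % M) s = xFun M r s := by
  have h1 := (hP M r s h).1 (-(r / M)) 0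
  have e1 : r + (M : ℤ) * -(r / M) = r % M := by
    rw [Int.emod_def]; ring
  have e2 : s + (M : ℤ) * 0 = s := by ring
  rwa [e1, e2] at h1

/-- congruent first indices give the same function (second index `0`). -/
theorem form_xFun_congr_of (hP : XPeriodStatement) (M : ℕ) [NeZero M] (r r' : ℤ)
    (h : ¬ (M : ℤ) ∣ r) (hrr : (M : ℤ) ∣ r' - r) : xFun M r' 0 = xFun M r 0 := by
  obtain ⟨k, hk⟩ := hrr
  have h1 := (hP M r 0 (fun hh => h hh.1)).1 k 0
  have e1 : r + (M : ℤ) * k = r' := by rw [← hk]; ring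
  have e2 : (0 : ℤ) + (M : ℤ) * 0 = 0 := by ring
  rwa [e1, e2] at h1

theorem form_isNZ_emod {M : ℕ} {r s : ℤ} (h : IsNZ M r s) : IsNZ M (r % M) s := by
  intro hh
  exact h ⟨(Int.dvd_of_emod_eq_zero (by
    have := Int.emod_emod_of_dvd r (dvd_refl (M : ℤ))
    rw [Int.emod_eq_zero_of_dvd hh.1] at this
    exact this.symm)), hh.2⟩

/-- `(r, s) γ` is nonzero modulo `M` if `(r, s)` is. -/
theorem form_isNZ_act {M : ℕ} {r s : ℤ} (γ : SL(2, ℤ)) (h : IsNZ M r s) :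
    IsNZ M (actL γ r s) (actR γ r s) := by
  intro hh
  have hdet := sl2_det γ
  refine h ⟨?_, ?_⟩
  · have : r = actL γ r s * γ 1 1 - actR γ r s * γ 1 0 := by
      simp only [actL, actR]
      linear_combination (-r) * hdet
    rw [this]
    exact dvd_sub (Dvd.dvd.mul_right hh.1 _) (Dvd.dvd.mul_right hh.2 _)
  · have : s = actR γ r s * γ 0 0 - actL γ r s * γ 0 1 := by
      simp only [actL, actR]
      linear_combination (-s) * hdet
    rw [this]
    exact dvd_sub (Dvd.dvd.mul_right hh.2 _) (Dvd.dvd.mul_right hh.1 _)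

/-- a function with an expansion in nonnegative powers of `u` is bounded at `i∞`. -/
theorem form_isBoundedAtImInfty_of_hasPExp {M : ℕ} [NeZero M] {f : Fun} {p : PowerSeries Kbar}
    (h : HasPExp M f p) : IsBoundedAtImInfty (fun τ : ℍ => f τ) := by
  have hM : (0 : ℝ) < M := Nat.cast_pos.mpr (Nat.pos_of_ne_zero (NeZero.ne M))
  refine isBoundedAtImInfty_of_hasSum_qExpansion (h := (M : ℝ))
    (c := fun n => iota (PowerSeries.coeff n p)) hM (fun τ => ?_)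
  have := (h τ).2
  simpa [uParam, smul_eq_mul] using this

theorem form_im_aff (a e : ℕ) (b : ℤ) (ha : 0 < a) (he : 0 < e) (τ : ℍ) :
    (aff a e b ha he τ).im = (a : ℝ) * τ.im / (e : ℝ) := by
  show (((a : ℂ) * (τ : ℂ) + (b : ℂ)) / (e : ℂ)).im = _
  rw [Complex.div_natCast_im]
  simp

theorem form_isBoundedAtImInfty_comp_aff {f : ℍ → ℂ} (hf : IsBoundedAtImInfty f)
    (a e : ℕ) (b : ℤ) (ha : 0 < a) (he : 0 < e) :
    IsBoundedAtImInfty (fun τ : ℍ => f (aff a e b ha he τ)) := by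
  rw [isBoundedAtImInfty_iff] at hf ⊢
  obtain ⟨C, A, hCA⟩ := hf
  have ha' : (0 : ℝ) < a := Nat.cast_pos.mpr ha
  have he' : (0 : ℝ) < e := Nat.cast_pos.mpr he
  refine ⟨C, A * e / a, fun z hz => hCA _ ?_⟩
  rw [form_im_aff, le_div_iff₀ he']
  rw [div_le_iff₀ ha'] at hz
  linarith

/-- the automorphy factors in the Hermite decomposition: `|j(γ', (aτ+b)/e)| e = |j(γ, τ)|`. -/
theorem form_norm_jFac_hermite {M : ℕ} [NeZero M] (γ γ' : SL(2, ℤ)) (a e : ℕ) (b : ℤ)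
    (ha : 0 < a) (he : 0 < e) (hae : a * e = M) (τ : ℍ)
    (h : scale M (γ • τ) = γ' • aff a e b ha he τ) :
    ‖jFac γ' (aff a e b ha he τ)‖ * (e : ℝ) = ‖jFac γ τ‖ := by
  have ha' : (0 : ℝ) < a := Nat.cast_pos.mpr ha
  have he' : (0 : ℝ) < e := Nat.cast_pos.mpr he
  have hτ := τ.im_pos
  have h1 : (scale M (γ • τ)).im = (M : ℝ) * (γ • τ).im := by
    show ((M : ℂ) * ((γ • τ : ℍ) : ℂ)).im = _
    simp
  have h2 := congrArg UpperHalfPlane.im h
  rw [h1, ModularGroup.im_smul_eq_div_normSq, ModularGroup.im_smul_eq_div_normSq, form_im_aff,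
    denom_eq_jFac, denom_eq_jFac, Complex.normSq_eq_norm_sq, Complex.normSq_eq_norm_sq] at h2
  have hj : 0 < ‖jFac γ τ‖ := norm_pos_iff.mpr (jFac_ne_zero γ τ)
  have hj' : 0 < ‖jFac γ' (aff a e b ha he τ)‖ := norm_pos_iff.mpr (jFac_ne_zero γ' _)
  have hM : (M : ℝ) = a * e := by rw [← hae]; push_cast; ring
  rw [hM] at h2
  have h3 : (‖jFac γ' (aff a e b ha he τ)‖ * (e : ℝ)) ^ 2 = ‖jFac γ τ‖ ^ 2 := by
    field_simp at h2
    rw [mul_pow]
    linarith
  exact (sq_eq_sq₀ (mul_nonneg hj'.le he'.le) hj.le).mp h3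

/-! ### the action of `Γ₀(M)` -/

/-- for `γ = [α β; c δ] ∈ Γ₀(M)`: the matrix `γ' = [α, Mβ; c/M, δ]` with `M (γ τ) = γ' (M τ)`. -/
theorem form_exists_conj_Gamma0 (M : ℕ) [NeZero M] (γ : SL(2, ℤ)) (hγ : γ ∈ Gamma0 M) :
    ∃ γ' : SL(2, ℤ), γ' 0 0 = γ 0 0 ∧ γ' 0 1 = (M : ℤ) * γ 0 1 ∧ (M : ℤ) * γ' 1 0 = γ 1 0 ∧
      γ' 1 1 = γ 1 1 ∧
      ∀ τ : ℍ, scale M (γ • τ) = γ' • scale M τ ∧ jFac γ' (scale M τ) = jFac γ τ := by
  have hdvd : (M : ℤ) ∣ γ 1 0 := by
    rw [Gamma0_mem] at hγ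
    exact (ZMod.intCast_zmod_eq_zero_iff_dvd _ _).mp hγ
  obtain ⟨c', hc'⟩ := hdvd
  have hdet := sl2_det γ
  have hMC : (M : ℂ) ≠ 0 := Nat.cast_ne_zero.mpr (NeZero.ne M)
  have hdet' : (!![γ 0 0, (M : ℤ) * γ 0 1; c', γ 1 1] : Matrix (Fin 2) (Fin 2) ℤ).det = 1 := by
    rw [Matrix.det_fin_two_of]
    rw [hc'] at hdet
    linear_combination hdet
  obtain ⟨γ', h00, h01, h10, h11⟩ : ∃ γ' : SL(2, ℤ), γ' 0 0 = γ 0 0 ∧
      γ' 0 1 = (M : ℤ) * γ 0 1 ∧ γ' 1 0 = c' ∧ γ' 1 1 = γ 1 1 :=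
    ⟨⟨!![γ 0 0, (M : ℤ) * γ 0 1; c', γ 1 1], hdet'⟩, rfl, rfl, rfl, rfl⟩
  refine ⟨γ', h00, h01, by rw [h10, hc'], h11, fun τ => ?_⟩
  have hj : jFac γ' (scale M τ) = jFac γ τ := by
    simp only [jFac, coe_scale, h10, h11, hc']
    push_cast
    ring
  refine ⟨?_, hj⟩
  apply UpperHalfPlane.ext
  rw [coe_scale, coe_smul_eq, coe_smul_eq, hj, coe_scale, h00, h01]
  push_cast
  ring

/-- `x_a(γ τ) = j(γ, τ)² x_{a α}(τ)` for `γ = [α β; c δ] ∈ Γ₀(M)`. -/
theorem xOne_smul_of (hS : XSlashStatement) (hP : XPeriodStatement) (M : ℕ) [NeZero M] (a : ℤ)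
    (ha : ¬ (M : ℤ) ∣ a) (γ : SL(2, ℤ)) (hγ : γ ∈ Gamma0 M) (τ : ℍ) :
    xOne M a (γ • τ) = jFac γ τ ^ 2 * xOne M (a * γ 0 0) τ := by
  obtain ⟨γ', h00, h01, h10, h11, hτ⟩ := form_exists_conj_Gamma0 M γ hγ
  have hNZ : IsNZ M (a * γ 0 0) 0 := by
    have := form_isNZ_act (M := M) (r := a) (s := 0) γ' (fun hh => ha hh.1)
    intro hh
    refine this ⟨?_, ?_⟩
    · simp only [actL, h00]
      simpa using hh.1
    · simp only [actR, h01]
      exact ⟨a * γ 0 1, by ring⟩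
  show xFun M a 0 (scale M (γ • τ)) = jFac γ τ ^ 2 * xFun M (a * γ 0 0) 0 (scale M τ)
  rw [(hτ τ).1, hS M a 0 γ' (scale M τ), (hτ τ).2]
  have e1 : actL γ' a 0 = a * γ 0 0 := by simp [actL, h00]
  have e2 : actR γ' a 0 = 0 + (M : ℤ) * (a * γ 0 1) := by simp only [actR, h01]; ring
  have e3 : a * γ 0 0 = a * γ 0 0 + (M : ℤ) * 0 := by ring
  rw [e1, e2]
  conv_lhs => rw [e3]
  rw [(hP M (a * γ 0 0) 0 hNZ).1 0 (a * γ 0 1)]

/-- (A1c-slash). -/
theorem xOneSlash_of (hS : XSlashStatement) (hP : XPeriodStatement) : XOneSlashStatement := by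
  intro M _ a ha γ hγ
  funext τ
  rw [ModularForm.SL_slash_apply, xOne_smul_of hS hP M a ha γ hγ τ, denom_eq_jFac]
  have hj := jFac_ne_zero γ τ
  rw [zpow_neg, mul_comm, ← mul_assoc]
  have : ((jFac γ τ) ^ (2 : ℤ))⁻¹ * jFac γ τ ^ 2 = 1 := by
    rw [zpow_ofNat]
    exact inv_mul_cancel₀ (pow_ne_zero 2 hj)
  rw [this, one_mul]

/-! ### boundedness at the cusps -/

theorem form_exists_iota_eq_exp (M : ℕ) [NeZero M] :
    ∃ ζ : Kbar, iota ζ = Complex.exp (2 * π * Complex.I / M) := by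
  have hM : 0 < M := Nat.pos_of_ne_zero (NeZero.ne M)
  have hMC : (M : ℂ) ≠ 0 := Nat.cast_ne_zero.mpr (NeZero.ne M)
  refine exists_iota_eq_of_pow_eq_one hM ?_
  rw [← Complex.exp_nat_mul, mul_div_cancel₀ _ hMC, Complex.exp_two_pi_mul_I]

/-- every `X_v` is bounded at `i∞`. -/
theorem form_isBoundedAtImInfty_xFun_of (hE : XExpStatement) (hP : XPeriodStatement) (M : ℕ)
    [NeZero M] (r s : ℤ) (hNZ : IsNZ M r s) : IsBoundedAtImInfty (fun τ : ℍ => xFun M r s τ) := by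
  have hM : 0 < M := Nat.pos_of_ne_zero (NeZero.ne M)
  obtain ⟨ζ, hζ⟩ := form_exists_iota_eq_exp M
  have hexp := hE M ζ hζ (r % M) s (Int.emod_nonneg _ (by exact_mod_cast hM.ne'))
    (Int.emod_lt_of_pos _ (by exact_mod_cast hM)) (form_isNZ_emod hNZ)
  have hb := form_isBoundedAtImInfty_of_hasPExp hexp
  rwa [form_xFun_emod_of hP M r s hNZ] at hb

/-- `x_a ∣[2] γ` is bounded at `i∞` for every `γ ∈ SL₂(ℤ)`. -/
theorem form_isBoundedAtImInfty_xOne_slash_of (hE : XExpStatement) (hS : XSlashStatement)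
    (hP : XPeriodStatement) (M : ℕ) [NeZero M] (a : ℤ) (ha : ¬ (M : ℤ) ∣ a) (γ : SL(2, ℤ)) :
    IsBoundedAtImInfty ((fun τ : ℍ => xOne M a τ) ∣[(2 : ℤ)] γ) := by
  obtain ⟨γ', a', e, b, ha', he, hae, hτ⟩ := exists_hermite M γ
  have hNZ : IsNZ M (actL γ' a 0) (actR γ' a 0) := form_isNZ_act γ' (fun hh => ha hh.1)
  have hb2 := form_isBoundedAtImInfty_comp_aff
    (form_isBoundedAtImInfty_xFun_of hE hP M _ _ hNZ) a' e b ha' he
  rw [isBoundedAtImInfty_iff] at hb2 ⊢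
  obtain ⟨C, A, hCA⟩ := hb2
  refine ⟨C, A, fun z hz => ?_⟩
  rw [ModularForm.SL_slash_apply, denom_eq_jFac]
  show ‖xFun M a 0 (scale M (γ • z)) * jFac γ z ^ (-(2 : ℤ))‖ ≤ C
  rw [hτ z, hS M a 0 γ' (aff a' e b ha' he z), norm_mul, norm_mul, norm_pow, norm_zpow,
    ← form_norm_jFac_hermite γ γ' a' e b ha' he hae z (hτ z)]
  have hX := hCA z hz
  have hX0 : 0 ≤ ‖xFun M (actL γ' a 0) (actR γ' a 0) (aff a' e b ha' he z)‖ := norm_nonneg _
  have hj' : 0 < ‖jFac γ' (aff a' e b ha' he z)‖ := norm_pos_iff.mpr (jFac_ne_zero γ' _)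
  have he1 : (1 : ℝ) ≤ e := by exact_mod_cast he
  have he' : (0 : ℝ) < e := by linarith
  have key : ‖jFac γ' (aff a' e b ha' he z)‖ ^ 2 *
      ‖xFun M (actL γ' a 0) (actR γ' a 0) (aff a' e b ha' he z)‖ *
      (‖jFac γ' (aff a' e b ha' he z)‖ * (e : ℝ)) ^ (-(2 : ℤ))
      = ‖xFun M (actL γ' a 0) (actR γ' a 0) (aff a' e b ha' he z)‖ / (e : ℝ) ^ 2 := by
    rw [zpow_neg, zpow_ofNat]
    field_simp
  rw [key]
  refine le_trans ?_ hX
  rw [div_le_iff₀ (by positivity)]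
  have : (1 : ℝ) ≤ (e : ℝ) ^ 2 := by nlinarith
  nlinarith

/-! ### the `q`-expansion -/

theorem form_uParam_scale_self (M : ℕ) [NeZero M] (τ : ℍ) :
    uParam M (scale M τ) = Function.Periodic.qParam 1 (τ : ℂ) := by
  have hMC : (M : ℂ) ≠ 0 := Nat.cast_ne_zero.mpr (NeZero.ne M)
  simp only [uParam, Function.Periodic.qParam, coe_scale]
  congr 1
  push_cast
  field_simp

theorem form_iota_xCoeff_zero (M : ℕ) [NeZero M] (ζ : Kbar) (r : ℤ) (hr : ¬ (M : ℤ) ∣ r) (n : ℕ) :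
    iota (xCoeff M ζ r 0 n) = ((wpCoeff M (r : ZMod M) n : ℤ) : ℂ) := by
  simp only [xCoeff, wpCoeff, if_neg hr, zero_mul, neg_zero, zpow_zero, mul_one, add_zero]
  simp only [map_add, map_sub, map_mul, map_sum, apply_ite iota, map_one, map_zero, map_natCast,
    map_ofNat]
  push_cast
  rfl

/-- `x_a(τ) = Σ_n wpCoeff_n qⁿ`. -/
theorem hasSum_xOne_of (hE : XExpStatement) (hP : XPeriodStatement) (M : ℕ) [NeZero M] (a : ℤ)
    (ha : ¬ (M : ℤ) ∣ a) (τ : ℍ) :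
    HasSum (fun n : ℕ => (((wpCoeff M (a : ZMod M) n : ℤ) : ℂ)) •
      Function.Periodic.qParam 1 (τ : ℂ) ^ n) (xOne M a τ) := by
  have hM : 0 < M := Nat.pos_of_ne_zero (NeZero.ne M)
  obtain ⟨ζ, hζ⟩ := form_exists_iota_eq_exp M
  have hNZ : IsNZ M a 0 := fun hh => ha hh.1
  have hexp := hE M ζ hζ (a % M) 0 (Int.emod_nonneg _ (by exact_mod_cast hM.ne'))
    (Int.emod_lt_of_pos _ (by exact_mod_cast hM)) (form_isNZ_emod hNZ)
  rw [form_xFun_emod_of hP M a 0 hNZ] at hexp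
  have h1 := (hexp (scale M τ)).2
  have hr : ¬ (M : ℤ) ∣ a % M := fun hh => form_isNZ_emod hNZ ⟨hh, dvd_zero _⟩
  have hcast : ((a % (M : ℤ) : ℤ) : ZMod M) = (a : ZMod M) := ZMod.intCast_mod a M
  simp only [PowerSeries.coeff_mk, form_iota_xCoeff_zero M ζ (a % M) hr, hcast,
    form_uParam_scale_self] at h1
  show HasSum _ (xFun M a 0 (scale M τ))
  simpa [smul_eq_mul] using h1

/-! ### the modular forms -/

theorem form_one_mem_strictPeriods_Gamma1 (M : ℕ) :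
    (1 : ℝ) ∈ (Gamma1 M : Subgroup (GL (Fin 2) ℝ)).strictPeriods := by
  simp [CongruenceSubgroup.strictPeriods_Gamma1]

theorem form_Gamma1_le_Gamma0_aux (M : ℕ) {γ : SL(2, ℤ)} (hγ : γ ∈ Gamma1 M) : γ ∈ Gamma0 M := by
  rw [Gamma1_mem] at hγ
  rw [Gamma0_mem]
  exact hγ.2.2

/-- `x_{a α} = x_a` for `α ≡ 1` modulo `M`. -/
theorem xOne_congr_of (hP : XPeriodStatement) (M : ℕ) [NeZero M] (a a' : ℤ)
    (ha : ¬ (M : ℤ) ∣ a) (h : (M : ℤ) ∣ a' - a) : xOne M a' = xOne M a := by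
  funext τ
  show xFun M a' 0 (scale M τ) = xFun M a 0 (scale M τ)
  rw [form_xFun_congr_of hP M a a' ha h]

/-- (A1c-form). -/
theorem xForm_of (hE : XExpStatement) (hS : XSlashStatement) (hP : XPeriodStatement)
    (hH : XHolStatement) : XFormStatement := by
  intro M _ a ha
  have hNZ : IsNZ M a 0 := fun hh => ha hh.1
  let X : ModularForm (Gamma1 M) 2 :=
    { toFun := fun τ => xOne M a τ
      slash_action_eq' := by
        intro g hg
        obtain ⟨γ, hγ, rfl⟩ := Subgroup.mem_map.mp hg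
        have h0 : γ ∈ Gamma0 M := form_Gamma1_le_Gamma0_aux M hγ
        have h1 := xOneSlash_of hS hP M a ha γ h0
        rw [ModularForm.SL_slash] at h1
        have h2 : (M : ℤ) ∣ a * γ 0 0 - a := by
          rw [Gamma1_mem] at hγ
          have h3 : (((γ 0 0 - 1 : ℤ)) : ZMod M) = 0 := by
            push_cast
            rw [hγ.1, sub_self]
          have h4 := (ZMod.intCast_zmod_eq_zero_iff_dvd _ _).mp h3
          have : a * γ 0 0 - a = (γ 0 0 - 1) * a := by ring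
          rw [this]
          exact Dvd.dvd.mul_right h4 a
        have h5 := xOne_congr_of hP M a (a * γ 0 0) ha h2
        exact h1.trans (funext fun τ => congrFun h5 τ)
      holo' := by
        have h1 : MDifferentiable 𝓘(ℂ) 𝓘(ℂ) ((xFun M a 0 : ℍ → ℂ) ∘ scale M) :=
          MDifferentiable.comp (hH M a 0 hNZ) (mdifferentiable_scale M)
        exact h1
      bdd_at_cusps' := by
        intro c hc
        rw [Subgroup.IsArithmetic.isCusp_iff_isCusp_SL2Z] at hc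
        rw [OnePoint.isBoundedAt_iff_forall_SL2Z hc]
        intro γ _
        exact form_isBoundedAtImInfty_xOne_slash_of hE hS hP M a ha γ }
  refine ⟨X, fun τ => rfl, ?_⟩
  ext n
  rw [PowerSeries.coeff_map]
  have h := ModularFormClass.qExpansion_coeff_unique (f := X) one_pos
    (form_one_mem_strictPeriods_Gamma1 M) (c := fun n => ((wpCoeff M (a : ZMod M) n : ℤ) : ℂ))
    (fun τ => hasSum_xOne_of hE hP M a ha τ) n
  rw [← h]
  simp [wpSeries]

theorem form_not_dvd_of_cast_ne_zero {M : ℕ} {r : ℤ} (h : ((r : ℤ) : ZMod M) ≠ 0) : ¬ (M : ℤ) ∣ r :=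
  fun hh => h ((ZMod.intCast_zmod_eq_zero_iff_dvd r M).mpr hh)

theorem form_cast_val_eq (M : ℕ) [NeZero M] (a : ZMod M) : (((a.val : ℕ) : ℤ) : ZMod M) = a := by
  rw [Int.cast_natCast, ZMod.natCast_zmod_val]

/-- the upper left entry of an element of `Γ₀(M)` is a unit modulo `M`. -/
theorem form_mul_cast_ne_zero_of_Gamma0 {M : ℕ} [NeZero M] {γ : SL(2, ℤ)} (hγ : γ ∈ Gamma0 M)
    {a : ZMod M} (ha : a ≠ 0) : a * ((γ 0 0 : ℤ) : ZMod M) ≠ 0 := by
  intro h
  apply ha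
  rw [Gamma0_mem] at hγ
  have hdet := congrArg (fun x : ℤ => (x : ZMod M)) (sl2_det γ)
  simp only [Int.cast_sub, Int.cast_mul, Int.cast_one] at hdet
  rw [hγ, mul_zero, sub_zero] at hdet
  calc a = a * (((γ 0 0 : ℤ) : ZMod M) * ((γ 1 1 : ℤ) : ZMod M)) := by rw [hdet, mul_one]
    _ = (a * ((γ 0 0 : ℤ) : ZMod M)) * ((γ 1 1 : ℤ) : ZMod M) := by ring
    _ = 0 := by rw [h, zero_mul]

/-- (A1c), self-contained form. -/
theorem xFormFamily_of (hE : XExpStatement) (hS : XSlashStatement) (hP : XPeriodStatement)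
    (hH : XHolStatement) : XFormFamilyStatement := by
  intro M _
  classical
  have hF := xForm_of hE hS hP hH M
  have hval : ∀ a : ZMod M, a ≠ 0 → ¬ (M : ℤ) ∣ ((a.val : ℕ) : ℤ) := fun a ha =>
    form_not_dvd_of_cast_ne_zero (by rw [form_cast_val_eq]; exact ha)
  have hex : ∀ a : ZMod M, ∃ X : ModularForm (Gamma1 M) 2, a ≠ 0 →
      (∀ τ : ℍ, X τ = xOne M ((a.val : ℕ) : ℤ) τ) ∧
        qExpansion 1 X = (wpSeries M a).map (Int.castRingHom ℂ) := by
    intro a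
    by_cases ha : a = 0
    · exact ⟨0, fun h => absurd ha h⟩
    · obtain ⟨X, h1, h2⟩ := hF ((a.val : ℕ) : ℤ) (hval a ha)
      rw [form_cast_val_eq] at h2
      exact ⟨X, fun _ => ⟨h1, h2⟩⟩
  choose X hX using hex
  refine ⟨X, fun a ha => (hX a ha).2, fun a ha γ hγ => ?_⟩
  have ha' := form_mul_cast_ne_zero_of_Gamma0 hγ ha
  have h1 : (X a : ℍ → ℂ) = fun τ : ℍ => xOne M ((a.val : ℕ) : ℤ) τ :=
    funext fun τ => (hX a ha).1 τ
  have h2 : (X (a * ((γ 0 0 : ℤ) : ZMod M)) : ℍ → ℂ)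
      = fun τ : ℍ => xOne M (((a * ((γ 0 0 : ℤ) : ZMod M)).val : ℕ) : ℤ) τ :=
    funext fun τ => (hX _ ha').1 τ
  rw [h1, h2, xOneSlash_of hS hP M _ (hval a ha) γ hγ]
  have hnd : ¬ (M : ℤ) ∣ ((a.val : ℕ) : ℤ) * γ 0 0 := by
    apply form_not_dvd_of_cast_ne_zero
    rw [Int.cast_mul, form_cast_val_eq]
    exact ha'
  have hd : (M : ℤ) ∣ (((a * ((γ 0 0 : ℤ) : ZMod M)).val : ℕ) : ℤ) - ((a.val : ℕ) : ℤ) * γ 0 0 := by
    rw [← ZMod.intCast_zmod_eq_zero_iff_dvd, Int.cast_sub, Int.cast_mul, form_cast_val_eq, form_cast_val_eq,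
      sub_self]
  have h3 := xOne_congr_of hP M _ _ hnd hd
  funext τ
  exact (congrFun h3 τ).symm

/-! ### wiring: everything from the single input `XExpStatement` (seat XEXP) -/

/-- (A1c-slash), unconditional. -/
theorem xOneSlash : XOneSlashStatement := xOneSlash_of xSlash xPeriod

/-- (A1c-form) from `XExpStatement`. -/
theorem a1_xForm_of (hX : XExpStatement) : XFormStatement :=
  xForm_of hX xSlash xPeriod (xHol_of hX xPeriod)

/-- (A1c), self-contained form, from `XExpStatement`. -/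
theorem a1_xFormFamily_of (hX : XExpStatement) : XFormFamilyStatement :=
  xFormFamily_of hX xSlash xPeriod (xHol_of hX xPeriod)

end Fermat.Agent.S48WA1
end
end MergeWrap_S48_W_A1_Form

section MergeWrap_S48_W_A1_FormMain -- from S48/W/A1/FormMain.lean

set_option autoImplicit false

namespace Fermat.Agent.S48WA1

/-- (A1c-form). -/
theorem xForm : XFormStatement := a1_xForm_of xExp

/-- (A1c), self-contained form. -/
theorem xFormFamily : XFormFamilyStatement := a1_xFormFamily_of xExp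

end Fermat.Agent.S48WA1
end MergeWrap_S48_W_A1_FormMain

section MergeWrap_S48_W_A_Dict_WpMain -- from S48/W/A/Dict/WpMain.lean

set_option autoImplicit false

noncomputable section

namespace Fermat.Agent.S48WA2

open UpperHalfPlane CongruenceSubgroup
open scoped MatrixGroups ModularForm

/-- **the forms `x_a` of hub A1.** -/
def wpForms (M : ℕ) [NeZero M] : WpForms M where
  X := (Fermat.Agent.S48WA1.xFormFamily M).choose
  qexp := fun a ha => (Fermat.Agent.S48WA1.xFormFamily M).choose_spec.1 a ha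
  slash := fun γ hγ a ha => by
    rw [(Fermat.Agent.S48WA1.xFormFamily M).choose_spec.2 a ha γ hγ, mul_comm]

end Fermat.Agent.S48WA2
end
end MergeWrap_S48_W_A_Dict_WpMain

section MergeWrap_S48_W_A_Dict_Fricke -- from S48/W/A/Dict/Fricke.lean

set_option autoImplicit false

noncomputable section

namespace Fermat.Agent.S48WA2

open UpperHalfPlane CongruenceSubgroup ModularCurve Fermat.Agent.F3Dict
open Fermat.Agent.S48W
open Matrix.SpecialLinearGroup ConjAct ModularForm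
open scoped MatrixGroups ModularForm Pointwise Manifold

/-! ### `F(Mτ)` as a form on `Γ₁(M)` -/

theorem Gamma1_map_le_conj_fr (M : ℕ) [NeZero M] :
    ((Gamma1 M).map (mapGL ℝ) : Subgroup (GL (Fin 2) ℝ)) ≤
      toConjAct (heckeDiagMatrix M)⁻¹ • (𝒮ℒ : Subgroup (GL (Fin 2) ℝ)) :=
  le_trans (Subgroup.map_mono (Gamma1_in_Gamma0 M)) (Fermat.Agent.S23.Theta.G0_le_conj M)

/-- `F ∣[k] diag(M, 1)` as a modular form on `Γ₁(M)`; its value at `τ` is `M^(k-1) F(M τ)`. -/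
def lvlAux (M : ℕ) [NeZero M] {k : ℤ} (F : ModularForm 𝒮ℒ k) : ModularForm (Gamma1 M) k where
  toFun := ⇑F ∣[k] heckeDiagMatrix M
  slash_action_eq' γ hγ :=
    (ModularForm.translate F (heckeDiagMatrix M)).slash_action_eq' γ
      (Gamma1_map_le_conj_fr M hγ)
  holo' := (ModularForm.translate F (heckeDiagMatrix M)).holo'
  bdd_at_cusps' hc :=
    (ModularForm.translate F (heckeDiagMatrix M)).bdd_at_cusps'
      (hc.mono (Gamma1_map_le_conj_fr M))

/-- `τ ↦ F(M τ)` as a modular form on `Γ₁(M)`. -/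
def lvlForm (M : ℕ) [NeZero M] {k : ℤ} (F : ModularForm 𝒮ℒ k) : ModularForm (Gamma1 M) k :=
  (((M : ℂ) ^ (k - 1))⁻¹ : ℂ) • lvlAux M F

theorem heckeDiagMatrix_smul_eq_scale (M : ℕ) [NeZero M] (τ : ℍ) :
    heckeDiagMatrix M • τ = scale M τ := by
  apply UpperHalfPlane.ext
  rw [coe_heckeDiagMatrix_smul (NeZero.ne M), coe_scale]

theorem lvlForm_apply (M : ℕ) [NeZero M] {k : ℤ} (F : ModularForm 𝒮ℒ k) (τ : ℍ) :
    lvlForm M F τ = F (scale M τ) := by
  have hM : (M : ℂ) ≠ 0 := by exact_mod_cast NeZero.ne M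
  show (((M : ℂ) ^ (k - 1))⁻¹ : ℂ) • ((⇑F ∣[k] heckeDiagMatrix M) τ) = _
  rw [slash_heckeDiagMatrix_apply k (NeZero.ne M), smul_eq_mul, ← mul_assoc,
    inv_mul_cancel₀ (zpow_ne_zero _ hM), one_mul, heckeDiagMatrix_smul_eq_scale]

/-- `lvlForm M F` is invariant under `Γ₀(M)` (not only `Γ₁(M)`). -/
theorem lvlForm_slash_Gamma0 (M : ℕ) [NeZero M] {k : ℤ} (F : ModularForm 𝒮ℒ k) {γ : SL(2, ℤ)}
    (hγ : γ ∈ Gamma0 M) : (⇑(lvlForm M F) ∣[k] γ) = ⇑(lvlForm M F) := by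
  have h0 : mapGL ℝ γ ∈ Fermat.Agent.S23.G0 M := Subgroup.mem_map_of_mem _ hγ
  have h1 : ((⇑F ∣[k] heckeDiagMatrix M) ∣[k] (γ : GL (Fin 2) ℝ)) =
      (⇑F ∣[k] heckeDiagMatrix M) :=
    (ModularForm.translate F (heckeDiagMatrix M)).slash_action_eq' _
      (Fermat.Agent.S23.Theta.G0_le_conj M h0)
  have hcoe : ⇑(lvlForm M F) = (((M : ℂ) ^ (k - 1))⁻¹ : ℂ) • (⇑F ∣[k] heckeDiagMatrix M) := rfl
  rw [hcoe, ModularForm.SL_slash, ModularForm.smul_slash]
  have hσ : UpperHalfPlane.σ (γ : GL (Fin 2) ℝ) (((M : ℂ) ^ (k - 1))⁻¹) =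
      ((M : ℂ) ^ (k - 1))⁻¹ := by
    simp [UpperHalfPlane.σ]
  rw [hσ, h1]

/-! ### numerator and denominator -/

/-- `Δ` as a modular form of level one. -/
def deltaMF1 : ModularForm 𝒮ℒ 12 where
  toFun := ModularForm.discriminant
  slash_action_eq' := CuspForm.discriminant.slash_action_eq'
  holo' := CuspForm.discriminant.holo'
  bdd_at_cusps' hc := ModularFormClass.bdd_at_cusps CuspForm.discriminant hc

@[simp] theorem deltaMF1_apply (τ : ℍ) : deltaMF1 τ = ModularForm.discriminant τ := rfl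

/-- the denominator `Δ(Mτ)`, of weight `12` on `Γ₁(M)`. -/
def frDen (M : ℕ) [NeZero M] : ModularForm (Gamma1 M) 12 := lvlForm M deltaMF1

theorem frDen_apply (M : ℕ) [NeZero M] (τ : ℍ) :
    frDen M τ = ModularForm.discriminant (scale M τ) :=
  lvlForm_apply M deltaMF1 τ

theorem frDen_ne_zero (M : ℕ) [NeZero M] (τ : ℍ) : frDen M τ ≠ 0 := by
  rw [frDen_apply]
  exact ModularForm.discriminant_ne_zero _

/-- the numerator `E₄(Mτ) E₆(Mτ) x_a(τ)`, of weight `12` on `Γ₁(M)`. -/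
def frNum {M : ℕ} [NeZero M] (W : WpForms M) (a : ZMod M) : ModularForm (Gamma1 M) 12 :=
  ModularForm.mcast (by norm_num)
    (((lvlForm M ModularForm.E₄).mul (lvlForm M ModularForm.E₆)).mul (W.X a))

theorem frNum_coe {M : ℕ} [NeZero M] (W : WpForms M) (a : ZMod M) :
    ⇑(frNum W a) = ⇑(lvlForm M ModularForm.E₄) * ⇑(lvlForm M ModularForm.E₆) * ⇑(W.X a) := rfl

theorem frNum_apply {M : ℕ} [NeZero M] (W : WpForms M) (a : ZMod M) (τ : ℍ) :
    frNum W a τ = ModularForm.E₄ (scale M τ) * ModularForm.E₆ (scale M τ) * W.X a τ := by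
  rw [frNum_coe, Pi.mul_apply, Pi.mul_apply, lvlForm_apply, lvlForm_apply]

/-- the action of `Γ₀(M)` on the numerator. -/
theorem frNum_slash {M : ℕ} [NeZero M] (W : WpForms M) {γ : SL(2, ℤ)} (hγ : γ ∈ Gamma0 M)
    (a : ZMod M) (ha : a ≠ 0) :
    (⇑(frNum W a) ∣[(12 : ℤ)] γ) = ⇑(frNum W (((γ 0 0 : ℤ) : ZMod M) * a)) := by
  rw [frNum_coe, frNum_coe]
  show ((⇑(lvlForm M ModularForm.E₄) * ⇑(lvlForm M ModularForm.E₆) * ⇑(W.X a))
    ∣[((4 : ℤ) + 6) + 2] γ) = _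
  rw [ModularForm.mul_slash_SL2, ModularForm.mul_slash_SL2, lvlForm_slash_Gamma0 M _ hγ,
    lvlForm_slash_Gamma0 M _ hγ, W.slash γ hγ a ha]

theorem frDen_slash (M : ℕ) [NeZero M] {γ : SL(2, ℤ)} (hγ : γ ∈ Gamma0 M) :
    (⇑(frDen M) ∣[(12 : ℤ)] γ) = ⇑(frDen M) :=
  lvlForm_slash_Gamma0 M deltaMF1 hγ

/-! ### the Fricke functions -/

/-- the analytic Fricke function `E₄(Mτ) E₆(Mτ) x_a(τ) / Δ(Mτ)`. -/
def frFun {M : ℕ} [NeZero M] (W : WpForms M) (a : ZMod M) : Fun :=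
  fun τ => frNum W a τ / frDen M τ

theorem frFun_eq_divFun1 {M : ℕ} [NeZero M] (W : WpForms M) (a : ZMod M) :
    frFun W a = divFun1 (frNum W a) (frDen M) := rfl

theorem isAH_frFun {M : ℕ} [NeZero M] (W : WpForms M) (a : ZMod M) : IsAH M (frFun W a) :=
  isAH_div M (frNum W a) (frDen M) (frDen_ne_zero M)

theorem frFun_smul {M : ℕ} [NeZero M] (W : WpForms M) {γ : SL(2, ℤ)} (hγ : γ ∈ Gamma0 M)
    (a : ZMod M) (ha : a ≠ 0) :
    γ⁻¹ • frFun W a = frFun W (((γ 0 0 : ℤ) : ZMod M) * a) := by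
  rw [frFun_eq_divFun1, smul_div_fun, inv_inv]
  funext τ
  show slFun1 (frNum W a) γ τ / slFun1 (frDen M) γ τ = _
  rw [slFun1_eq, slFun1_eq, frNum_slash W hγ a ha, frDen_slash M hγ]
  rfl

/-! ### the expansion at `∞` -/

/-- the formal power series `E₄ E₆ / Π (1 - qⁿ)²⁴` over `ℂ`. -/
def eqSerC : PowerSeries Kc :=
  PowerSeries.map (Int.castRingHom Kc)
    (ModularCurve.eisenstein4 * eis6 * ModularCurve.dedekindEtaUnitInv)

/-- `E₄ E₆ / Δ` as an element of `Fun`. -/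
def eqFunC : Fun := fun τ =>
  ModularForm.E₄ τ * ModularForm.E₆ τ / ModularForm.discriminant τ

theorem hasPExp_eqFunC : HasPExp 1 (fun τ => eqFunC τ * uParam 1 τ) eqSerC := by
  intro τ
  have h := Fermat.Agent.S48WA1Eq.hasSum_eq0 τ
  have e1 : uParam 1 τ = Function.Periodic.qParam 1 (τ : ℂ) := by
    simp [uParam]
  have e2 : ∀ n : ℕ, iota (PowerSeries.coeff n eqSerC)
      = ((PowerSeries.coeff n
        (ModularCurve.eisenstein4 * eis6 * ModularCurve.dedekindEtaUnitInv) : ℤ) : ℂ) := by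
    intro n
    rw [eqSerC, PowerSeries.coeff_map]
    simp [iota]
  have e3 : eqFunC τ * uParam 1 τ = Fermat.Agent.S48WA1Eq.eq0 τ := by
    rw [e1]
    rfl
  simp only [e2, e3]
  simp only [e1]
  exact h

theorem coeffEmb_eisQuot_C :
    ModularCurve.coeffEmb ℂ eisQuot
      = HahnSeries.single (-((1 : ℕ) : ℤ)) (1 : Kc) * HahnSeries.ofPowerSeries ℤ Kc eqSerC := by
  unfold ModularCurve.coeffEmb eisQuot eqSerC
  rw [map_mul, ModularCurve.coeffMap_single, map_one, ModularCurve.coeffMap_ofPowerSeries,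
    ← RingHom.comp_apply (PowerSeries.map (algebraMap ℚ ℂ))
      (PowerSeries.map (Int.castRingHom ℚ)),
    ← PowerSeries.map_comp,
    RingHom.ext_int ((algebraMap ℚ ℂ).comp (Int.castRingHom ℚ)) (Int.castRingHom ℂ)]
  rfl

/-- `τ ↦ (E₄ E₆ / Δ)(Mτ)`. -/
def eqScale (M : ℕ) [NeZero M] : Fun := fun τ => eqFunC (scale M τ)

/-- `(E₄ E₆ / Δ)(Mτ) = ∑ cₙ u^{M² n}`. -/
theorem hasExp_eqFunC_scale (M : ℕ) [NeZero M] :
    HasExp M (eqScale M)
      (ModularCurve.qExpand Kc (M * M) (ModularCurve.coeffEmb ℂ eisQuot)) := by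
  have hM : 0 < M := Nat.pos_of_ne_zero (NeZero.ne M)
  have hφ : ∀ τ : ℍ, uParam 1 (scale M τ) = iota 1 * uParam M τ ^ (M * M) := by
    intro τ
    rw [uParam_one_scale M M τ, map_one, one_mul]
  have h := GensExp.hasExp_subst hasPExp_eqFunC (scale M) 1 GensExp.iota_one_norm (M * M)
    (Nat.mul_pos hM hM) hφ
  have e : ModularCurve.qExpand Kc (M * M) (ModularCurve.coeffEmb ℂ eisQuot)
      = HahnSeries.single (-((M * M : ℕ) : ℤ)) (1 : Kc) *
        HahnSeries.ofPowerSeries ℤ Kc (GensExp.twist 1 (M * M) eqSerC) := by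
    rw [coeffEmb_eisQuot_C, map_mul, ModularCurve.qExpand_single,
      GensExp.qExpand_ofPowerSeries]
    congr 2
    simp
  rw [e]
  exact h

theorem frFun_eq_mul {M : ℕ} [NeZero M] (W : WpForms M) (a : ZMod M) :
    frFun W a = eqScale M * mfFun1 (W.X a) := by
  funext τ
  show frNum W a τ / frDen M τ = eqFunC (scale M τ) * W.X a τ
  rw [frNum_apply, frDen_apply, eqFunC]
  ring

theorem coeffEmb_fricke_C (M : ℕ) [NeZero M] (a : ZMod M) :
    ModularCurve.coeffEmb ℂ (fricke M a)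
      = ModularCurve.qExpand ℂ M (ModularCurve.coeffEmb ℂ eisQuot) *
        HahnSeries.ofPowerSeries ℤ ℂ ((wpSeries M a).map (Int.castRingHom ℂ)) := by
  unfold fricke
  rw [map_mul]
  congr 1
  · exact ModularCurve.coeffMap_qExpand _ M eisQuot
  · unfold ModularCurve.coeffEmb
    rw [ModularCurve.coeffMap_ofPowerSeries,
      ← RingHom.comp_apply (PowerSeries.map (algebraMap ℚ ℂ))
        (PowerSeries.map (Int.castRingHom ℚ)),
      ← PowerSeries.map_comp,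
      RingHom.ext_int ((algebraMap ℚ ℂ).comp (Int.castRingHom ℚ)) (Int.castRingHom ℂ)]

/-- the expansion of the Fricke function at `∞`. -/
theorem hasExp_frFun {M : ℕ} [NeZero M] (W : WpForms M) (a : ZMod M) (ha : a ≠ 0) :
    HasExp M (frFun W a) (ModularCurve.qExpand ℂ M (ModularCurve.coeffEmb ℂ (fricke M a))) := by
  have h1 := hasExp_eqFunC_scale M
  have h2 := hasExp_mfFun1 M (W.X a)
  have h := h1.mul h2
  rw [← frFun_eq_mul] at h
  have e : ModularCurve.qExpand ℂ M (ModularCurve.coeffEmb ℂ (fricke M a))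
      = ModularCurve.qExpand Kc (M * M) (ModularCurve.coeffEmb ℂ eisQuot) *
        ModularCurve.qExpand Kc M (F3I2.qLaurent (W.X a)) := by
    rw [coeffEmb_fricke_C, map_mul, ModularCurve.qExpand_qExpand, F3I2.qLaurent, W.qexp a ha]
  rw [e]
  exact h

/-- **(A2-FRICKE)** the analytic Fricke functions in the ambient ring `AH M`. -/
def frickeData_of {M : ℕ} [NeZero M] (W : WpForms M) : FrickeData M where
  Fr := frFun W
  isAH a _ := isAH_frFun W a
  hasExp a ha := hasExp_frFun W a ha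
  smul _ hγ a ha := frFun_smul W hγ a ha

end Fermat.Agent.S48WA2
end
end MergeWrap_S48_W_A_Dict_Fricke

section MergeWrap_S48_W_A_Dict_D1a -- from S48/W/A/Dict/D1a.lean

set_option autoImplicit false

noncomputable section

namespace Fermat.Agent.S48WA2

open UpperHalfPlane CongruenceSubgroup ModularCurve ModularForm
open scoped MatrixGroups ModularForm
open Fermat.Agent.S23 Fermat.Agent.S48W Fermat.Agent.F3I2 Fermat.Agent.S28
open Fermat.Agent.S28.QExp
open Fermat.Agent.S48WA (G1)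

/-! ### `Γ₁(M) ⊆ Γ₀(M)` -/

theorem d1a_G1_le_G0 (M : ℕ) : G1 M ≤ G0 M :=
  Subgroup.map_mono (Gamma1_in_Gamma0 M)

/-- `x` is the ratio of the expansions of two modular forms of the same weight on `Γ₁(M)`. -/
def D1aIsRatio (M : ℕ) (x : LaurentSeries ℂ) : Prop :=
  ∃ (k : ℤ) (a b : ℍ → ℂ), IsMF (G1 M) k a ∧ IsMF (G1 M) k b ∧ b ≠ 0 ∧
    x * qLaurent b = qLaurent a

/-- ratios of forms on `Γ₀(M)` are ratios of forms on `Γ₁(M)`. -/
theorem D1aIsRatio.of_dict1 {M : ℕ} {x : LaurentSeries ℂ} (h : Dict1IsRatio M x) :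
    D1aIsRatio M x := by
  obtain ⟨k, a, b, ha, hb, hb0, h⟩ := h
  exact ⟨k, a, b, ha.mono (d1a_G1_le_G0 M), hb.mono (d1a_G1_le_G0 M), hb0, h⟩

theorem D1aIsRatio.const (M : ℕ) (c : ℂ) :
    D1aIsRatio M (algebraMap ℂ (LaurentSeries ℂ) c) :=
  D1aIsRatio.of_dict1 (Dict1IsRatio.const M c)

theorem D1aIsRatio.zero (M : ℕ) : D1aIsRatio M 0 :=
  D1aIsRatio.of_dict1 (Dict1IsRatio.zero M)

theorem D1aIsRatio.one (M : ℕ) : D1aIsRatio M 1 :=
  D1aIsRatio.of_dict1 (Dict1IsRatio.one M)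

section Closure

variable {M : ℕ} [NeZero M]

theorem D1aIsRatio.add {x y : LaurentSeries ℂ} (hx : D1aIsRatio M x)
    (hy : D1aIsRatio M y) : D1aIsRatio M (x + y) := by
  obtain ⟨k, a, b, ha, hb, hb0, h⟩ := hx
  obtain ⟨k', a', b', ha', hb', hb0', h'⟩ := hy
  have h1 : IsMF (G1 M) (k + k') (a * b') := ha.mul hb'
  have h2 : IsMF (G1 M) (k + k') (a' * b) := (ha'.mul hb).cast (add_comm _ _)
  refine ⟨k + k', a * b' + a' * b, b * b', h1.add h2, hb.mul hb',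
    Fermat.Agent.S48WA.isMF_mul_ne_zero hb hb' hb0 hb0', ?_⟩
  rw [Fermat.Agent.S48WA.qLaurent_add_of_isMF h1 h2,
    Fermat.Agent.S48WA.qLaurent_mul_of_isMF ha hb',
    Fermat.Agent.S48WA.qLaurent_mul_of_isMF ha' hb,
    Fermat.Agent.S48WA.qLaurent_mul_of_isMF hb hb', ← h, ← h']
  ring

theorem D1aIsRatio.mul {x y : LaurentSeries ℂ} (hx : D1aIsRatio M x)
    (hy : D1aIsRatio M y) : D1aIsRatio M (x * y) := by
  obtain ⟨k, a, b, ha, hb, hb0, h⟩ := hx
  obtain ⟨k', a', b', ha', hb', hb0', h'⟩ := hy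
  refine ⟨k + k', a * a', b * b', ha.mul ha', hb.mul hb',
    Fermat.Agent.S48WA.isMF_mul_ne_zero hb hb' hb0 hb0', ?_⟩
  rw [Fermat.Agent.S48WA.qLaurent_mul_of_isMF ha ha',
    Fermat.Agent.S48WA.qLaurent_mul_of_isMF hb hb', ← h, ← h']
  ring

theorem D1aIsRatio.neg {x : LaurentSeries ℂ} (hx : D1aIsRatio M x) :
    D1aIsRatio M (-x) := by
  obtain ⟨k, a, b, ha, hb, hb0, h⟩ := hx
  refine ⟨k, -a, b, ha.neg, hb, hb0, ?_⟩
  rw [Fermat.Agent.S48WA.qLaurent_neg_of_isMF ha, ← h]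
  ring

theorem D1aIsRatio.inv {x : LaurentSeries ℂ} (hx : D1aIsRatio M x) :
    D1aIsRatio M x⁻¹ := by
  rcases eq_or_ne x 0 with rfl | hx0
  · simpa using D1aIsRatio.zero M
  obtain ⟨k, a, b, ha, hb, hb0, h⟩ := hx
  have hqb := Fermat.Agent.S48WA.qLaurent_ne_zero_of_isMF hb hb0
  have ha0 : a ≠ 0 := by
    rintro rfl
    rw [Fermat.Agent.S48WA.qLaurent_zero] at h
    rcases mul_eq_zero.mp h with h1 | h1
    · exact hx0 h1
    · exact hqb h1
  refine ⟨k, b, a, hb, ha, ha0, ?_⟩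
  rw [← h, ← mul_assoc, inv_mul_cancel₀ hx0, one_mul]

end Closure

/-! ### level raising `τ ↦ F (M τ)` of forms of level one -/

/-- `F ∣[k] diag(M, 1)` as a modular form on `Γ₀(M)`; its value at `τ` is `M^(k-1) F(M τ)`. -/
def d1aRaiseAux (M : ℕ) [NeZero M] {k : ℤ} (F : ModularForm 𝒮ℒ k) : ModularForm (G0 M) k where
  toFun := ⇑F ∣[k] heckeDiagMatrix M
  slash_action_eq' γ hγ :=
    (ModularForm.translate F (heckeDiagMatrix M)).slash_action_eq' γ
      (Fermat.Agent.S23.Theta.G0_le_conj M hγ)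
  holo' := (ModularForm.translate F (heckeDiagMatrix M)).holo'
  bdd_at_cusps' hc :=
    (ModularForm.translate F (heckeDiagMatrix M)).bdd_at_cusps'
      (hc.mono (Fermat.Agent.S23.Theta.G0_le_conj M))

/-- `τ ↦ F (M τ)` is a modular form of weight `k` on `Γ₀(M)`. -/
theorem d1a_isMF_comp_mulUH (M : ℕ) [NeZero M] {k : ℤ} (F : ModularForm 𝒮ℒ k) :
    IsMF (G0 M) k (fun τ => F (mulUH M τ)) := by
  have hM : (M : ℂ) ≠ 0 := by exact_mod_cast NeZero.ne M
  refine ⟨(((M : ℂ) ^ (k - 1))⁻¹ : ℂ) • d1aRaiseAux M F, ?_⟩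
  funext τ
  show ((M : ℂ) ^ (k - 1))⁻¹ • (⇑F ∣[k] heckeDiagMatrix M) τ = F (mulUH M τ)
  rw [slash_heckeDiagMatrix_apply k (NeZero.ne M), smul_eq_mul, ← mul_assoc,
    inv_mul_cancel₀ (zpow_ne_zero _ hM), one_mul, thmA_heckeDiag_smul]

/-- `τ ↦ F (M τ)` is a modular form of weight `k` on `Γ₁(M)`. -/
theorem d1a_isMF1_comp_mulUH (M : ℕ) [NeZero M] {k : ℤ} (F : ModularForm 𝒮ℒ k) :
    IsMF (G1 M) k (fun τ => F (mulUH M τ)) :=
  (d1a_isMF_comp_mulUH M F).mono (d1a_G1_le_G0 M)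

/-! ### the formal series -/

/-- The formal `E₆` with complex coefficients. -/
def d1aE6C : LaurentSeries ℂ :=
  HahnSeries.ofPowerSeries ℤ ℂ (PowerSeries.map (Int.castRingHom ℂ) eis6)

theorem d1a_hasQ_E6 : HasQ E₆ d1aE6C := by
  have := HasQ.of_isMF' (Γ := 𝒮ℒ) (by simp) (IsMF.of E₆)
  rwa [Fermat.Agent.S48WA1Eq.qExpansion_E₆] at this

theorem d1a_coeffEmb_eisQuot :
    coeffEmb ℂ eisQuot = e4C * d1aE6C * deltaInvC := by
  unfold coeffEmb eisQuot e4C d1aE6C deltaInvC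
  rw [map_mul, coeffMap_single, map_one, coeffMap_ofPowerSeries,
    ← RingHom.comp_apply (PowerSeries.map (algebraMap ℚ ℂ))
      (PowerSeries.map (Int.castRingHom ℚ)),
    ← PowerSeries.map_comp,
    RingHom.ext_int ((algebraMap ℚ ℂ).comp (Int.castRingHom ℚ)) (Int.castRingHom ℂ),
    map_mul, map_mul, map_mul, map_mul]
  ring

theorem d1a_coeffEmb_fricke (M : ℕ) [NeZero M] (a : ZMod M) :
    coeffEmb ℂ (fricke M a) = qExpand ℂ M (e4C * d1aE6C * deltaInvC) *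
      HahnSeries.ofPowerSeries ℤ ℂ ((wpSeries M a).map (Int.castRingHom ℂ)) := by
  rw [← d1a_coeffEmb_eisQuot]
  unfold fricke
  rw [map_mul]
  congr 1
  · exact coeffMap_qExpand (algebraMap ℚ ℂ) M eisQuot
  · unfold coeffEmb
    rw [coeffMap_ofPowerSeries,
      ← RingHom.comp_apply (PowerSeries.map (algebraMap ℚ ℂ))
        (PowerSeries.map (Int.castRingHom ℚ)),
      ← PowerSeries.map_comp,
      RingHom.ext_int ((algebraMap ℚ ℂ).comp (Int.castRingHom ℚ)) (Int.castRingHom ℂ)]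

/-! ### the Fricke functions are ratios -/

theorem D1aIsRatio.fricke {M : ℕ} [NeZero M] (W : WpForms M) (a : ZMod M) (ha : a ≠ 0) :
    D1aIsRatio M (coeffEmb ℂ (fricke M a)) := by
  -- the forms
  have h4 : IsMF (G1 M) 4 (fun τ => E₄ (mulUH M τ)) := d1a_isMF1_comp_mulUH M E₄
  have h6 : IsMF (G1 M) 6 (fun τ => E₆ (mulUH M τ)) := d1a_isMF1_comp_mulUH M E₆
  have hΔ : IsMF (G1 M) 12 (fun τ => ModularForm.discriminant (mulUH M τ)) :=
    d1a_isMF1_comp_mulUH M (ModularFormClass.modularForm CuspForm.discriminant)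
  have hX : IsMF (G1 M) 2 (⇑(W.X a)) := IsMF.of (W.X a)
  have hnum : IsMF (G1 M) 12
      (((fun τ => E₄ (mulUH M τ)) * fun τ => E₆ (mulUH M τ)) * ⇑(W.X a)) :=
    ((h4.mul h6).mul hX).cast (by norm_num)
  -- the expansions
  have q4 : HasQ (fun τ => E₄ (mulUH M τ)) (qExpand ℂ M e4C) := hasQ_E4.comp_mulUH M
  have q6 : HasQ (fun τ => E₆ (mulUH M τ)) (qExpand ℂ M d1aE6C) := d1a_hasQ_E6.comp_mulUH M
  have qΔ := hasQ_discriminant_comp M
  have qX : HasQ (⇑(W.X a))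
      (HahnSeries.ofPowerSeries ℤ ℂ ((wpSeries M a).map (Int.castRingHom ℂ))) := by
    have := Fermat.Agent.S48WA.hasQ_of_isMF hX
    unfold qLaurent at this
    rwa [W.qexp a ha] at this
  have e1 : qLaurent (fun τ => ModularForm.discriminant (mulUH M τ)) = qExpand ℂ M deltaC :=
    (Fermat.Agent.S48WA.hasQ_of_isMF hΔ).unique qΔ
  have e2 : qLaurent (((fun τ => E₄ (mulUH M τ)) * fun τ => E₆ (mulUH M τ)) * ⇑(W.X a)) =
      qExpand ℂ M e4C * qExpand ℂ M d1aE6C *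
        HahnSeries.ofPowerSeries ℤ ℂ ((wpSeries M a).map (Int.castRingHom ℂ)) :=
    (Fermat.Agent.S48WA.hasQ_of_isMF hnum).unique ((q4.mul q6).mul qX)
  refine ⟨12, _, _, hnum, hΔ, ?_, ?_⟩
  · intro h
    have := congrFun h ⟨Complex.I, by simp⟩
    exact discriminant_ne_zero _ this
  · rw [e1, e2, d1a_coeffEmb_fricke, map_mul, map_mul]
    have hd : qExpand ℂ M deltaInvC * qExpand ℂ M deltaC = 1 := by
      rw [← map_mul, mul_comm, deltaC_mul_deltaInvC, map_one]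
    calc qExpand ℂ M e4C * qExpand ℂ M d1aE6C * qExpand ℂ M deltaInvC *
          HahnSeries.ofPowerSeries ℤ ℂ ((wpSeries M a).map (Int.castRingHom ℂ)) *
          qExpand ℂ M deltaC
        = qExpand ℂ M e4C * qExpand ℂ M d1aE6C *
          HahnSeries.ofPowerSeries ℤ ℂ ((wpSeries M a).map (Int.castRingHom ℂ)) *
          (qExpand ℂ M deltaInvC * qExpand ℂ M deltaC) := by ring
      _ = _ := by rw [hd, mul_one]

/-! ### (D1a) -/

theorem D1aIsRatio.of_coeffEmb {M : ℕ} [NeZero M] (W : WpForms M) {x₀ : LaurentSeries ℚ}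
    (hx₀ : x₀ ∈ FOne M) : D1aIsRatio M (coeffEmb ℂ x₀) := by
  rw [FOne] at hx₀
  induction hx₀ using IntermediateField.adjoin_induction with
  | mem x hx =>
    rcases hx with hx | ⟨a, ha, rfl⟩
    · exact D1aIsRatio.of_dict1
        (Dict1IsRatio.of_coeffEmb M (IntermediateField.subset_adjoin ℚ _ hx))
    · exact D1aIsRatio.fricke W a ha
  | algebraMap r =>
    have : coeffEmb ℂ (algebraMap ℚ (LaurentSeries ℚ) r) =
        algebraMap ℂ (LaurentSeries ℂ) (algebraMap ℚ ℂ r) := by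
      rw [algebraMap_eq_single_zero, algebraMap_eq_single_zero, coeffEmb,
        coeffMap_single]
    rw [this]
    exact D1aIsRatio.const M _
  | add x y _ _ hx hy => rw [map_add]; exact hx.add hy
  | inv x _ hx => rw [map_inv₀]; exact hx.inv
  | mul x y _ _ hx hy => rw [map_mul]; exact hx.mul hy

theorem D1aIsRatio.of_mem {M : ℕ} [NeZero M] (W : WpForms M) {x : LaurentSeries ℂ}
    (hx : x ∈ FC1 M) : D1aIsRatio M x := by
  rw [mem_laurentBaseChange_iff] at hx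
  induction hx using Subfield.closure_induction with
  | mem x hx =>
    rcases hx with ⟨c, rfl⟩ | ⟨x₀, hx₀, rfl⟩
    · exact D1aIsRatio.const M c
    · exact D1aIsRatio.of_coeffEmb W hx₀
  | one => exact D1aIsRatio.one M
  | add x y _ _ hx hy => exact hx.add hy
  | neg x _ hx => exact hx.neg
  | inv x _ hx => exact hx.inv
  | mul x y _ _ hx hy => exact hx.mul hy

/-- **(D1a)** every element of `FC1 M` is a quotient of two modular forms of equal weight on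
`Γ₁(M)`. -/
theorem dictD1a1_of {M : ℕ} [NeZero M] (W : WpForms M) : DictD1a1 M := by
  intro x hx
  obtain ⟨k, a, b, ⟨A, rfl⟩, ⟨B, rfl⟩, hb0, h⟩ := D1aIsRatio.of_mem W x.2
  have hB : B ≠ 0 := by
    rintro rfl
    exact hb0 rfl
  have hqB := Fermat.Agent.S48WA.qLaurent_ne_zero_of_isMF (IsMF.of B) hb0
  have hx' : (x : LaurentSeries ℂ) ≠ 0 := fun h0 => hx (Subtype.ext h0)
  have hA : A ≠ 0 := by
    rintro rfl
    have h0 : qLaurent (⇑(0 : ModularForm (G1 M) k)) = 0 := Fermat.Agent.S48WA.qLaurent_zero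
    rw [h0] at h
    rcases mul_eq_zero.mp h with h1 | h1
    · exact hx' h1
    · exact hqB h1
  exact ⟨k, A, B, hA, hB, h.symm⟩

end Fermat.Agent.S48WA2
end
end MergeWrap_S48_W_A_Dict_D1a

section MergeWrap_S48_W_A_Dict_HasDict -- from S48/W/A/Dict/HasDict.lean

set_option autoImplicit false

noncomputable section

namespace Fermat.Agent.S48WA2

open UpperHalfPlane CongruenceSubgroup ModularCurve AlgebraicCurve
open Fermat.Agent.F3Dict Fermat.Agent.F3I2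
open scoped MatrixGroups ModularForm

/-- the analytic Fricke functions of level `Γ₁(M)` (unconditional). -/
def frickeDataMain (M : ℕ) [NeZero M] : FrickeData M := frickeData_of (wpForms M)

/-- the datum of the dictionary (unconditional), `3 ≤ M`. -/
def dictDatumMain (M : ℕ) [NeZero M] (hM : 3 ≤ M) : DictDatum M :=
  dictDatum_of hM (frickeDataMain M)

/-- **(D1a)** for `Γ₁(M)`. -/
theorem dictD1a1_main (M : ℕ) [NeZero M] : DictD1a1 M := dictD1a1_of (wpForms M)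

/-- **(D1b)** for `Γ₁(M)`, `3 ≤ M`. -/
theorem dictD1b1_main (M : ℕ) [NeZero M] (hM : 3 ≤ M) : DictD1b1 M :=
  dictD1b1_of (dictDatumMain M hM).isPhi (dictDatumMain M hM).stab (dictDatumMain M hM).phi_j

/-- **(D2a)** for `Γ₁(M)`, `5 ≤ M`. -/
theorem dictD2a1_main (M : ℕ) [NeZero M] (hM : 5 ≤ M) : DictD2a1 M :=
  dictD2a1_of_fricke hM (frickeDataMain M)

/-- **(D2b)** for `Γ₁(M)`, `3 ≤ M`. -/
theorem dictD2b1_main (M : ℕ) [NeZero M] (hM : 3 ≤ M) : DictD2b1 M :=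
  dictD2b1_of_fricke hM (frickeDataMain M)

/-- **(HPD)** for `Γ₁(M)`, `3 ≤ M`. -/
theorem dictHPD1_main (M : ℕ) [NeZero M] (hM : 3 ≤ M) : DictHPD1 M :=
  dictHPD1_of_fricke hM (frickeDataMain M)

/-- **(CONST)** for `Γ₁(M)`, `3 ≤ M`. -/
theorem dictConst1_main (M : ℕ) [NeZero M] (hM : 3 ≤ M) : DictConst1 M :=
  dictConst1_of_fricke hM (frickeDataMain M)

/-- **The dictionary of block A2**, `5 ≤ M`, unconditional. -/
theorem hasDict1_main (M : ℕ) [NeZero M] (hM : 5 ≤ M) : Fermat.Agent.S48WA.HasDict1 M where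
  d1a := dictD1a1_main M
  d1b := dictD1b1_main M (by omega)
  d2a := dictD2a1_main M hM
  d2b := dictD2b1_main M (by omega)
  hpd := dictHPD1_main M (by omega)
  const := dictConst1_main M (by omega)

/-- `ℂ(X₁(M))` is a function field over `ℂ` with separating element `j`, `3 ≤ M`. -/
theorem isFunctionFieldOver_jBar1_main (M : ℕ) [NeZero M] (hM : 3 ≤ M) :
    Fermat.Agent.S24Diff.IsFunctionFieldOver ℂ (FC1 M) (jBar1 M) :=
  (dictDatumMain M hM).isFunctionFieldOver_jBar1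

/-- `j` is transcendental over `ℂ` in `ℂ(X₁(M))`, `3 ≤ M`. -/
theorem transcendental_jBar1_main (M : ℕ) [NeZero M] (hM : 3 ≤ M) :
    Transcendental ℂ (jBar1 M) :=
  (dictDatumMain M hM).transcendental_jBar1

end Fermat.Agent.S48WA2
end
end MergeWrap_S48_W_A_Dict_HasDict
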