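import Mathlib
import Fermat.Agent.MU.S48.W.A.Dict.Seats
import Fermat.Agent.MU.F3.DictC.GensExp
import Fermat.Agent.Lib.Kronecker.Formal
import Fermat.Agent.MU.S48.W.A.Dict.Emb
import Fermat.Agent.MU.S48.W.A.Dict.StabFinal
import Fermat.Agent.MU.S48.W.A.Dict.D3Gen
import Fermat.Agent.MU.S48.W.G.Kron.AlgAbs
import Fermat.Agent.MU.S48.W.A.Dict.AmbInv
import Fermat.Agent.MU.F3.I2.Final
import Fermat.Agent.MU.S48.W.A.Dict.Diamond
import Fermat.Agent.MU.S48.W.A.Dict.D1b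
import Fermat.Agent.S48.Neb.Group
import Fermat.Agent.MU.S48.W.A.Dict.HasDict

section MergeWrap_S48_W_A_Dict_D3Defs -- from S48/W/A/Dict/D3Defs.lean

set_option autoImplicit false

noncomputable section

namespace Fermat.Agent.S48WA2

open UpperHalfPlane CongruenceSubgroup Fermat.Agent.F3Dict Fermat.Agent.F3Dict.GensExp
open scoped MatrixGroups

/-- `f ∘ ((a τ + b) / e)`. -/
def affFun (a e : ℕ) (b : ℤ) (ha : 0 < a) (he : 0 < e) (f : Fun) : Fun :=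
  fun τ => f (aff a e b ha he τ)

@[simp] theorem affFun_apply (a e : ℕ) (b : ℤ) (ha : 0 < a) (he : 0 < e) (f : Fun) (τ : ℍ) :
    affFun a e b ha he f τ = f (aff a e b ha he τ) := rfl

/-- `f ∘ (p τ)`. -/
def pScaleFun (p : ℕ) [NeZero p] (f : Fun) : Fun := fun τ => f (scale p τ)

@[simp] theorem pScaleFun_apply (p : ℕ) [NeZero p] (f : Fun) (τ : ℍ) :
    pScaleFun p f τ = f (scale p τ) := rfl

/-- `g₀⁻¹ = [1 t; M ps]`, `p s - M t = 1`. -/
def d3G0inv (M p : ℕ) (s t : ℤ) (h : (p : ℤ) * s - (M : ℤ) * t = 1) : SL(2, ℤ) :=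
  ⟨!![1, t; (M : ℤ), (p : ℤ) * s], by
    rw [Matrix.det_fin_two_of]
    linear_combination h⟩

/-- `h₀ = [p t; M s]`. -/
def d3H0 (M p : ℕ) (s t : ℤ) (h : (p : ℤ) * s - (M : ℤ) * t = 1) : SL(2, ℤ) :=
  ⟨!![(p : ℤ), t; (M : ℤ), s], by
    rw [Matrix.det_fin_two_of]
    linear_combination h⟩

/-- `γ_b = T^{-b} g₀`. -/
def d3Gam (M p : ℕ) (s t : ℤ) (h : (p : ℤ) * s - (M : ℤ) * t = 1) (b : ℕ) : SL(2, ℤ) :=
  ModularGroup.T ^ (-(b : ℤ)) * (d3G0inv M p s t h)⁻¹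

theorem d3H0_zero_zero (M p : ℕ) (s t : ℤ) (h : (p : ℤ) * s - (M : ℤ) * t = 1) :
    (d3H0 M p s t h) 0 0 = (p : ℤ) := rfl

theorem d3H0_one_zero (M p : ℕ) (s t : ℤ) (h : (p : ℤ) * s - (M : ℤ) * t = 1) :
    (d3H0 M p s t h) 1 0 = (M : ℤ) := rfl

end Fermat.Agent.S48WA2
end
end MergeWrap_S48_W_A_Dict_D3Defs

section MergeWrap_S48_W_A_Dict_D3Subst -- from S48/W/A/Dict/D3Subst.lean

set_option autoImplicit false
set_option linter.unusedSectionVars false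
set_option linter.unusedVariables false

noncomputable section

namespace Fermat.Agent.S48WA2

open UpperHalfPlane CongruenceSubgroup ModularCurve AlgebraicCurve Fermat.Agent.F3Dict
  Fermat.Agent.F3Dict.GensExp
open Fermat.Agent.Kronecker (scaleL scaleL_coeff)
open scoped MatrixGroups ModularForm

/-! ### substitution `u ↦ z u^k` in a power series -/

/-- the series `∑ pₙ zⁿ X^(k n)`. -/
def d3SubstPS (z : ℂ) (k : ℕ) (P : PowerSeries ℂ) : PowerSeries ℂ :=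
  PowerSeries.mk fun n => if k ∣ n then z ^ (n / k) * PowerSeries.coeff (n / k) P else 0

theorem coeff_d3SubstPS (z : ℂ) (k : ℕ) (P : PowerSeries ℂ) (n : ℕ) :
    PowerSeries.coeff n (d3SubstPS z k P)
      = if k ∣ n then z ^ (n / k) * PowerSeries.coeff (n / k) P else 0 := by
  rw [d3SubstPS, PowerSeries.coeff_mk]

theorem coeff_d3SubstPS_mul (z : ℂ) (k : ℕ) (hk : 0 < k) (P : PowerSeries ℂ) (n : ℕ) :
    PowerSeries.coeff (k * n) (d3SubstPS z k P) = z ^ n * PowerSeries.coeff n P := by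
  rw [coeff_d3SubstPS, if_pos (dvd_mul_right k n), Nat.mul_div_cancel_left n hk]

theorem coeff_d3SubstPS_of_not_dvd (z : ℂ) (k : ℕ) (P : PowerSeries ℂ) {n : ℕ}
    (h : ¬ k ∣ n) : PowerSeries.coeff n (d3SubstPS z k P) = 0 := by
  rw [coeff_d3SubstPS, if_neg h]

/-- Substitution `u_{M₀} ∘ φ = z u_M^k` in a power series expansion. -/
theorem hasPExp_d3SubstPS {M₀ M : ℕ} {G : Fun} {P : PowerSeries ℂ} (hG : HasPExp M₀ G P)
    (φ : ℍ → ℍ) (z : ℂ) (hz : ‖z‖ = 1) (k : ℕ) (hk : 0 < k)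
    (hφ : ∀ τ, uParam M₀ (φ τ) = z * uParam M τ ^ k) :
    HasPExp M (fun τ => G (φ τ)) (d3SubstPS z k P) := by
  intro τ
  obtain ⟨hS, hH⟩ := hG (φ τ)
  have hinj : Function.Injective (fun n : ℕ => k * n) := fun a b h =>
    Nat.eq_of_mul_eq_mul_left hk h
  have hrange : ∀ m : ℕ, m ∉ Set.range (fun n : ℕ => k * n) → ¬ k ∣ m := by
    intro m hm hdvd
    obtain ⟨n, rfl⟩ := hdvd
    exact hm ⟨n, rfl⟩
  have hnorm : ‖uParam M₀ (φ τ)‖ = ‖uParam M τ‖ ^ k := by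
    rw [hφ τ, norm_mul, hz, one_mul, norm_pow]
  constructor
  · rw [← hinj.summable_iff]
    · refine hS.congr fun n => ?_
      simp only [Function.comp_apply, iota_apply]
      rw [coeff_d3SubstPS_mul z k hk, norm_mul, norm_pow, hz, one_pow, one_mul,
        hnorm, pow_mul]
    · intro m hm
      rw [coeff_d3SubstPS_of_not_dvd z k P (hrange m hm), map_zero, norm_zero, zero_mul]
  · rw [← hinj.hasSum_iff]
    · have e2 : ((fun m => iota (PowerSeries.coeff m (d3SubstPS z k P)) * uParam M τ ^ m) ∘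
            fun n : ℕ => k * n)
          = fun n => iota (PowerSeries.coeff n P) * uParam M₀ (φ τ) ^ n := by
        funext n
        simp only [Function.comp_apply, iota_apply]
        rw [coeff_d3SubstPS_mul z k hk, hφ τ, mul_pow, pow_mul]
        ring
      rw [e2]
      exact hH
    · intro m hm
      rw [coeff_d3SubstPS_of_not_dvd z k P (hrange m hm), map_zero, zero_mul]

/-- `u_m((aτ + b)/e) = ζ · u_{m a e}(τ)^(a a)`, `ζ = e(b/(e m))`. -/
theorem d3_uParam_aff_mul (m a e : ℕ) (b : ℤ) (ha : 0 < a) (he : 0 < e) (hm : 0 < m) (τ : ℍ) :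
    uParam m (aff a e b ha he τ)
      = Complex.exp (2 * Real.pi * Complex.I * (b : ℂ) / ((e : ℂ) * (m : ℂ)))
        * uParam (m * (a * e)) τ ^ (a * a) := by
  have he' : (e : ℂ) ≠ 0 := by exact_mod_cast he.ne'
  have hm' : (m : ℂ) ≠ 0 := by exact_mod_cast hm.ne'
  have ha' : (a : ℂ) ≠ 0 := by exact_mod_cast ha.ne'
  unfold uParam Function.Periodic.qParam
  rw [← Complex.exp_nat_mul, ← Complex.exp_add]
  congr 1
  rw [coe_aff]
  push_cast
  field_simp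
  ring

theorem d3_norm_exp (b : ℤ) (e m : ℕ) :
    ‖Complex.exp (2 * Real.pi * Complex.I * (b : ℂ) / ((e : ℂ) * (m : ℂ)))‖ = 1 := by
  have : 2 * Real.pi * Complex.I * (b : ℂ) / ((e : ℂ) * (m : ℂ))
      = ((2 * Real.pi * (b : ℝ) / ((e : ℝ) * (m : ℝ)) : ℝ) : ℂ) * Complex.I := by
    push_cast
    ring
  rw [this, Complex.norm_exp_ofReal_mul_I]

/-! ### the Laurent series -/

/-- `(scaleL z (u^{-m} p))(u^k) = u^{-k m} (z^{-m} ∑ pₙ zⁿ u^{k n})`. -/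
theorem d3_qExpand_scaleL (z : ℂˣ) (k m : ℕ) [NeZero k] (p : PowerSeries ℂ) :
    qExpand ℂ k (scaleL z
        (HahnSeries.single (-(m : ℤ)) (1 : ℂ) * HahnSeries.ofPowerSeries ℤ ℂ p))
      = HahnSeries.single (-((k * m : ℕ) : ℤ)) (1 : ℂ) *
          HahnSeries.ofPowerSeries ℤ ℂ
            (PowerSeries.C (((z : ℂ)⁻¹) ^ m) * d3SubstPS (z : ℂ) k p) := by
  have hk0 : 0 < k := Nat.pos_of_ne_zero (NeZero.ne k)
  have hkz : (0 : ℤ) < (k : ℤ) := by exact_mod_cast hk0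
  have hz0 : (z : ℂ) ≠ 0 := z.ne_zero
  ext n
  rw [HahnSeries.coeff_single_mul, one_mul]
  by_cases hn : (k : ℤ) ∣ n
  · obtain ⟨j, rfl⟩ := hn
    rw [qExpand_coeff_mul, scaleL_coeff, HahnSeries.coeff_single_mul, one_mul]
    have e1 : (k : ℤ) * j - -((k * m : ℕ) : ℤ) = (k : ℤ) * (j - -(m : ℤ)) := by
      push_cast
      ring
    rw [e1]
    by_cases hj : j - -(m : ℤ) < 0
    · rw [ModularCurve.ofPowerSeries_coeff_of_neg _ hj,
        ModularCurve.ofPowerSeries_coeff_of_neg _ (by nlinarith), mul_zero]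
    · rw [not_lt] at hj
      obtain ⟨i, hi⟩ := Int.eq_ofNat_of_zero_le hj
      rw [hi]
      have e2 : (k : ℤ) * ((i : ℕ) : ℤ) = ((k * i : ℕ) : ℤ) := by push_cast; ring
      rw [e2, HahnSeries.ofPowerSeries_apply_coeff, HahnSeries.ofPowerSeries_apply_coeff,
        PowerSeries.coeff_C_mul, coeff_d3SubstPS_mul _ k hk0]
      have hj' : j = (i : ℤ) - (m : ℤ) := by omega
      rw [hj', Units.val_zpow_eq_zpow_val, zpow_sub₀ hz0, zpow_natCast, zpow_natCast, inv_pow,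
        div_eq_mul_inv]
      ring
  · rw [qExpand_coeff_of_not_dvd k _ hn]
    by_cases hj : n - -((k * m : ℕ) : ℤ) < 0
    · rw [ModularCurve.ofPowerSeries_coeff_of_neg _ hj]
    · rw [not_lt] at hj
      obtain ⟨i, hi⟩ := Int.eq_ofNat_of_zero_le hj
      rw [hi, HahnSeries.ofPowerSeries_apply_coeff, PowerSeries.coeff_C_mul,
        coeff_d3SubstPS_of_not_dvd, mul_zero]
      intro hki
      apply hn
      have h1 : (k : ℤ) ∣ ((i : ℕ) : ℤ) := by exact_mod_cast hki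
      have h2 : n = (i : ℤ) - ((k * m : ℕ) : ℤ) := by omega
      rw [h2]
      refine dvd_sub h1 ?_
      push_cast
      exact dvd_mul_right _ _

/-! ### the seat -/

/-- **expansion of `f ∘ ((a τ + b)/e)`.** -/
theorem hasExp_affFun {M : ℕ} [NeZero M] {f : Fun} {s : LaurentSeries ℂ} (hf : HasExp M f s)
    (a e : ℕ) (b : ℤ) (ha : 0 < a) (he : 0 < e) (M' : ℕ) [NeZero M'] (hM' : M' = M * (a * e))
    [NeZero (a * a)] (z : ℂˣ)
    (hz : (z : ℂ) = Complex.exp (2 * Real.pi * Complex.I * (b : ℂ) / ((e : ℂ) * (M : ℂ)))) :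
    HasExp M' (affFun a e b ha he f) (qExpand ℂ (a * a) (scaleL z s)) := by
  subst hM'
  obtain ⟨m, p, rfl, hp⟩ := hf
  have hM0 : 0 < M := Nat.pos_of_ne_zero (NeZero.ne M)
  have hz1 : ‖(z : ℂ)‖ = 1 := by
    rw [hz]
    exact d3_norm_exp b e M
  have hz0 : (z : ℂ) ≠ 0 := z.ne_zero
  have hφ : ∀ τ, uParam M (aff a e b ha he τ) = (z : ℂ) * uParam (M * (a * e)) τ ^ (a * a) := by
    intro τ
    rw [d3_uParam_aff_mul M a e b ha he hM0, hz]
  have h1 := hasPExp_d3SubstPS hp (aff a e b ha he) (z : ℂ) hz1 (a * a) (Nat.mul_pos ha ha) hφ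
  have h2 := (HasPExp.const (M * (a * e)) (((z : ℂ)⁻¹) ^ m)).mul h1
  refine ⟨a * a * m, _, d3_qExpand_scaleL z (a * a) m p, HasExp.pexp_congr h2 fun τ => ?_⟩
  show f (aff a e b ha he τ) * uParam (M * (a * e)) τ ^ (a * a * m)
    = iota (((z : ℂ)⁻¹) ^ m) *
        (f (aff a e b ha he τ) * uParam M (aff a e b ha he τ) ^ m)
  rw [hφ τ, mul_pow, iota_apply, pow_mul]
  have hinv : ((z : ℂ)⁻¹) ^ m * (z : ℂ) ^ m = 1 := by
    rw [← mul_pow, inv_mul_cancel₀ hz0, one_pow]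
  linear_combination
    (-(f (aff a e b ha he τ) * (uParam (M * (a * e)) τ ^ (a * a)) ^ m)) * hinv

theorem d3_qExpand_eq_self (k : ℕ) [NeZero k] (hk : k = 1) (x : LaurentSeries ℂ) :
    qExpand ℂ k x = x := by
  subst hk
  exact qExpand_one_apply x

theorem d3_scale_eq_aff (p : ℕ) [NeZero p] (τ : ℍ) :
    scale p τ = aff p 1 0 (Nat.pos_of_ne_zero (NeZero.ne p)) one_pos τ := by
  apply UpperHalfPlane.ext
  rw [coe_scale, coe_aff]
  simp

/-- **expansion of `f ∘ (p τ)`.** -/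
theorem hasExp_pScaleFun {M : ℕ} [NeZero M] {f : Fun} {s : LaurentSeries ℂ} (hf : HasExp M f s)
    (p : ℕ) [NeZero p] [NeZero (M * p)] [NeZero (p * p)] :
    HasExp (M * p) (pScaleFun p f) (qExpand ℂ (p * p) s) := by
  have h := hasExp_affFun hf p 1 0 (Nat.pos_of_ne_zero (NeZero.ne p)) one_pos (M * p)
    (by rw [mul_one]) 1 (by simp)
  rw [Fermat.Agent.Kronecker.scaleL_one] at h
  have e : pScaleFun p f = affFun p 1 0 (Nat.pos_of_ne_zero (NeZero.ne p)) one_pos f := by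
    funext τ
    show f (scale p τ) = f (aff p 1 0 _ _ τ)
    rw [d3_scale_eq_aff]
  rw [e]
  exact h

/-- **expansion of `f ∘ ((τ + b)/p)`.** -/
theorem hasExp_affFun_one {M : ℕ} [NeZero M] {f : Fun} {s : LaurentSeries ℂ} (hf : HasExp M f s)
    (p : ℕ) [NeZero p] [NeZero (M * p)] (b : ℤ) (z : ℂˣ)
    (hz : (z : ℂ) = Complex.exp (2 * Real.pi * Complex.I * (b : ℂ) / ((p : ℂ) * (M : ℂ)))) :
    HasExp (M * p) (affFun 1 p b one_pos (Nat.pos_of_ne_zero (NeZero.ne p)) f) (scaleL z s) := by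
  have : NeZero (1 * 1) := ⟨by norm_num⟩
  have h := hasExp_affFun hf 1 p b one_pos (Nat.pos_of_ne_zero (NeZero.ne p)) (M * p)
    (by rw [one_mul]) z hz
  rwa [d3_qExpand_eq_self (1 * 1) (by norm_num)] at h

end Fermat.Agent.S48WA2
end
end MergeWrap_S48_W_A_Dict_D3Subst

section MergeWrap_S48_W_A_Dict_D3Incl -- from S48/W/A/Dict/D3Incl.lean

set_option autoImplicit false

noncomputable section

namespace Fermat.Agent.S48WA2

open UpperHalfPlane CongruenceSubgroup ModularCurve AlgebraicCurve Fermat.Agent.F3Dict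
  Fermat.Agent.F3Dict.GensExp
open Fermat.Agent.Kronecker (scaleL scaleL_coeff)
open scoped MatrixGroups ModularForm

/-- `Γ(m') ≤ Γ(m)` for `m ∣ m'`. -/
theorem d3incl_Gamma_le {m m' : ℕ} (h : m ∣ m') : Gamma m' ≤ Gamma m := by
  intro γ hγ
  rw [CongruenceSubgroup.Gamma_mem] at hγ ⊢
  have key : ∀ x c : ℤ, ((x : ℤ) : ZMod m') = (c : ZMod m') →
      ((x : ℤ) : ZMod m) = (c : ZMod m) := by
    intro x c hxc
    have := congrArg (ZMod.castHom h (ZMod m)) hxc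
    simpa using this
  obtain ⟨h1, h2, h3, h4⟩ := hγ
  refine ⟨?_, ?_, ?_, ?_⟩
  · simpa using key (γ 0 0) 1 (by simpa using h1)
  · simpa using key (γ 0 1) 0 (by simpa using h2)
  · simpa using key (γ 1 0) 0 (by simpa using h3)
  · simpa using key (γ 1 1) 1 (by simpa using h4)

/-- **change of level**: a function of level `M` is of level `M * k`. -/
theorem IsAH.of_mul {M : ℕ} [NeZero M] (k : ℕ) [NeZero k] [NeZero (M * k)] {f : Fun}
    (hf : IsAH M f) : IsAH (M * k) f := by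
  refine ⟨hf.1, fun γ hγ => hf.2.1 γ (d3incl_Gamma_le (dvd_mul_right M k) hγ), fun γ => ?_⟩
  obtain ⟨a, ha⟩ := hf.2.2 γ
  exact ⟨_, ha.qExpand k⟩

theorem AH_le_AH_mul (M k : ℕ) [NeZero M] [NeZero k] [NeZero (M * k)] : AH M ≤ AH (M * k) :=
  fun _ hf => IsAH.of_mul k hf

/-- the inclusion `AH M → AH (M k)`. -/
def ahIncl (M k : ℕ) [NeZero M] [NeZero k] [NeZero (M * k)] : AH M →ₐ[ℂ] AH (M * k) :=
  Subalgebra.inclusion (AH_le_AH_mul M k)

@[simp] theorem coe_ahIncl (M k : ℕ) [NeZero M] [NeZero k] [NeZero (M * k)] (f : AH M) :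
    ((ahIncl M k f : AH (M * k)) : Fun) = (f : Fun) := rfl

theorem ahIncl_injective (M k : ℕ) [NeZero M] [NeZero k] [NeZero (M * k)] :
    Function.Injective (ahIncl M k) :=
  Subalgebra.inclusion_injective (AH_le_AH_mul M k)

theorem ahIncl_smul (M k : ℕ) [NeZero M] [NeZero k] [NeZero (M * k)] (γ : SL(2, ℤ)) (f : AH M) :
    ahIncl M k (γ • f) = γ • ahIncl M k f := rfl

/-- `AH M → AH (M k) → LH (M k)`. -/
def ahInclLH (M k : ℕ) [NeZero M] [NeZero k] [NeZero (M * k)] : AH M →ₐ[ℂ] LH (M * k) :=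
  (IsScalarTower.toAlgHom ℂ (AH (M * k)) (LH (M * k))).comp (ahIncl M k)

theorem ahInclLH_apply (M k : ℕ) [NeZero M] [NeZero k] [NeZero (M * k)] (f : AH M) :
    ahInclLH M k f = algebraMap (AH (M * k)) (LH (M * k)) (ahIncl M k f) := rfl

theorem ahInclLH_injective (M k : ℕ) [NeZero M] [NeZero k] [NeZero (M * k)] :
    Function.Injective (ahInclLH M k) :=
  (IsFractionRing.injective (AH (M * k)) (LH (M * k))).comp (ahIncl_injective M k)

/-- the inclusion `LH M → LH (M k)`. -/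
def lhIncl (M k : ℕ) [NeZero M] [NeZero k] [NeZero (M * k)] : LH M →ₐ[ℂ] LH (M * k) :=
  IsFractionRing.liftAlgHom (ahInclLH_injective M k)

theorem lhIncl_algebraMap (M k : ℕ) [NeZero M] [NeZero k] [NeZero (M * k)] (f : AH M) :
    lhIncl M k (algebraMap (AH M) (LH M) f) =
      algebraMap (AH (M * k)) (LH (M * k)) (ahIncl M k f) := by
  unfold lhIncl
  rw [IsFractionRing.liftAlgHom_apply]
  exact IsFractionRing.lift_algebraMap _ _

theorem lhIncl_injective (M k : ℕ) [NeZero M] [NeZero k] [NeZero (M * k)] :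
    Function.Injective (lhIncl M k) :=
  (lhIncl M k).toRingHom.injective

theorem lhIncl_ofFun (M k : ℕ) [NeZero M] [NeZero k] [NeZero (M * k)] (f : Fun)
    (hf : IsAH M f) : lhIncl M k (LH.ofFun f hf) = LH.ofFun f (hf.of_mul k) := by
  unfold LH.ofFun
  rw [lhIncl_algebraMap]
  rfl

theorem lhIncl_smul (M k : ℕ) [NeZero M] [NeZero k] [NeZero (M * k)] (γ : SL(2, ℤ)) (x : LH M) :
    lhIncl M k (γ • x) = γ • lhIncl M k x := by
  obtain ⟨a, b, -, rfl⟩ := IsFractionRing.div_surjective (A := AH M) x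
  rw [smul_div₀', LH.smul_algebraMap, LH.smul_algebraMap, map_div₀, map_div₀, smul_div₀',
    lhIncl_algebraMap, lhIncl_algebraMap, lhIncl_algebraMap, lhIncl_algebraMap,
    LH.smul_algebraMap, LH.smul_algebraMap, ahIncl_smul, ahIncl_smul]

theorem expAH_ahIncl (M k : ℕ) [NeZero M] [NeZero k] [NeZero (M * k)] (f : AH M) :
    expAH (M * k) (ahIncl M k f) = qExpand ℂ k (expAH M f) :=
  expAH_eq ((hasExp_expAH f).qExpand k)

theorem expLH_lhIncl (M k : ℕ) [NeZero M] [NeZero k] [NeZero (M * k)] (x : LH M) :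
    expLH (M * k) (lhIncl M k x) = qExpand ℂ k (expLH M x) := by
  obtain ⟨a, b, -, rfl⟩ := IsFractionRing.div_surjective (A := AH M) x
  rw [map_div₀, map_div₀, map_div₀, lhIncl_algebraMap, lhIncl_algebraMap, expLH_algebraMap,
    expLH_algebraMap, expLH_algebraMap, expLH_algebraMap, expAH_ahIncl, expAH_ahIncl]
  exact (map_div₀ (qExpand ℂ k) _ _).symm

end Fermat.Agent.S48WA2
end
end MergeWrap_S48_W_A_Dict_D3Incl

section MergeWrap_S48_W_A_Dict_D3Grp -- from S48/W/A/Dict/D3Grp.lean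

set_option autoImplicit false

noncomputable section

namespace Fermat.Agent.S48WA2

open UpperHalfPlane CongruenceSubgroup ModularCurve AlgebraicCurve Fermat.Agent.F3Dict
  Fermat.Agent.F3Dict.GensExp
open scoped MatrixGroups ModularForm

/-! ### entries -/

theorem d3Gam_inv (M p : ℕ) (s t : ℤ) (h : (p : ℤ) * s - (M : ℤ) * t = 1) (b : ℕ) :
    (d3Gam M p s t h b)⁻¹ = d3G0inv M p s t h * ModularGroup.T ^ (b : ℤ) := by
  rw [d3Gam, mul_inv_rev, inv_inv, ← zpow_neg, neg_neg]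

theorem d3G0inv_coe (M p : ℕ) (s t : ℤ) (h : (p : ℤ) * s - (M : ℤ) * t = 1) :
    (d3G0inv M p s t h : Matrix (Fin 2) (Fin 2) ℤ) = !![1, t; (M : ℤ), (p : ℤ) * s] := rfl

theorem d3Gam_inv_coe (M p : ℕ) (s t : ℤ) (h : (p : ℤ) * s - (M : ℤ) * t = 1) (b : ℕ) :
    (((d3Gam M p s t h b)⁻¹ : SL(2, ℤ)) : Matrix (Fin 2) (Fin 2) ℤ)
      = !![1, (b : ℤ) + t; (M : ℤ), (M : ℤ) * b + (p : ℤ) * s] := by
  rw [d3Gam_inv, Matrix.SpecialLinearGroup.coe_mul, d3G0inv_coe, ModularGroup.coe_T_zpow]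
  ext i j
  fin_cases i <;> fin_cases j <;> simp [Matrix.mul_apply, Fin.sum_univ_two]

theorem d3Gam_coe (M p : ℕ) (s t : ℤ) (h : (p : ℤ) * s - (M : ℤ) * t = 1) (b : ℕ) :
    ((d3Gam M p s t h b : SL(2, ℤ)) : Matrix (Fin 2) (Fin 2) ℤ)
      = !![(M : ℤ) * b + (p : ℤ) * s, -((b : ℤ) + t); -(M : ℤ), 1] := by
  have h1 : d3Gam M p s t h b = (((d3Gam M p s t h b)⁻¹ : SL(2, ℤ))⁻¹ : SL(2, ℤ)) :=
    (inv_inv _).symm
  have h2 := Matrix.SpecialLinearGroup.SL2_inv_expl ((d3Gam M p s t h b)⁻¹ : SL(2, ℤ))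
  have h3 := d3Gam_inv_coe M p s t h b
  rw [h1, h2]
  show !![((d3Gam M p s t h b)⁻¹ : SL(2, ℤ)) 1 1, -((d3Gam M p s t h b)⁻¹ : SL(2, ℤ)) 0 1;
      -((d3Gam M p s t h b)⁻¹ : SL(2, ℤ)) 1 0, ((d3Gam M p s t h b)⁻¹ : SL(2, ℤ)) 0 0] = _
  have e00 : ((d3Gam M p s t h b)⁻¹ : SL(2, ℤ)) 0 0 = 1 := by
    show (((d3Gam M p s t h b)⁻¹ : SL(2, ℤ)) : Matrix (Fin 2) (Fin 2) ℤ) 0 0 = 1
    rw [h3]; rfl
  have e01 : ((d3Gam M p s t h b)⁻¹ : SL(2, ℤ)) 0 1 = (b : ℤ) + t := by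
    show (((d3Gam M p s t h b)⁻¹ : SL(2, ℤ)) : Matrix (Fin 2) (Fin 2) ℤ) 0 1 = _
    rw [h3]; rfl
  have e10 : ((d3Gam M p s t h b)⁻¹ : SL(2, ℤ)) 1 0 = (M : ℤ) := by
    show (((d3Gam M p s t h b)⁻¹ : SL(2, ℤ)) : Matrix (Fin 2) (Fin 2) ℤ) 1 0 = _
    rw [h3]; rfl
  have e11 : ((d3Gam M p s t h b)⁻¹ : SL(2, ℤ)) 1 1 = (M : ℤ) * b + (p : ℤ) * s := by
    show (((d3Gam M p s t h b)⁻¹ : SL(2, ℤ)) : Matrix (Fin 2) (Fin 2) ℤ) 1 1 = _
    rw [h3]; rfl
  rw [e00, e01, e10, e11]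

theorem d3Gam_mem_Gamma1 (M p : ℕ) (s t : ℤ) (h : (p : ℤ) * s - (M : ℤ) * t = 1) (b : ℕ) :
    d3Gam M p s t h b ∈ Gamma1 M := by
  have hc := d3Gam_coe M p s t h b
  have e00 : (d3Gam M p s t h b) 0 0 = (M : ℤ) * b + (p : ℤ) * s := by
    show ((d3Gam M p s t h b : SL(2, ℤ)) : Matrix (Fin 2) (Fin 2) ℤ) 0 0 = _
    rw [hc]; rfl
  have e11 : (d3Gam M p s t h b) 1 1 = 1 := by
    show ((d3Gam M p s t h b : SL(2, ℤ)) : Matrix (Fin 2) (Fin 2) ℤ) 1 1 = _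
    rw [hc]; rfl
  have e10 : (d3Gam M p s t h b) 1 0 = -(M : ℤ) := by
    show ((d3Gam M p s t h b : SL(2, ℤ)) : Matrix (Fin 2) (Fin 2) ℤ) 1 0 = _
    rw [hc]; rfl
  rw [Gamma1_mem, e00, e11, e10]
  refine ⟨?_, by simp, by simp⟩
  have h' : (p : ℤ) * s = 1 + (M : ℤ) * t := by linarith
  rw [h']
  push_cast
  simp

theorem d3H0_mem_Gamma0 (M p : ℕ) (s t : ℤ) (h : (p : ℤ) * s - (M : ℤ) * t = 1) :
    d3H0 M p s t h ∈ Gamma0 M := by
  rw [Gamma0_mem, d3H0_one_zero]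
  simp

/-! ### the action on `ℍ` -/

theorem scale_d3Gam_inv_smul (M p : ℕ) [NeZero p] (s t : ℤ)
    (h : (p : ℤ) * s - (M : ℤ) * t = 1) (b : ℕ) (τ : ℍ) :
    scale p ((d3Gam M p s t h b)⁻¹ • τ) =
      d3H0 M p s t h • aff 1 p (b : ℤ) one_pos (Nat.pos_of_ne_zero (NeZero.ne p)) τ := by
  apply UpperHalfPlane.ext
  have hc := d3Gam_inv_coe M p s t h b
  have e00 : ((d3Gam M p s t h b)⁻¹ : SL(2, ℤ)) 0 0 = 1 := by
    show (((d3Gam M p s t h b)⁻¹ : SL(2, ℤ)) : Matrix (Fin 2) (Fin 2) ℤ) 0 0 = 1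
    rw [hc]; rfl
  have e01 : ((d3Gam M p s t h b)⁻¹ : SL(2, ℤ)) 0 1 = (b : ℤ) + t := by
    show (((d3Gam M p s t h b)⁻¹ : SL(2, ℤ)) : Matrix (Fin 2) (Fin 2) ℤ) 0 1 = _
    rw [hc]; rfl
  have e10 : ((d3Gam M p s t h b)⁻¹ : SL(2, ℤ)) 1 0 = (M : ℤ) := by
    show (((d3Gam M p s t h b)⁻¹ : SL(2, ℤ)) : Matrix (Fin 2) (Fin 2) ℤ) 1 0 = _
    rw [hc]; rfl
  have e11 : ((d3Gam M p s t h b)⁻¹ : SL(2, ℤ)) 1 1 = (M : ℤ) * b + (p : ℤ) * s := by
    show (((d3Gam M p s t h b)⁻¹ : SL(2, ℤ)) : Matrix (Fin 2) (Fin 2) ℤ) 1 1 = _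
    rw [hc]; rfl
  have f00 : (d3H0 M p s t h) 0 0 = (p : ℤ) := rfl
  have f01 : (d3H0 M p s t h) 0 1 = t := rfl
  have f10 : (d3H0 M p s t h) 1 0 = (M : ℤ) := rfl
  have f11 : (d3H0 M p s t h) 1 1 = s := rfl
  have hd1 := sl2_denom_ne_zero ((d3Gam M p s t h b)⁻¹) τ
  have hd2 := sl2_denom_ne_zero (d3H0 M p s t h)
    (aff 1 p (b : ℤ) one_pos (Nat.pos_of_ne_zero (NeZero.ne p)) τ)
  rw [coe_scale, coe_sl2_smul, coe_sl2_smul] at *
  rw [e00, e01, e10, e11] at *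
  rw [f00, f01, f10, f11] at *
  rw [coe_aff] at *
  have hp : (p : ℂ) ≠ 0 := by exact_mod_cast NeZero.ne p
  push_cast at *
  have hd2' : (M : ℂ) * ((τ : ℂ) + (b : ℂ)) + (p : ℂ) * (s : ℂ) ≠ 0 := by
    intro h0
    apply hd1
    linear_combination h0
  have e1 : (M : ℂ) * (((1 : ℂ) * (τ : ℂ) + (b : ℂ)) / (p : ℂ)) + (s : ℂ)
      = ((M : ℂ) * ((τ : ℂ) + (b : ℂ)) + (p : ℂ) * (s : ℂ)) / (p : ℂ) := by
    field_simp
  have e2 : (p : ℂ) * (((1 : ℂ) * (τ : ℂ) + (b : ℂ)) / (p : ℂ)) + (t : ℂ)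
      = (τ : ℂ) + (b : ℂ) + (t : ℂ) := by
    field_simp
  have e3 : (M : ℂ) * (τ : ℂ) + ((M : ℂ) * (b : ℂ) + (p : ℂ) * (s : ℂ))
      = (M : ℂ) * ((τ : ℂ) + (b : ℂ)) + (p : ℂ) * (s : ℂ) := by ring
  rw [e1, e2, e3]
  field_simp
  ring

/-! ### the coset decomposition -/

theorem d3_cover (M p : ℕ) (hp : p.Prime) (s t : ℤ) (h : (p : ℤ) * s - (M : ℤ) * t = 1)
    {g : SL(2, ℤ)} (hg : g ∈ Gamma1 M) :
    g ∈ Gamma0 p ∨ ∃ b < p, (d3Gam M p s t h b)⁻¹ * g ∈ Gamma0 p := by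
  have hfact : Fact p.Prime := ⟨hp⟩
  have _hg := hg
  by_cases hc : ((g 1 0 : ℤ) : ZMod p) = 0
  · left
    rw [Gamma0_mem]
    exact hc
  · right
    -- `b ≡ - a c⁻¹ mod p`
    set a : ZMod p := ((g 0 0 : ℤ) : ZMod p) with ha
    set c : ZMod p := ((g 1 0 : ℤ) : ZMod p) with hc'
    refine ⟨(-a * c⁻¹).val, ZMod.val_lt _, ?_⟩
    rw [Gamma0_mem]
    have hm : ((d3Gam M p s t h (-a * c⁻¹).val)⁻¹ * g) 1 0
        = (M : ℤ) * g 0 0 + ((M : ℤ) * ((-a * c⁻¹).val : ℕ) + (p : ℤ) * s) * g 1 0 := by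
      rw [Matrix.SpecialLinearGroup.coe_mul, d3Gam_inv_coe]
      simp [Matrix.mul_apply, Fin.sum_univ_two]
    rw [hm]
    push_cast
    rw [ZMod.natCast_zmod_val, ← ha, ← hc']
    have hpz : ((p : ℕ) : ZMod p) = 0 := ZMod.natCast_self p
    rw [hpz]
    field_simp
    ring

/-! ### conjugation by `[p 0; 0 1]` -/

theorem d3_exists_sl2 (a b c d : ℤ) (h : a * d - b * c = 1) :
    ∃ k : SL(2, ℤ), k 0 0 = a ∧ k 0 1 = b ∧ k 1 0 = c ∧ k 1 1 = d :=
  ⟨⟨!![a, b; c, d], by rw [Matrix.det_fin_two_of]; linear_combination h⟩, rfl, rfl, rfl, rfl⟩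

theorem d3_inv_apply (g : SL(2, ℤ)) :
    (g⁻¹ : SL(2, ℤ)) 0 0 = g 1 1 ∧ (g⁻¹ : SL(2, ℤ)) 0 1 = -g 0 1 ∧
      (g⁻¹ : SL(2, ℤ)) 1 0 = -g 1 0 ∧ (g⁻¹ : SL(2, ℤ)) 1 1 = g 0 0 := by
  have h := Matrix.SpecialLinearGroup.SL2_inv_expl g
  refine ⟨?_, ?_, ?_, ?_⟩ <;> rw [h] <;> rfl

theorem d3_conj_scale (M p : ℕ) [NeZero p] (hpM : Nat.Coprime p M) {g : SL(2, ℤ)}
    (hg1 : g ∈ Gamma1 M) (hgp : g ∈ Gamma0 p) :
    ∃ k ∈ Gamma1 M, ∀ τ : ℍ, scale p (g⁻¹ • τ) = k⁻¹ • scale p τ := by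
  rw [Gamma1_mem] at hg1
  obtain ⟨h00, h11, h10⟩ := hg1
  rw [Gamma0_mem] at hgp
  have hpc : (p : ℤ) ∣ g 1 0 := (ZMod.intCast_zmod_eq_zero_iff_dvd _ _).mp hgp
  have hMc : (M : ℤ) ∣ g 1 0 := (ZMod.intCast_zmod_eq_zero_iff_dvd _ _).mp h10
  obtain ⟨c', hc'⟩ := hpc
  have hMc' : (M : ℤ) ∣ c' := by
    have hcop : IsCoprime (M : ℤ) (p : ℤ) := by
      rw [Int.isCoprime_iff_gcd_eq_one]
      simpa [Int.gcd_natCast_natCast] using hpM.symm
    rw [hc'] at hMc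
    exact hcop.dvd_of_dvd_mul_left hMc
  have hdet := sl2_det g
  obtain ⟨k, k00, k01, k10, k11⟩ := d3_exists_sl2 (g 0 0) ((p : ℤ) * g 0 1) c' (g 1 1) (by
    rw [hc'] at hdet
    linear_combination hdet)
  refine ⟨k, ?_, ?_⟩
  · rw [Gamma1_mem, k00, k11, k10]
    exact ⟨h00, h11, (ZMod.intCast_zmod_eq_zero_iff_dvd _ _).mpr hMc'⟩
  · intro τ
    apply UpperHalfPlane.ext
    have hd1 := sl2_denom_ne_zero g⁻¹ τ
    obtain ⟨g00, g01, g10, g11⟩ := d3_inv_apply g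
    obtain ⟨i00, i01, i10, i11⟩ := d3_inv_apply k
    rw [coe_scale, coe_sl2_smul, coe_sl2_smul, coe_scale]
    rw [g10, g11] at hd1
    rw [g00, g01, g10, g11, i00, i01, i10, i11, k00, k01, k10, k11]
    have hcC : ((g 1 0 : ℤ) : ℂ) = (p : ℂ) * (c' : ℂ) := by exact_mod_cast hc'
    push_cast at hd1 ⊢
    rw [hcC] at hd1 ⊢
    have e : -(c' : ℂ) * ((p : ℂ) * (τ : ℂ)) + ((g 0 0 : ℤ) : ℂ)
        = -((p : ℂ) * (c' : ℂ)) * (τ : ℂ) + ((g 0 0 : ℤ) : ℂ) := by ring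
    rw [e]
    field_simp

end Fermat.Agent.S48WA2
end
end MergeWrap_S48_W_A_Dict_D3Grp

section MergeWrap_S48_W_A_Dict_D3Scale -- from S48/W/A/Dict/D3Scale.lean

set_option autoImplicit false

noncomputable section

namespace Fermat.Agent.S48WA2

open UpperHalfPlane CongruenceSubgroup ModularCurve AlgebraicCurve Fermat.Agent.F3Dict
  Fermat.Agent.F3Dict.GensExp
open Fermat.Agent.Kronecker (scaleL scaleL_coeff)
open scoped MatrixGroups ModularForm Manifold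

/-! ### conjugation by `diag(d, 1)` -/

/-- the conjugate `diag(d,1) g diag(d,1)⁻¹` of `g = [α β; d c' δ]`. -/
def d3ScaleConj (d : ℕ) (g : SL(2, ℤ)) (c' : ℤ) (hc : g 1 0 = d * c') : SL(2, ℤ) :=
  ⟨!![g 0 0, d * g 0 1; c', g 1 1], by
    rw [Matrix.det_fin_two_of]
    have := sl2_det g
    rw [hc] at this
    linear_combination this⟩

theorem d3_scale_smul_eq (d : ℕ) [NeZero d] (g : SL(2, ℤ)) (c' : ℤ) (hc : g 1 0 = d * c')
    (τ : ℍ) : scale d (g • τ) = d3ScaleConj d g c' hc • scale d τ := by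
  apply UpperHalfPlane.ext
  have hd : (d : ℂ) ≠ 0 := by exact_mod_cast NeZero.ne d
  have h1 := sl2_denom_ne_zero g τ
  have h2 := sl2_denom_ne_zero (d3ScaleConj d g c' hc) (scale d τ)
  rw [coe_scale, coe_sl2_smul, coe_sl2_smul, coe_scale]
  have e00 : (d3ScaleConj d g c' hc) 0 0 = g 0 0 := rfl
  have e01 : (d3ScaleConj d g c' hc) 0 1 = d * g 0 1 := rfl
  have e10 : (d3ScaleConj d g c' hc) 1 0 = c' := rfl
  have e11 : (d3ScaleConj d g c' hc) 1 1 = g 1 1 := rfl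
  rw [e10, e11, coe_scale] at h2
  rw [e00, e01, e10, e11]
  have hc' : ((g 1 0 : ℤ) : ℂ) = (d : ℂ) * (c' : ℂ) := by rw [hc]; push_cast; ring
  rw [hc'] at h1 ⊢
  have h3 : (c' : ℂ) * ((d : ℂ) * (τ : ℂ)) + ((g 1 1 : ℤ) : ℂ)
      = (d : ℂ) * (c' : ℂ) * (τ : ℂ) + ((g 1 1 : ℤ) : ℂ) := by ring
  rw [h3] at h2 ⊢
  push_cast
  field_simp

theorem d3ScaleConj_mem_Gamma {m d : ℕ} [NeZero d] {g : SL(2, ℤ)}
    (hg : g ∈ CongruenceSubgroup.Gamma (m * d)) (c' : ℤ) (hc : g 1 0 = d * c') :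
    d3ScaleConj d g c' hc ∈ CongruenceSubgroup.Gamma m := by
  rw [CongruenceSubgroup.Gamma_mem] at hg ⊢
  obtain ⟨h1, h2, h3, h4⟩ := hg
  have hdvd : ∀ x : ℤ, ((x : ℤ) : ZMod (m * d)) = 0 → ((m * d : ℕ) : ℤ) ∣ x := fun x hx =>
    (ZMod.intCast_zmod_eq_zero_iff_dvd x (m * d)).mp hx
  have hm : ∀ x : ℤ, ((m : ℕ) : ℤ) ∣ x → ((x : ℤ) : ZMod m) = 0 := fun x hx =>
    (ZMod.intCast_zmod_eq_zero_iff_dvd x m).mpr hx
  have e00 : (d3ScaleConj d g c' hc) 0 0 = g 0 0 := rfl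
  have e01 : (d3ScaleConj d g c' hc) 0 1 = d * g 0 1 := rfl
  have e10 : (d3ScaleConj d g c' hc) 1 0 = c' := rfl
  have e11 : (d3ScaleConj d g c' hc) 1 1 = g 1 1 := rfl
  have hd0 : (d : ℤ) ≠ 0 := by exact_mod_cast NeZero.ne d
  have k1 : ((m : ℕ) : ℤ) ∣ g 0 0 - 1 := by
    have : ((g 0 0 - 1 : ℤ) : ZMod (m * d)) = 0 := by push_cast; rw [h1]; ring
    exact (Dvd.intro _ (by push_cast; rfl)).trans (hdvd _ this)
  have k4 : ((m : ℕ) : ℤ) ∣ g 1 1 - 1 := by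
    have : ((g 1 1 - 1 : ℤ) : ZMod (m * d)) = 0 := by push_cast; rw [h4]; ring
    exact (Dvd.intro _ (by push_cast; rfl)).trans (hdvd _ this)
  have k2 : ((m : ℕ) : ℤ) ∣ d * g 0 1 := by
    have := hdvd _ h2
    exact Dvd.dvd.mul_left ((Dvd.intro _ (by push_cast; rfl)).trans this) _
  have k3 : ((m : ℕ) : ℤ) ∣ c' := by
    have := hdvd _ h3
    rw [hc] at this
    push_cast at this
    rw [mul_comm (m : ℤ) (d : ℤ)] at this
    exact (mul_dvd_mul_iff_left hd0).mp this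
  rw [e00, e01, e10, e11]
  refine ⟨?_, hm _ k2, hm _ k3, ?_⟩
  · have := hm _ k1
    push_cast at this
    exact sub_eq_zero.mp this
  · have := hm _ k4
    push_cast at this
    exact sub_eq_zero.mp this

/-! ### `f ↦ f(p τ)` on functions -/

theorem pScaleFun_smul_of_hermite (p : ℕ) [NeZero p] (f : Fun) (γ γ' : SL(2, ℤ)) (a e : ℕ)
    (b : ℤ) (ha : 0 < a) (he : 0 < e)
    (hτ : ∀ τ : ℍ, scale p (γ⁻¹ • τ) = γ' • aff a e b ha he τ) :
    γ • pScaleFun p f = affFun a e b ha he (γ'⁻¹ • f) := by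
  funext τ
  show f (scale p (γ⁻¹ • τ)) = f ((γ'⁻¹)⁻¹ • aff a e b ha he τ)
  rw [hτ τ, inv_inv]

/-- **composition with `τ ↦ p τ`**: a function of level `M` becomes a function of level
`M * p`. -/
theorem IsAH.pScaleFun {M : ℕ} [NeZero M] (p : ℕ) [NeZero p] [NeZero (M * p)] {f : Fun}
    (hf : IsAH M f) : IsAH (M * p) (pScaleFun p f) := by
  refine ⟨?_, fun γ hγ => ?_, fun γ => ?_⟩
  · exact (MDifferentiable.comp hf.1 (mdifferentiable_scale p) :
      MDifferentiable 𝓘(ℂ) 𝓘(ℂ) ((f : ℍ → ℂ) ∘ scale p))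
  · -- invariance under `Γ(M p)`
    have hγ' : γ⁻¹ ∈ CongruenceSubgroup.Gamma (M * p) := inv_mem hγ
    have h3 : (((γ⁻¹ : SL(2, ℤ)) 1 0 : ℤ) : ZMod (M * p)) = 0 :=
      ((CongruenceSubgroup.Gamma_mem).mp hγ').2.2.1
    have h4 : ((M * p : ℕ) : ℤ) ∣ (γ⁻¹ : SL(2, ℤ)) 1 0 :=
      (ZMod.intCast_zmod_eq_zero_iff_dvd _ (M * p)).mp h3
    obtain ⟨c', hc'⟩ : ((p : ℕ) : ℤ) ∣ (γ⁻¹ : SL(2, ℤ)) 1 0 :=
      (Dvd.intro_left _ (by push_cast; rfl)).trans h4
    ext τ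
    show f (scale p (γ⁻¹ • τ)) = f (scale p τ)
    rw [d3_scale_smul_eq p γ⁻¹ c' hc']
    have h5 := d3ScaleConj_mem_Gamma hγ' c' hc'
    have h6 := hf.2.1 _ (inv_mem h5)
    have h7 := congrFun h6 (scale p τ)
    rw [Fun.sl_smul_apply, inv_inv] at h7
    exact h7
  · -- expansions of the translates
    obtain ⟨γ', a, e, b, ha, he, hae, hτ⟩ := exists_hermite p γ⁻¹
    obtain ⟨A, hA⟩ := hf.2.2 γ'⁻¹
    have : NeZero (a * a) := ⟨(Nat.mul_pos ha ha).ne'⟩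
    have hz0 : Complex.exp (2 * Real.pi * Complex.I * (b : ℂ) / ((e : ℂ) * (M : ℂ))) ≠ 0 :=
      Complex.exp_ne_zero _
    have h := hasExp_affFun hA a e b ha he (M * p) (by rw [hae]) (Units.mk0 _ hz0) rfl
    rw [pScaleFun_smul_of_hermite p f γ γ' a e b ha he hτ]
    exact ⟨_, h⟩

/-- `f ↦ f(p τ)`, `AH M → AH (M p)`. -/
def ahScale (M p : ℕ) [NeZero M] [NeZero p] [NeZero (M * p)] : AH M →ₐ[ℂ] AH (M * p) where
  toFun f := ⟨pScaleFun p (f : Fun), IsAH.pScaleFun p f.2⟩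
  map_one' := rfl
  map_mul' _ _ := rfl
  map_zero' := rfl
  map_add' _ _ := rfl
  commutes' _ := rfl

@[simp] theorem coe_ahScale (M p : ℕ) [NeZero M] [NeZero p] [NeZero (M * p)] (f : AH M) :
    ((ahScale M p f : AH (M * p)) : Fun) = pScaleFun p (f : Fun) := rfl

theorem ahScale_injective (M p : ℕ) [NeZero M] [NeZero p] [NeZero (M * p)] :
    Function.Injective (ahScale M p) := by
  intro f g h
  apply Subtype.ext
  funext τ
  have h1 : pScaleFun p (f : Fun) = pScaleFun p (g : Fun) := congrArg Subtype.val h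
  have h2 := congrFun h1 (Periods.unscale p τ)
  rw [pScaleFun_apply, pScaleFun_apply, Periods.scale_unscale] at h2
  exact h2

/-- `AH M → AH (M p) → LH (M p)`. -/
def ahScaleLH (M p : ℕ) [NeZero M] [NeZero p] [NeZero (M * p)] : AH M →ₐ[ℂ] LH (M * p) :=
  (IsScalarTower.toAlgHom ℂ (AH (M * p)) (LH (M * p))).comp (ahScale M p)

theorem ahScaleLH_apply (M p : ℕ) [NeZero M] [NeZero p] [NeZero (M * p)] (f : AH M) :
    ahScaleLH M p f = algebraMap (AH (M * p)) (LH (M * p)) (ahScale M p f) := rfl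

theorem ahScaleLH_injective (M p : ℕ) [NeZero M] [NeZero p] [NeZero (M * p)] :
    Function.Injective (ahScaleLH M p) :=
  (IsFractionRing.injective (AH (M * p)) (LH (M * p))).comp (ahScale_injective M p)

/-! ### `x ↦ x(p τ)` on the field -/

/-- `f ↦ f(p τ)`, `LH M → LH (M p)`. -/
def lhScale (M p : ℕ) [NeZero M] [NeZero p] [NeZero (M * p)] : LH M →ₐ[ℂ] LH (M * p) :=
  IsFractionRing.liftAlgHom (ahScaleLH_injective M p)

theorem lhScale_algebraMap (M p : ℕ) [NeZero M] [NeZero p] [NeZero (M * p)] (f : AH M) :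
    lhScale M p (algebraMap (AH M) (LH M) f) =
      algebraMap (AH (M * p)) (LH (M * p)) (ahScale M p f) := by
  unfold lhScale
  rw [IsFractionRing.liftAlgHom_apply]
  exact IsFractionRing.lift_algebraMap _ _

theorem lhScale_injective (M p : ℕ) [NeZero M] [NeZero p] [NeZero (M * p)] :
    Function.Injective (lhScale M p) :=
  (lhScale M p).toRingHom.injective

theorem lhScale_ofFun (M p : ℕ) [NeZero M] [NeZero p] [NeZero (M * p)] (f : Fun)
    (hf : IsAH M f) : lhScale M p (LH.ofFun f hf) = LH.ofFun (pScaleFun p f) (hf.pScaleFun p) := by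
  unfold LH.ofFun
  rw [lhScale_algebraMap]
  rfl

theorem expAH_ahScale (M p : ℕ) [NeZero M] [NeZero p] [NeZero (M * p)] [NeZero (p * p)]
    (f : AH M) : expAH (M * p) (ahScale M p f) = qExpand ℂ (p * p) (expAH M f) :=
  expAH_eq (hasExp_pScaleFun (hasExp_expAH f) p)

theorem expLH_lhScale (M p : ℕ) [NeZero M] [NeZero p] [NeZero (M * p)] [NeZero (p * p)]
    (x : LH M) : expLH (M * p) (lhScale M p x) = qExpand ℂ (p * p) (expLH M x) := by
  obtain ⟨a, b, -, rfl⟩ := IsFractionRing.div_surjective (A := AH M) x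
  rw [map_div₀, map_div₀, map_div₀, lhScale_algebraMap, lhScale_algebraMap, expLH_algebraMap,
    expLH_algebraMap, expLH_algebraMap, expLH_algebraMap, expAH_ahScale, expAH_ahScale]
  exact (map_div₀ (qExpand ℂ (p * p)) _ _).symm

/-! ### the translates of `x(p τ)` -/

theorem smul_ahScale_of_conj (M p : ℕ) [NeZero M] [NeZero p] [NeZero (M * p)] {g k : SL(2, ℤ)}
    (h : ∀ τ : ℍ, scale p (g⁻¹ • τ) = k⁻¹ • scale p τ) (f : AH M) :
    g • ahScale M p f = ahScale M p (k • f) := by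
  apply Subtype.ext
  funext τ
  show (f : Fun) (scale p (g⁻¹ • τ)) = (f : Fun) (k⁻¹ • scale p τ)
  rw [h τ]

/-- conjugation: if `p (g⁻¹ τ) = k⁻¹ (p τ)` then `g • x(p τ) = (k • x)(p τ)`. -/
theorem smul_lhScale_of_conj (M p : ℕ) [NeZero M] [NeZero p] [NeZero (M * p)] {g k : SL(2, ℤ)}
    (h : ∀ τ : ℍ, scale p (g⁻¹ • τ) = k⁻¹ • scale p τ) (x : LH M) :
    g • lhScale M p x = lhScale M p (k • x) := by
  obtain ⟨a, b, -, rfl⟩ := IsFractionRing.div_surjective (A := AH M) x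
  rw [smul_div₀', LH.smul_algebraMap, LH.smul_algebraMap, map_div₀, map_div₀, smul_div₀',
    lhScale_algebraMap, lhScale_algebraMap, lhScale_algebraMap, lhScale_algebraMap,
    LH.smul_algebraMap, LH.smul_algebraMap, smul_ahScale_of_conj M p h,
    smul_ahScale_of_conj M p h]

theorem expAH_smul_ahScale_of_aff (M p : ℕ) [NeZero M] [NeZero p] [NeZero (M * p)]
    {g h : SL(2, ℤ)} (b : ℤ)
    (hgh : ∀ τ : ℍ, scale p (g⁻¹ • τ) =
      h • aff 1 p b one_pos (Nat.pos_of_ne_zero (NeZero.ne p)) τ)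
    (z : ℂˣ)
    (hz : (z : ℂ) = Complex.exp (2 * Real.pi * Complex.I * (b : ℂ) / ((p : ℂ) * (M : ℂ))))
    (f : AH M) :
    expAH (M * p) (g • ahScale M p f) = scaleL z (expAH M (h⁻¹ • f)) := by
  have h1 := hasExp_affFun_one (hasExp_expAH (h⁻¹ • f)) p b z hz
  have e : ((g • ahScale M p f : AH (M * p)) : Fun)
      = affFun 1 p b one_pos (Nat.pos_of_ne_zero (NeZero.ne p)) ((h⁻¹ • f : AH M) : Fun) := by
    funext τ
    show (f : Fun) (scale p (g⁻¹ • τ)) = (f : Fun) ((h⁻¹)⁻¹ • aff 1 p b _ _ τ)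
    rw [hgh τ, inv_inv]
  refine expAH_eq ?_
  rw [e]
  exact h1

/-- the conjugates: if `p (g⁻¹ τ) = h ((τ + b) / p)` then the expansion of `g • x(p τ)` is
`(h⁻¹ • x)(ζ^b u)`, `ζ = exp(2πi/(pM))`. -/
theorem expLH_smul_lhScale_of_aff (M p : ℕ) [NeZero M] [NeZero p] [NeZero (M * p)]
    {g h : SL(2, ℤ)} (b : ℤ)
    (hgh : ∀ τ : ℍ, scale p (g⁻¹ • τ) =
      h • aff 1 p b one_pos (Nat.pos_of_ne_zero (NeZero.ne p)) τ)
    (z : ℂˣ)
    (hz : (z : ℂ) = Complex.exp (2 * Real.pi * Complex.I * (b : ℂ) / ((p : ℂ) * (M : ℂ))))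
    (x : LH M) :
    expLH (M * p) (g • lhScale M p x) = scaleL z (expLH M (h⁻¹ • x)) := by
  obtain ⟨a, c, -, rfl⟩ := IsFractionRing.div_surjective (A := AH M) x
  rw [map_div₀, smul_div₀', map_div₀, smul_div₀', map_div₀, map_div₀,
    lhScale_algebraMap, lhScale_algebraMap, LH.smul_algebraMap, LH.smul_algebraMap,
    LH.smul_algebraMap, LH.smul_algebraMap, expLH_algebraMap, expLH_algebraMap,
    expLH_algebraMap, expLH_algebraMap, expAH_smul_ahScale_of_aff M p b hgh z hz,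
    expAH_smul_ahScale_of_aff M p b hgh z hz]

end Fermat.Agent.S48WA2
end
end MergeWrap_S48_W_A_Dict_D3Scale

section MergeWrap_S48_W_A_Dict_D3Norm -- from S48/W/A/Dict/D3Norm.lean

set_option autoImplicit false

noncomputable section

namespace Fermat.Agent.S48WA2

open UpperHalfPlane CongruenceSubgroup ModularCurve AlgebraicCurve Fermat.Agent.F3Dict
open Fermat.Agent.F3Dict.GensExp
open Fermat.Agent.S48W Fermat.Agent.F3I2
open Fermat.Agent.Kronecker (scaleL scaleL_coeff)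
open scoped MatrixGroups ModularForm

/-- The **twisted norm product formula** over `ℂ` at level `Γ₁(M)` (formal `q`-expansion form):
`(T_p y)(q^p) = y(q^{p²}) · ∏_{b<p} (δ y)(ζ^b q)` for every diamond automorphism `δ = ⟨p⟩`. -/
def NormProductFormulaOneC (M p : ℕ) [NeZero M] [NeZero p] : Prop :=
  ∀ d : (ZMod M)ˣ, (d : ZMod M) = (p : ZMod M) →
  ∀ δ : FC1 M ≃ₐ[ℂ] FC1 M, IsDiamondC M d δ →
  ∀ y : FC1 M,
    qExpand ℂ p ((heckeFunOne ℂ M p y : FC1 M) : LaurentSeries ℂ) =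
      qExpand ℂ (p * p) (y : LaurentSeries ℂ) *
        ∏ b ∈ Finset.range p, scaleL (dict3Zeta p ^ b) ((δ y : FC1 M) : LaurentSeries ℂ)

/-! ### the diamond automorphism in the ambient field -/

/-- `φ (⟨d⟩ x) = γ⁻¹ • φ x` for `γ ∈ Γ₀(M)` with upper left entry `≡ d`. -/
theorem d3_phi_diamond {M : ℕ} [NeZero M] (D : FrickeData M) {φ : FC1 M →ₐ[ℂ] LH M}
    (hφ : IsPhi M φ) {d : (ZMod M)ˣ} {δ : FC1 M ≃ₐ[ℂ] FC1 M} (hδ : IsDiamondC M d δ)
    {γ : SL(2, ℤ)} (hγ : γ ∈ Gamma0 M) (hγd : ((γ 0 0 : ℤ) : ZMod M) = (d : ZMod M))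
    (x : FC1 M) : φ (δ x) = γ⁻¹ • φ x := by
  let Φ₁ : FC1 M →+* LH M := φ.toRingHom.comp δ.toAlgHom.toRingHom
  let Φ₂ : FC1 M →+* LH M :=
    (MulSemiringAction.toRingHom SL(2, ℤ) (LH M) γ⁻¹).comp φ.toRingHom
  have key : Φ₁ = Φ₂ := by
    apply ringHom_ext_lbc (K := ℂ) (S := genOne M)
    · intro c
      show φ (δ (algebraMap ℂ (FC1 M) c)) = γ⁻¹ • φ (algebraMap ℂ (FC1 M) c)
      rw [AlgEquiv.commutes, AlgHom.commutes, smul_algebraMap]
    · rintro s (hs | ⟨a, ha, rfl⟩) h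
      · obtain ⟨e, he, hed, rfl⟩ := hs
        show φ (δ ⟨_, h⟩) = γ⁻¹ • φ ⟨_, h⟩
        rw [hδ.1 _ (mem_divisorExpansions M hed) h]
        have h1 : (⟨coeffEmb ℂ (qExpand ℚ e jq), h⟩ : FC1 M) = jdBar1 M e hed := rfl
        rw [h1, hφ.jdBar1 e hed, stab_smul_jdLH M e hed (inv_mem hγ)]
      · show φ (δ ⟨_, h⟩) = γ⁻¹ • φ ⟨_, h⟩
        have hda : (d : ZMod M) * a ≠ 0 := by
          intro h0
          apply ha
          have := congrArg (fun z => ((d⁻¹ : (ZMod M)ˣ) : ZMod M) * z) h0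
          simpa using this
        have h2 : coeffEmb ℂ (fricke M ((d : ZMod M) * a)) ∈ FC1 M :=
          coeffEmb_mem_laurentBaseChange ℂ (fricke_mem M hda)
        rw [hδ.2 a ha h h2]
        have h3 : (⟨coeffEmb ℂ (fricke M a), h⟩ : FC1 M) = frickeBar1 M a ha := rfl
        have h4 : (⟨coeffEmb ℂ (fricke M ((d : ZMod M) * a)), h2⟩ : FC1 M) =
            frickeBar1 M ((d : ZMod M) * a) hda := rfl
        rw [h3, h4, hφ.frickeBar1 D, hφ.frickeBar1 D]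
        unfold FrickeData.frLH
        rw [LH.smul_ofFun]
        apply LH.ofFun_congr
        rw [D.smul γ hγ a ha, hγd]
  exact RingHom.congr_fun key x

/-! ### the embedding of `F(Γ₁(M) ∩ Γ₀(p))` in `LH (M p)` -/

section Emb

variable (M p : ℕ) [NeZero M] [NeZero p] [NeZero (M * p)] [NeZero (p * p)]

/-- the embedding `F₁(M) → LH (M p)`. -/
def d3Phi (D : FrickeData M) : FC1 M →ₐ[ℂ] LH (M * p) := (lhIncl M p).comp (embHom1 D)

theorem expLH_d3Phi (D : FrickeData M) (x : FC1 M) :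
    expLH (M * p) (d3Phi M p D x) = qExpand ℂ (M * p) (x : LaurentSeries ℂ) := by
  show expLH (M * p) (lhIncl M p (embHom1 D x)) = _
  rw [expLH_lhIncl, expLH_embHom1, qExpand_qExpand]
  exact qExpand_congr (mul_comm p M) _

theorem expLH_lhScale_embHom1 (D : FrickeData M) (x : FC1 M) :
    expLH (M * p) (lhScale M p (embHom1 D x)) =
      qExpand ℂ (M * p) (qExpand ℂ p (x : LaurentSeries ℂ)) := by
  rw [expLH_lhScale, expLH_embHom1, qExpand_qExpand, qExpand_qExpand]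
  exact qExpand_congr (by ring) _

/-- the embedding `F(Γ₁(M) ∩ Γ₀(p)) → LH (M p)`, inverse of the expansion at `∞`. -/
theorem d3_exists_phiP (D : FrickeData M) :
    ∃ φ' : FC1P M p →ₐ[ℂ] LH (M * p),
      ∀ x, expLH (M * p) (φ' x) = qExpand ℂ (M * p) (x : LaurentSeries ℂ) := by
  refine exists_algHom_lbc (K := ℂ)
    (S := (FOne M : Set (LaurentSeries ℚ)) ∪ (qExpand ℚ p '' (FOne M))) (expLH (M * p))
    (expLH_injective (M * p)) (M * p) ?_
  rintro s (hs | ⟨s₀, hs₀, rfl⟩)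
  · exact ⟨d3Phi M p D ⟨coeffEmb ℂ s, coeffEmb_mem_laurentBaseChange ℂ hs⟩, expLH_d3Phi M p D _⟩
  · refine ⟨lhScale M p (embHom1 D ⟨coeffEmb ℂ s₀, coeffEmb_mem_laurentBaseChange ℂ hs₀⟩), ?_⟩
    rw [expLH_lhScale_embHom1, coeffEmb_qExpand_w]

theorem lhIncl_jLH : lhIncl M p (jLH M) = jLH (M * p) := by
  apply expLH_injective (M * p)
  rw [expLH_lhIncl, expLH_jLH, expLH_jLH, qExpand_qExpand]
  exact qExpand_congr (mul_comm p M) _

theorem d3Phi_jBar1 (D : FrickeData M) : d3Phi M p D (jBar1 M) = jLH (M * p) := by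
  show lhIncl M p (embHom1 D (jBar1 M)) = _
  rw [(isPhi_embHom1 D).jBar1, lhIncl_jLH]

/-- `Γ₁(M)` fixes the image of `F₁(M)`. -/
theorem smul_d3Phi (hM : 3 ≤ M) (D : FrickeData M) {g : SL(2, ℤ)} (hg : g ∈ Gamma1pm M)
    (x : FC1 M) : g • d3Phi M p D x = d3Phi M p D x := by
  show g • lhIncl M p (embHom1 D x) = lhIncl M p (embHom1 D x)
  rw [← lhIncl_smul, (IsPhi.mem_Gamma1pm_iff hM D (isPhi_embHom1 D) g).mp hg x]

/-- the stabiliser of the image of `F₁(M)` is `± Γ₁(M)`. -/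
theorem mem_Gamma1pm_of_smul_d3Phi (hM : 3 ≤ M) (D : FrickeData M) {g : SL(2, ℤ)}
    (hg : ∀ x : FC1 M, g • d3Phi M p D x = d3Phi M p D x) : g ∈ Gamma1pm M := by
  refine (IsPhi.mem_Gamma1pm_iff hM D (isPhi_embHom1 D) g).mpr fun x => ?_
  apply (lhIncl M p).toRingHom.injective
  show lhIncl M p (g • embHom1 D x) = lhIncl M p (embHom1 D x)
  rw [lhIncl_smul]
  exact hg x

/-- `Γ₁(M) ∩ Γ₀(p)` fixes the image of `F(Γ₁(M) ∩ Γ₀(p))`. -/
theorem smul_phiP_of_mem (hM : 3 ≤ M) (hpM : Nat.Coprime p M) (D : FrickeData M)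
    {φ' : FC1P M p →ₐ[ℂ] LH (M * p)}
    (hφ' : ∀ x, expLH (M * p) (φ' x) = qExpand ℂ (M * p) (x : LaurentSeries ℂ))
    {g : SL(2, ℤ)} (hg1 : g ∈ Gamma1 M) (hgp : g ∈ Gamma0 p) (x' : FC1P M p) :
    g • φ' x' = φ' x' := by
  let Φ₁ : FC1P M p →+* LH (M * p) :=
    (MulSemiringAction.toRingHom SL(2, ℤ) (LH (M * p)) g).comp φ'.toRingHom
  let Φ₂ : FC1P M p →+* LH (M * p) := φ'.toRingHom
  have key : Φ₁ = Φ₂ := by
    apply ringHom_ext_lbc (K := ℂ)
      (S := (FOne M : Set (LaurentSeries ℚ)) ∪ (qExpand ℚ p '' (FOne M)))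
    · intro c
      show g • φ' (algebraMap ℂ (FC1P M p) c) = φ' (algebraMap ℂ (FC1P M p) c)
      rw [AlgHom.commutes, smul_algebraMap]
    · rintro s (hs | ⟨s₀, hs₀, rfl⟩) h
      · show g • φ' ⟨_, h⟩ = φ' ⟨_, h⟩
        have e : φ' ⟨coeffEmb ℂ s, h⟩ =
            d3Phi M p D ⟨coeffEmb ℂ s, coeffEmb_mem_laurentBaseChange ℂ hs⟩ := by
          apply expLH_injective (M * p)
          rw [hφ', expLH_d3Phi]
        rw [e]
        exact smul_d3Phi M p hM D (Gamma1_le_Gamma1pm M hg1) _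
      · show g • φ' ⟨_, h⟩ = φ' ⟨_, h⟩
        have e : φ' ⟨coeffEmb ℂ (qExpand ℚ p s₀), h⟩ =
            lhScale M p (embHom1 D ⟨coeffEmb ℂ s₀, coeffEmb_mem_laurentBaseChange ℂ hs₀⟩) := by
          apply expLH_injective (M * p)
          rw [hφ', expLH_lhScale_embHom1]
          show qExpand ℂ (M * p) (coeffEmb ℂ (qExpand ℚ p s₀)) =
            qExpand ℂ (M * p) (qExpand ℂ p (coeffEmb ℂ s₀))
          rw [coeffEmb_qExpand_w]
        obtain ⟨k, hk, hconj⟩ := d3_conj_scale M p hpM hg1 hgp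
        rw [e, smul_lhScale_of_conj M p hconj,
          (IsPhi.mem_Gamma1pm_iff hM D (isPhi_embHom1 D) k).mp (Gamma1_le_Gamma1pm M hk)]
  exact RingHom.congr_fun key x'

end Emb

/-! ### the twisted norm product formula -/

theorem d3_isPrimitiveRoot_zeta (p : ℕ) [NeZero p] : IsPrimitiveRoot (dict3Zeta p) p := by
  rw [← IsPrimitiveRoot.coe_units_iff, dict3Zeta_coe]
  exact Complex.isPrimitiveRoot_exp p (NeZero.ne p)

/-- `exp(2πi b/(pM))` as a unit. -/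
def d3Z (M p b : ℕ) : ℂˣ :=
  Units.mk0 (Complex.exp (2 * Real.pi * Complex.I * ((b : ℤ) : ℂ) / ((p : ℂ) * (M : ℂ))))
    (Complex.exp_ne_zero _)

theorem d3Z_pow (M p b : ℕ) [NeZero M] [NeZero p] : d3Z M p b ^ M = dict3Zeta p ^ b := by
  apply Units.ext
  rw [Units.val_pow_eq_pow_val, Units.val_pow_eq_pow_val, dict3Zeta_coe]
  show Complex.exp _ ^ M = _
  rw [← Complex.exp_nat_mul, ← Complex.exp_nat_mul]
  congr 1
  have hM : (M : ℂ) ≠ 0 := by exact_mod_cast NeZero.ne M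
  have hp : (p : ℂ) ≠ 0 := by exact_mod_cast NeZero.ne p
  push_cast
  field_simp

/-- **The twisted norm product formula over `ℂ`** at level `Γ₁(M)`, `M ≥ 3`, for a prime
`p ∤ M`, from the analytic Fricke functions. -/
theorem normProductFormulaOneC_of (M p : ℕ) [NeZero M] [NeZero p] [NeZero (M * p)]
    [NeZero (p * p)] (hM : 3 ≤ M) (hp : p.Prime) (hpM : Nat.Coprime p M) (D : FrickeData M) :
    NormProductFormulaOneC M p := by
  intro d hd δ hδ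
  obtain ⟨s, t, hst⟩ : ∃ s t : ℤ, (p : ℤ) * s - (M : ℤ) * t = 1 := by
    have h1 : IsCoprime (p : ℤ) (M : ℤ) := Nat.isCoprime_iff_coprime.mpr hpM
    obtain ⟨a, b, hab⟩ := h1
    exact ⟨a, -b, by linear_combination hab⟩
  obtain ⟨φ', hφ'⟩ := d3_exists_phiP M p D
  have hφM := isPhi_embHom1 D
  -- the hypotheses of the abstract formula
  have hα : ∀ x, φ' (qSeriesAlpha ℂ (FOne_le_FOneP M p) x) = d3Phi M p D x := by
    intro x
    apply expLH_injective (M * p)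
    rw [hφ', coe_qSeriesAlpha, expLH_d3Phi]
  have hβ : ∀ y, φ' (qSeriesBeta ℂ p (fun _ hy => qExpand_mem_FOneP M p hy) y) =
      lhScale M p (embHom1 D y) := by
    intro y
    apply expLH_injective (M * p)
    rw [hφ', coe_qSeriesBeta, expLH_lhScale_embHom1]
  have hfix : ∀ {g : SL(2, ℤ)}, g ∈ Gamma1 M → g ∈ Gamma0 p → ∀ x', g • φ' x' = φ' x' :=
    fun hg1 hgp x' => smul_phiP_of_mem M p hM hpM D hφ' hg1 hgp x'
  have hneg : ∀ (g : SL(2, ℤ)) (y : LH (M * p)), (-g) • y = g • y :=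
    fun g y => stab_neg_smul_LH (M * p) g y
  have hneg0 : ∀ {g : SL(2, ℤ)}, g ∈ Gamma0 p → -g ∈ Gamma0 p := by
    intro g hg
    rw [Gamma0_mem] at hg ⊢
    simpa using hg
  have hcov1 : ∀ g : SL(2, ℤ), g ∈ Gamma1 M →
      (∀ x', g • φ' x' = φ' x') ∨
        ∃ b < p, ∀ x', g • φ' x' = d3Gam M p s t hst b • φ' x' := by
    intro g hg
    rcases d3_cover M p hp s t hst hg with hc | ⟨b, hb, hc⟩
    · exact Or.inl (hfix hg hc)
    · refine Or.inr ⟨b, hb, fun x' => ?_⟩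
      have h1 := hfix (mul_mem (inv_mem (d3Gam_mem_Gamma1 M p s t hst b)) hg) hc x'
      rw [mul_smul, inv_smul_eq_iff] at h1
      exact h1
  have key := Fermat.Agent.S48WKron.normProduct_abstract (K := ℂ) (FOne_le_FOneP M p) p hp
    (fun _ hy => qExpand_mem_FOneP M p hy) δ (Γ := SL(2, ℤ)) (L := LH (M * p)) M
    (d3Phi M p D) φ' hα (expLH (M * p) : LH (M * p) →+* LaurentSeries ℂ) hφ' (jBar1 M)
    (exists_finiteIndex_fixing_LH (M * p))
    (fun g => by rw [d3Phi_jBar1]; exact smul_jLH (M * p) g)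
    (fun x hx => by rw [d3Phi_jBar1]; exact mem_adjoin_jLH_of_invariant (M * p) x hx)
    (d3Gam M p s t hst)
    (fun b x => smul_d3Phi M p hM D (Gamma1_le_Gamma1pm M (d3Gam_mem_Gamma1 M p s t hst b)) x)
    (fun g hg => by
      rcases mem_Gamma1pm_of_smul_d3Phi M p hM D hg with h1 | h1
      · exact hcov1 g h1
      · rcases hcov1 (-g) h1 with h2 | ⟨b, hb, h2⟩
        · exact Or.inl fun x' => by rw [← hneg]; exact h2 x'
        · exact Or.inr ⟨b, hb, fun x' => by rw [← hneg]; exact h2 x'⟩)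
    (dict3Zeta p) (d3_isPrimitiveRoot_zeta p)
    (fun b _ y => by
      rw [hβ]
      show expLH (M * p) (d3Gam M p s t hst b • lhScale M p (embHom1 D y)) = _
      rw [expLH_smul_lhScale_of_aff M p (b : ℤ) (scale_d3Gam_inv_smul M p s t hst b)
        (d3Z M p b) rfl,
        ← d3_phi_diamond D hφM hδ (d3H0_mem_Gamma0 M p s t hst)
          (by rw [d3H0_zero_zero, hd]; simp) y,
        expLH_embHom1, Fermat.Agent.Kronecker.scaleL_qExpand, d3Z_pow])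
    (jBar1 M)
    (hδ.1 jq ⟨1, inferInstance, one_dvd M, (qExpand_one_apply jq).symm⟩ _)
    (by
      show (coeffEmb ℂ jq).coeff (-1) ≠ 0
      rw [coeffEmb_coeff, coeff_jq_neg_one, map_one]
      exact one_ne_zero)
  exact key

end Fermat.Agent.S48WA2
end
end MergeWrap_S48_W_A_Dict_D3Norm

section MergeWrap_S48_W_A_Dict_D3One -- from S48/W/A/Dict/D3One.lean

set_option autoImplicit false

noncomputable section

namespace Fermat.Agent.S48WA2

open UpperHalfPlane ModularForm CongruenceSubgroup ModularCurve AlgebraicCurve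
open Fermat.Agent.F3Dict Fermat.Agent.S48W Fermat.Agent.F3I2
open Fermat.Agent.S23 Fermat.Agent.S28 Fermat.Agent.S28.QExp
open Fermat.Agent.Kronecker (scaleL scaleL_coeff)
open Matrix.SpecialLinearGroup
open P2MW.S_ModularForm_heckeT_slash_eq_self_of_mem_Gamma0.ModularForm.HeckeSlashInvariance
open scoped Real Topology Manifold MatrixGroups ModularForm

/-! ### the translate `A ∣ σ`, `σ ∈ Γ₀(M)`, as a modular form on `Γ₁(M)` -/

open ConjAct Pointwise in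
/-- `Γ₀(M)` normalises `Γ₁(M)`, in `GL₂(ℝ)`. -/
theorem d3one_conj_Gamma1_eq (M : ℕ) (σ : SL(2, ℤ)) (hσ : σ ∈ Gamma0 M) :
    (Subgroup.map (mapGL ℝ) (Gamma1 M))
      = toConjAct (mapGL ℝ σ)⁻¹ • Subgroup.map (mapGL ℝ) (Gamma1 M) := by
  ext x
  rw [Subgroup.mem_pointwise_smul_iff_inv_smul_mem, ConjAct.toConjAct_inv, inv_inv,
    ConjAct.smul_def, ConjAct.ofConjAct_toConjAct]
  constructor
  · rintro ⟨γ, hγ, rfl⟩
    refine ⟨σ * γ * σ⁻¹, Fermat.Agent.S48.Neb.conj_mem_Gamma1 M σ γ hσ hγ, ?_⟩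
    simp
  · rintro ⟨γ, hγ, hx⟩
    refine ⟨σ⁻¹ * γ * σ, ?_, ?_⟩
    · have := Fermat.Agent.S48.Neb.conj_mem_Gamma1 M σ⁻¹ γ (inv_mem hσ) hγ
      rwa [inv_inv] at this
    · rw [map_mul, map_mul, hx, map_inv]
      group

/-- The translate `A ∣ σ` (`σ ∈ Γ₀(M)`) as a modular form on `Γ₁(M)`. -/
def slashForm1 {M : ℕ} {w : ℤ} (A : ModularForm (Gamma1 M) w) (σ : SL(2, ℤ))
    (hσ : σ ∈ Gamma0 M) : ModularForm (Gamma1 M) w :=
  (ModularForm.translate A (mapGL ℝ σ)).copy ((A : ℍ → ℂ) ∣[w] (mapGL ℝ σ)) rfl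
    (d3one_conj_Gamma1_eq M σ hσ)

theorem coe_slashForm1 {M : ℕ} {w : ℤ} (A : ModularForm (Gamma1 M) w) (σ : SL(2, ℤ))
    (hσ : σ ∈ Gamma0 M) : ⇑(slashForm1 A σ hσ) = ⇑A ∣[w] σ := rfl

/-! ### `q`-expansions -/

theorem d3one_hasQ {M : ℕ} {w : ℤ} (A : ModularForm (Gamma1 M) w) : HasQ A (qLaurent A) :=
  HasQ.of_isMF' (one_mem_strictPeriods_Gamma1_form M) (IsMF.of A)

theorem d3one_scaleL_ne_zero (z : ℂˣ) {s : LaurentSeries ℂ} (hs : s ≠ 0) : scaleL z s ≠ 0 := by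
  intro h
  apply hs
  ext n
  have := congrArg (fun y : LaurentSeries ℂ => y.coeff n) h
  simp only [scaleL_coeff, HahnSeries.coeff_zero] at this
  rcases mul_eq_zero.mp this with h1 | h1
  · exact absurd h1 (Units.ne_zero _)
  · simpa using h1

/-- The twisted formal operator `(s, t) ↦ s(q^{p²}) · ∏_{b<p} t(ζ^b q)`. -/
def d3oneE (p : ℕ) [NeZero p] [NeZero (p * p)] (s t : LaurentSeries ℂ) : LaurentSeries ℂ :=
  qExpand ℂ (p * p) s * ∏ b ∈ Finset.range p, scaleL (dict3Zeta p ^ b) t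

theorem d3oneE_mul (p : ℕ) [NeZero p] [NeZero (p * p)] (s s' t t' : LaurentSeries ℂ) :
    d3oneE p (s * s') (t * t') = d3oneE p s t * d3oneE p s' t' := by
  simp only [d3oneE, map_mul, Finset.prod_mul_distrib]
  ring

theorem d3oneE_ne_zero (p : ℕ) [NeZero p] [NeZero (p * p)] {s t : LaurentSeries ℂ}
    (hs : s ≠ 0) (ht : t ≠ 0) : d3oneE p s t ≠ 0 := by
  unfold d3oneE
  refine mul_ne_zero ?_ (Finset.prod_ne_zero_iff.mpr fun b _ => d3one_scaleL_ne_zero _ ht)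
  exact fun h => hs (qExpand_injective (R := ℂ) (p * p) (h.trans (map_zero _).symm))

/-- The product of the twisted Hecke translates, evaluated at `p τ`. -/
theorem d3one_prod_slash_mulUH (p : ℕ) [NeZero p] [NeZero (p * p)] (w : ℤ) (f g : ℍ → ℂ)
    (τ : ℍ) :
    (f ∣[w] heckeRep p (OnePoint.infty : OnePoint (ZMod p))) (mulUH p τ) *
        ∏ b : ZMod p, (g ∣[w] heckeRep p (OnePoint.some b)) (mulUH p τ) =
      dict3Const p w * (f (mulUH (p * p) τ) *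
        ∏ b ∈ Finset.range p, g ((b / p : ℝ) +ᵥ τ)) := by
  have h1 : ∀ b : ZMod p, (g ∣[w] heckeRep p (OnePoint.some b)) (mulUH p τ) =
      (g ∣[w] heckeMatrix p b.val) (mulUH p τ) := fun b => rfl
  have h2 : (f ∣[w] heckeRep p (OnePoint.infty : OnePoint (ZMod p))) (mulUH p τ) =
      (f ∣[w] heckeDiagMatrix p) (mulUH p τ) := rfl
  rw [h2, Finset.prod_congr rfl (fun b _ => h1 b), dict3_slash_diag, dict3_diag_smul_mulUH,
    ← dict3_prod_range_eq_prod_zmod p (fun j => (g ∣[w] heckeMatrix p j) (mulUH p τ))]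
  simp only [dict3_slash_upper, dict3_upper_smul_mulUH]
  rw [Finset.prod_mul_distrib, Finset.prod_const, Finset.card_range, dict3Const]
  ring

/-- **Key lemma**: the `q`-expansion of `A' = (A ∣ α_∞) · ∏_b (A ∣ σ) ∣ α_b`. -/
theorem d3one_qExpand_prod (M p : ℕ) [NeZero p] [NeZero (p * p)] {w w' : ℤ}
    (A As : ModularForm (Gamma1 M) w) (A' : ModularForm (Gamma1 M) w') (σ : SL(2, ℤ))
    (hAs : ⇑As = ⇑A ∣[w] σ)
    (hA' : ⇑A' = fun z => (⇑A ∣[w] heckeRep p (OnePoint.infty : OnePoint (ZMod p))) z *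
        ∏ b : ZMod p, ((⇑A ∣[w] σ) ∣[w] heckeRep p (OnePoint.some b)) z) :
    qExpand ℂ p (qLaurent A') =
      HahnSeries.C (dict3Const p w) * d3oneE p (qLaurent A) (qLaurent As) := by
  have hA : HasQ A (qLaurent A) := d3one_hasQ A
  have hAsQ : HasQ As (qLaurent As) := d3one_hasQ As
  have h1 : HasQ (fun τ => A' (mulUH p τ)) (qExpand ℂ p (qLaurent A')) :=
    (d3one_hasQ A').comp_mulUH p
  have h2 : HasQ ((fun _ : ℍ => dict3Const p w) * ((fun τ => A (mulUH (p * p) τ)) *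
      ∏ b ∈ Finset.range p, fun τ => As ((b / p : ℝ) +ᵥ τ)))
      (HahnSeries.C (dict3Const p w) * d3oneE p (qLaurent A) (qLaurent As)) :=
    (hasQ_const _).mul ((hA.comp_mulUH (p * p)).mul
      (HasQ.prod (Finset.range p) fun b _ =>
        dict3_hasQ_translate hAsQ (b / p : ℝ) (dict3Zeta p ^ b) (dict3Zeta_pow_coe p b)))
  refine h1.eq_of_eq h2 fun τ => ?_
  rw [hA']
  simp only [Pi.mul_apply, Finset.prod_apply]
  rw [hAs]
  exact d3one_prod_slash_mulUH p w A (⇑A ∣[w] σ) τ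

/-- **(D3-T)** from the twisted norm product formula, the diamond automorphisms and their
description on ratios of modular forms. -/
theorem dictD3One_of (M p : ℕ) [NeZero M] [NeZero p] [NeZero (p * p)]
    (hpu : IsUnit (p : ZMod M)) (hE : DictDiamondExists M) (hD : DictD3Diamond M)
    (hN : NormProductFormulaOneC M p) : DictD3One M p := by
  intro σ hσ hσp w A B x _ hx w' A' B' hA' hB'
  obtain ⟨d, hd⟩ := hpu
  obtain ⟨δ, hδ⟩ := hE d
  have hxs : IsRatio1 M (δ x) (slashForm1 A σ hσ) (slashForm1 B σ hσ) :=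
    hD d δ hδ σ hσ (by rw [hσp, hd]) w A B x hx _ _ (coe_slashForm1 A σ hσ)
      (coe_slashForm1 B σ hσ)
  obtain ⟨hB, hAB⟩ := hx
  obtain ⟨hBs, hABs⟩ := hxs
  have hqB : qLaurent B ≠ 0 := d1b_qLaurent_ne_zero B hB
  have hqBs : qLaurent (slashForm1 B σ hσ) ≠ 0 := d1b_qLaurent_ne_zero _ hBs
  have kA := d3one_qExpand_prod M p A (slashForm1 A σ hσ) A' σ (coe_slashForm1 A σ hσ) hA'
  have kB := d3one_qExpand_prod M p B (slashForm1 B σ hσ) B' σ (coe_slashForm1 B σ hσ) hB'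
  have hc := dict3Const_ne_zero p w
  have hC : (HahnSeries.C (dict3Const p w) : LaurentSeries ℂ) ≠ 0 := by
    intro h0
    have := congrArg (fun y : LaurentSeries ℂ => y.coeff 0) h0
    simp at this
    exact hc this
  have hB'0 : B' ≠ 0 := by
    rintro rfl
    have h0 : qLaurent (0 : ModularForm (Gamma1 M) w') = 0 := dict1QF_zero
    rw [h0, map_zero] at kB
    exact mul_ne_zero hC (d3oneE_ne_zero p hqB hqBs) kB.symm
  refine ⟨hB'0, ?_⟩
  apply qExpand_injective (R := ℂ) p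
  rw [map_mul, kA, kB, hN d hd δ hδ x, hAB, hABs, d3oneE_mul]
  unfold d3oneE
  ring

end Fermat.Agent.S48WA2
end
end MergeWrap_S48_W_A_Dict_D3One

section MergeWrap_S48_W_A_Dict_D3Final -- from S48/W/A/Dict/D3Final.lean

set_option autoImplicit false

noncomputable section

namespace Fermat.Agent.S48WA2

open UpperHalfPlane CongruenceSubgroup ModularCurve AlgebraicCurve
open scoped MatrixGroups ModularForm

/-- **(D3-T)** for `Γ₁(M)`, `3 ≤ M`, `p` prime, `p ∤ M`, from the analytic Fricke functions. -/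
theorem dictD3One_of_fricke (M p : ℕ) [NeZero M] [NeZero p] (hM : 3 ≤ M) (hp : p.Prime)
    (hpM : Nat.Coprime p M) (D : FrickeData M) : DictD3One M p := by
  haveI : NeZero (M * p) := ⟨mul_ne_zero (NeZero.ne M) (NeZero.ne p)⟩
  haveI : NeZero (p * p) := ⟨mul_ne_zero (NeZero.ne p) (NeZero.ne p)⟩
  refine dictD3One_of M p ?_ (dictDiamondExists_of D) (dictD3Diamond_of D)
    (normProductFormulaOneC_of M p hM hp hpM D)
  exact ⟨ZMod.unitOfCoprime p hpM, ZMod.coe_unitOfCoprime p hpM⟩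

/-- **The twisted norm product formula over `ℂ`** at level `Γ₁(M)`. -/
theorem normProductFormulaOneC_main (M p : ℕ) [NeZero M] [NeZero p] (hM : 3 ≤ M)
    (hp : p.Prime) (hpM : Nat.Coprime p M) : NormProductFormulaOneC M p := by
  haveI : NeZero (M * p) := ⟨mul_ne_zero (NeZero.ne M) (NeZero.ne p)⟩
  haveI : NeZero (p * p) := ⟨mul_ne_zero (NeZero.ne p) (NeZero.ne p)⟩
  exact normProductFormulaOneC_of M p hM hp hpM (frickeDataMain M)

/-- **(D3-T)**: the norm description of `T_p` on ratios of modular forms on `Γ₁(M)`. -/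
theorem dictD3One_main (M p : ℕ) [NeZero M] [NeZero p] (hM : 3 ≤ M) (hp : p.Prime)
    (hpM : Nat.Coprime p M) : DictD3One M p :=
  dictD3One_of_fricke M p hM hp hpM (frickeDataMain M)

/-- **(D3-δ)**: the diamond automorphisms on ratios of modular forms on `Γ₁(M)`. -/
theorem dictD3Diamond_main (M : ℕ) [NeZero M] : DictD3Diamond M :=
  dictD3Diamond_of (frickeDataMain M)

/-- **(D3-δ, existence)**: the diamond automorphisms of `F₁(M)` over `ℂ` exist. -/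
theorem dictDiamondExists_main (M : ℕ) [NeZero M] : DictDiamondExists M :=
  dictDiamondExists_of (frickeDataMain M)

end Fermat.Agent.S48WA2
end
end MergeWrap_S48_W_A_Dict_D3Final
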